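import Fermat.Agent.R59.TateW.Node

/-!
# S59, unit W: the sign by which the decomposition group acts on the components
-/

set_option autoImplicit false
set_option linter.unusedSectionVars false

namespace Fermat.Agent.R59

open WeierstrassCurve Fermat.Agent.EC

variable {L : Type*} [Field L] [IsAlgClosed L] [CharZero L] [DecidableEq L]
variable {F : Type*} [Field F] [Algebra F L]
variable {A : ValuationSubring L}

local notation "v" => A.valuation

section NF

variable {c : A} [((tateNF c).map (algebraMap A L)).IsElliptic] {p : ℕ} [hp : Fact p.Prime]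
  [hchar : CharP (IsLocalRing.ResidueField A) p]

/-- On the normal form a valuation-preserving automorphism fixing `c` moves non-big `pᵏ`-torsion
into the kernel of reduction. -/
theorem isBigPoint_sub_conj (hc0 : c ≠ 0) (hc : A.valuation (algebraMap A L c) < 1) (hodd : Odd p)
    (h2 : A.valuation (2 : L) = 1) {σ : L ≃ₐ[F] L} (hσ : ∀ z, A.valuation (σ z) = A.valuation z)
    {k : ℕ} {x y : L} (h : ((tateNF c).map (algebraMap A L)).toAffine.Nonsingular x y)
    (h' : ((tateNF c).map (algebraMap A L)).toAffine.Nonsingular (σ x) (σ y))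
    (t : p ^ k • Affine.Point.some x y h = 0)
    (t' : p ^ k • Affine.Point.some (σ x) (σ y) h' = 0) (hx : A.valuation x ≤ 1) :
    IsBigPoint A (Affine.Point.some (σ x) (σ y) h' - Affine.Point.some x y h) := by
  have hlt := val_lt_one_of_torsion hc h t hx
  obtain ⟨-, hb⟩ := half_and_branch hc0 hc hodd h2 h t hlt
  rcases hb with hb | hb
  · exact same_branch_sub_big hc h2 h h' t t' (hσ x) hlt hb (by rw [hσ]; exact hb)
  · have n₁ := (Affine.nonsingular_neg ..).2 h
    have n₂ := (Affine.nonsingular_neg ..).2 h'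
    have u₁ : p ^ k • Affine.Point.some _ _ n₁ = 0 := by
      rw [← Affine.Point.neg_some h, neg_nsmul, t, neg_zero]
    have u₂ : p ^ k • Affine.Point.some _ _ n₂ = 0 := by
      rw [← Affine.Point.neg_some h', neg_nsmul, t', neg_zero]
    have hneg : ∀ a b : L, ((tateNF c).map (algebraMap A L)).toAffine.negY a b = -b - a := by
      intro a b
      simp [Affine.negY, tateNF]
    have hb' : v (-σ y - σ x) < v x := by
      rw [show -σ y - σ x = σ (-y - x) by rw [map_sub, map_neg], hσ]; exact hb
    have := same_branch_sub_big hc h2 n₁ n₂ u₁ u₂ (hσ x) hlt (by rw [hneg]; exact hb)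
      (by rw [hneg]; exact hb')
    rw [← Affine.Point.neg_some h, ← Affine.Point.neg_some h'] at this
    rw [show Affine.Point.some (σ x) (σ y) h' - Affine.Point.some x y h =
      -(-Affine.Point.some (σ x) (σ y) h' - -Affine.Point.some x y h) by abel]
    exact isBigPoint_neg this

end NF

variable {p : ℕ} [hp : Fact p.Prime] [hchar : CharP (IsLocalRing.ResidueField A) p]

/-- Multiplicative reduction at a place over an odd `p`: a valuation-preserving automorphism fixing
the equation acts on the `p`-power torsion, modulo the kernel of reduction, by a sign, which is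
`1` on inertia. Moreover some `p`-torsion point is not in the kernel of reduction. -/
theorem exists_sign (W : WeierstrassCurve A) (hΔ : A.valuation (algebraMap A L W.Δ) < 1)
    (hΔ0 : W.Δ ≠ 0) (hc₄ : A.valuation (algebraMap A L W.c₄) = 1) (hp2 : p ≠ 2)
    [(W.map (algebraMap A L)).IsElliptic] :
    (∀ σ : L ≃ₐ[F] L, (∀ z, A.valuation (σ z) = A.valuation z) →
      σ (W.map (algebraMap A L)).a₁ = (W.map (algebraMap A L)).a₁ →
      σ (W.map (algebraMap A L)).a₂ = (W.map (algebraMap A L)).a₂ →
      σ (W.map (algebraMap A L)).a₃ = (W.map (algebraMap A L)).a₃ →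
      σ (W.map (algebraMap A L)).a₄ = (W.map (algebraMap A L)).a₄ →
      σ (W.map (algebraMap A L)).a₆ = (W.map (algebraMap A L)).a₆ →
      ∃ ε : ℤ, ε ^ 2 = 1 ∧ (ActsInertially A σ → ε = 1) ∧
        ∀ (k : ℕ) (x y : L) (h : (W.map (algebraMap A L)).toAffine.Nonsingular x y)
          (h' : (W.map (algebraMap A L)).toAffine.Nonsingular (σ x) (σ y)),
          p ^ k • Affine.Point.some x y h = 0 → p ^ k • Affine.Point.some (σ x) (σ y) h' = 0 →
          IsBigPoint A (Affine.Point.some (σ x) (σ y) h' - ε • Affine.Point.some x y h)) ∧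
    ∃ (x y : L) (h : (W.map (algebraMap A L)).toAffine.Nonsingular x y),
      p • Affine.Point.some x y h = 0 ∧ A.valuation x ≤ 1 := by
  have hodd : Odd p := hp.out.odd_of_ne_two hp2
  have h2 : v (2 : L) = 1 := by
    have h2k : ((2 : ℕ) : IsLocalRing.ResidueField A) ≠ 0 := fun h0 => by
      rw [CharP.cast_eq_zero_iff _ p, Nat.prime_dvd_prime_iff_eq hp.out Nat.prime_two] at h0
      exact hp2 h0
    rw [← map_natCast (IsLocalRing.residue A), IsLocalRing.residue_ne_zero_iff_isUnit] at h2k
    have h3 := (A.valuation_eq_one_iff _).1 h2k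
    push_cast at h3
    exact h3
  obtain ⟨C, c, hc0, hc, hC, hu, hr, hfix⟩ := exists_normal_node (F := F) W hΔ hΔ0 hc₄ h2
  haveI hell : ((tateNF c).map (algebraMap A L)).IsElliptic := by
    rw [← hC]; infer_instance
  refine ⟨fun σ hσ f₁ f₂ f₃ f₄ f₆ => ?_, ?_⟩
  · obtain ⟨gr, gt, gc, hε⟩ := hfix σ hσ f₁ f₂ f₃ f₄ f₆
    let σp : L →+* L := σ.toAlgHom.toRingHom
    have hmap : ((tateNF c).map (algebraMap A L)).map σp = (tateNF c).map (algebraMap A L) := by
      ext <;> simp [tateNF, σp]
      exact gc
    obtain ⟨ε, hε2, hε1, hεX⟩ : ∃ ε : ℤ, ε ^ 2 = 1 ∧ (ActsInertially A σ → ε = 1) ∧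
        ∀ (x y : L) (h : (W.map (algebraMap A L)).toAffine.Nonsingular x y)
          (h' : (W.map (algebraMap A L)).toAffine.Nonsingular (σ x) (σ y)),
          ∃ m : (C • W.map (algebraMap A L)).toAffine.Nonsingular (σ (vcX C x)) (σ (vcY C x y)),
            vcHom C (Affine.Point.some (σ x) (σ y) h') = ε • Affine.Point.some _ _ m := by
      have hns : ∀ {a b : L}, (C • W.map (algebraMap A L)).toAffine.Nonsingular a b →
          (C • W.map (algebraMap A L)).toAffine.Nonsingular (σ a) (σ b) := fun {a b} h => by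
        rw [hC] at h ⊢
        exact nonsingular_of_map σp hmap h
      rcases hε with ⟨gu, gs⟩ | ⟨gu, gs, hI⟩
      · refine ⟨1, one_pow 2, fun _ => rfl, fun x y h h' =>
          ⟨hns (vc_nonsingular C h), ?_⟩⟩
        rw [one_zsmul, vcHom_some, Affine.Point.some.injEq]
        constructor
        · rw [vcX, vcX, map_div₀ σ, map_sub, gr, map_pow, gu]
        · rw [vcY, vcY, map_div₀ σ, map_sub, map_sub, map_mul, map_sub, gs, gr, gt, map_pow, gu]
      · refine ⟨-1, by norm_num, fun h => absurd h hI, fun x y h h' =>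
          ⟨hns (vc_nonsingular C h), ?_⟩⟩
        have hu0 : (C.u : L) ≠ 0 := C.u.ne_zero
        rw [neg_one_zsmul, vcHom_some, Affine.Point.neg_some, Affine.Point.some.injEq]
        have hX : σ (vcX C x) = vcX C (σ x) := by
          rw [vcX, vcX, map_div₀ σ, map_sub, gr, map_pow, gu, neg_sq]
        refine ⟨hX.symm, ?_⟩
        rw [hX, Affine.negY, show (C • W.map (algebraMap A L)).a₁ = 1 by rw [hC]; simp [tateNF],
          show (C • W.map (algebraMap A L)).a₃ = 0 by rw [hC]; simp [tateNF],
          vcX, vcY, vcY, map_div₀ σ, map_sub, map_sub, map_mul, map_sub, gs, gr, gt, map_pow, gu]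
        field_simp
        ring
    refine ⟨ε, hε2, hε1, fun k x y h h' t t' => ?_⟩
    rcases le_or_gt (v x) 1 with hx | hx
    · obtain ⟨m, em⟩ := hεX x y h h'
      rw [← isBigPoint_vcHom_iff C hu hr, map_sub, map_zsmul, em, vcHom_some, ← zsmul_sub]
      have m₀ : ((tateNF c).map (algebraMap A L)).toAffine.Nonsingular (vcX C x) (vcY C x y) :=
        hC ▸ vc_nonsingular C h
      have m₁ : ((tateNF c).map (algebraMap A L)).toAffine.Nonsingular (σ (vcX C x))
          (σ (vcY C x y)) := hC ▸ m
      have hxC : v (vcX C x) ≤ 1 := not_lt.1 fun hb =>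
        not_lt.2 hx ((one_lt_val_vcX_iff C hu hr x).1 hb)
      have u₀ : p ^ k • Affine.Point.some _ _ (vc_nonsingular C h) = 0 := by
        rw [← vcHom_some C h, ← map_nsmul, t, _root_.map_zero]
      have u₁ : p ^ k • Affine.Point.some _ _ m = 0 := by
        have e : ε • (ε • Affine.Point.some _ _ m) = Affine.Point.some _ _ m := by
          rw [smul_smul, ← pow_two, hε2, one_zsmul]
        rw [← e, ← em, smul_comm, ← map_nsmul, t', _root_.map_zero, zsmul_zero]
      have key : ∀ (V : WeierstrassCurve L) (_ : V = (tateNF c).map (algebraMap A L)) {a b : L}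
          (k₀ : V.toAffine.Nonsingular a b) (k₁ : V.toAffine.Nonsingular (σ a) (σ b)),
          p ^ k • Affine.Point.some a b k₀ = 0 → p ^ k • Affine.Point.some (σ a) (σ b) k₁ = 0 →
          v a ≤ 1 → IsBigPoint A (Affine.Point.some (σ a) (σ b) k₁ - Affine.Point.some a b k₀) := by
        rintro V rfl a b k₀ k₁ e₀ e₁ ha
        exact isBigPoint_sub_conj hc0 hc hodd h2 hσ k₀ k₁ e₀ e₁ ha
      have hb := key _ hC (vc_nonsingular C h) m u₀ u₁ hxC
      rcases sq_eq_one_iff.1 hε2 with rfl | rfl
      · rw [one_zsmul]; exact hb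
      · rw [neg_one_zsmul]; exact isBigPoint_neg hb
    · have b₀ : IsBigPoint A (Affine.Point.some x y h) := by rwa [isBigPoint_some]
      have b₁ : IsBigPoint A (Affine.Point.some (σ x) (σ y) h') := by
        rw [isBigPoint_some, hσ]; exact hx
      exact (redKernel A W).sub_mem b₁ ((redKernel A W).zsmul_mem b₀ ε)
  · obtain ⟨x, y, h, t, hx⟩ := exists_not_big_torsion c hc hp.out.two_le
    obtain ⟨x₀, y₀, h₀, t₀, hvx⟩ := exists_vc_preimage C hC h t
    refine ⟨x₀, y₀, h₀, t₀, not_lt.1 fun hb => not_lt.2 hx ?_⟩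
    rw [← hvx, one_lt_val_vcX_iff C hu hr]
    exact hb

end Fermat.Agent.R59
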