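import Fermat.Agent.R59.TateW.Bundle
import Fermat.Agent.EC.Frey
import Fermat.Agent.EC.Local.AtTwo
import Fermat.Agent.LL.Frey.AtTwo
import Fermat.Agent.NewVec.InertiaField
import Mathlib.NumberTheory.Padics.PadicVal.Basic

/-!
# S59, unit W: `W[p]` is unramified at `q ≠ p` exactly when `p` divides `v_q(Δ)`

At a multiplicative `q` a torsion point meeting the node has, in the normal form, an abscissa of
value `v(Δ)^(k/p)`; it is also the value of `2y + a₁x + a₃`, so the point is moved by inertia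
unless `p` divides `v_q(Δ)`.
-/

set_option autoImplicit false
set_option linter.unusedSectionVars false
set_option linter.style.haveILetI false

noncomputable section

namespace Fermat.Agent.R59

open WeierstrassCurve WeierstrassCurve.Affine.Point IsLocalRing
open Fermat.Agent.EC Fermat.Agent.ConductorMatch
open scoped WeierstrassCurve.Affine

local notation "Qb" => AlgebraicClosure ℚ
local notation "GQ" => (AlgebraicClosure ℚ) ≃ₐ[ℚ] (AlgebraicClosure ℚ)

variable {A : ValuationSubring (AlgebraicClosure ℚ)} {q : ℕ}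

/-- The value of an integer is that of the power of `q` exactly dividing it. -/
theorem val_intCast_padicValInt (hq : q.Prime) (hA : A.LiesOverPrime q) {n : ℤ} (hn : n ≠ 0) :
    A.valuation (n : Qb) = A.valuation (q : Qb) ^ padicValInt q n := by
  haveI : Fact q.Prime := ⟨hq⟩
  obtain ⟨k, hk⟩ := padicValInt_dvd (p := q) n
  have hk' : ¬ (q : ℤ) ∣ k := by
    rintro ⟨j, rfl⟩
    have h : (q : ℤ) ^ (padicValInt q n + 1) ∣ n := ⟨j, by rw [pow_succ, mul_assoc, ← hk]⟩
    rw [padicValInt_dvd_iff] at h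
    rcases h with h | h
    · exact hn h
    · omega
  conv_lhs => rw [hk]
  rw [Int.cast_mul, Int.cast_pow, Int.cast_natCast, map_mul, map_pow,
    val_intCast_eq_one hq hA hk', mul_one]

section Local

variable {L : Type*} [Field L] [IsAlgClosed L] [CharZero L] [DecidableEq L]
variable {F : Type*} [Field F] [Algebra F L]
variable {B : ValuationSubring L} {σ : L ≃ₐ[F] L} {p : ℕ} [Fact p.Prime]

/-- The analogue of `EC.inertia_fix_mult` in residue characteristic two, for a model with `a₁`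
congruent to a unit whose square is one modulo four. -/
theorem inertia_fix_mult_two (W : WeierstrassCurve B) (h2 : B.valuation (2 : L) < 1)
    (hb₂ : B.valuation (algebraMap B L W.b₂ - 1) ≤ B.valuation (2 : L) ^ 2)
    (hΔ : B.valuation (algebraMap B L W.Δ) < 1) (hΔ0 : W.Δ ≠ 0)
    (hc₄ : B.valuation (algebraMap B L W.c₄) = 1)
    {V : WeierstrassCurve L} [hVe : V.IsElliptic] (hV : W.map (algebraMap B L) = V)
    (hfix₁ : σ V.a₁ = V.a₁) (hfix₂ : σ V.a₂ = V.a₂) (hfix₃ : σ V.a₃ = V.a₃)
    (hfix₄ : σ V.c₄ = V.c₄)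
    (hσ : ActsInertially B σ) (hpu : IsUnit (p : B)) (hodd : Odd p) {w : L} (hw : σ w = w)
    (hwc : B.valuation (algebraMap B L W.Δ) = B.valuation w ^ p)
    {x y : L} (h : V.toAffine.Nonsingular x y)
    (h' : V.toAffine.Nonsingular (σ x) (σ y)) (t : p • Affine.Point.some x y h = 0)
    (t' : p • Affine.Point.some (σ x) (σ y) h' = 0) : σ x = x ∧ σ y = y := by
  subst hV
  obtain ⟨u, c, hu, hc0, hc, hcΔ, hC⟩ := exists_tateNF W hΔ hΔ0 hc₄
  set C := toTateNF (W.map (algebraMap B L)) u with hCdef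
  have hvu : B.valuation (u : L) = 1 := by
    have := congrArg B.valuation hu
    rw [map_pow, hc₄] at this
    exact (pow_eq_one_iff_of_nonneg zero_le (by norm_num)).1 this
  obtain ⟨hr, hu2⟩ := toTateNF_branch W hvu hC hpu h t
  have h20 : B.valuation (2 : L) ≠ 0 := (_root_.map_ne_zero _).2 two_ne_zero
  obtain ⟨-, h12⟩ := val_twelve (A := B) h2
  have hu1 : B.valuation ((u : L) ^ 2 - 1) ≤ B.valuation (2 : L) ^ 2 := by
    rw [hu2, show algebraMap B L W.b₂ + 12 * C.r - 1 = (algebraMap B L W.b₂ - 1) + 12 * C.r by ring]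
    refine (B.valuation.map_add _ _).trans (max_le hb₂ ?_)
    rw [map_mul, h12]
    exact mul_le_of_le_one_right zero_le hr
  have hσu2 : σ ((u : L) ^ 2) = (u : L) ^ 2 := by
    have h4 : σ ((u : L) ^ 4) = (u : L) ^ 4 := by rwa [hu, ← map_c₄]
    have hf : (σ ((u : L) ^ 2) - (u : L) ^ 2) * (σ ((u : L) ^ 2) + (u : L) ^ 2) = 0 := by
      rw [map_pow] at h4 ⊢; linear_combination h4
    refine sub_eq_zero.1 ((mul_eq_zero.1 hf).resolve_right fun hs => ?_)
    have e : (2 : L) = -(σ ((u : L) ^ 2 - 1) + ((u : L) ^ 2 - 1)) := by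
      rw [map_sub, map_one]; linear_combination hs
    have hle : B.valuation (2 : L) ≤ B.valuation (2 : L) ^ 2 := by
      conv_lhs => rw [e, Valuation.map_neg]
      exact (B.valuation.map_add _ _).trans (max_le (by rw [hσ.valuation_eq]; exact hu1) hu1)
    rw [pow_two] at hle
    exact absurd hle (not_le.2 (mul_lt_of_lt_one_right (zero_lt_iff.2 h20) h2))
  have hσu : σ (u : L) = u := by
    have hf : (σ (u : L) - u) * (σ (u : L) + u) = 0 := by
      rw [map_pow] at hσu2; linear_combination hσu2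
    refine sub_eq_zero.1 ((mul_eq_zero.1 hf).resolve_right fun hs => ?_)
    set z := ((u : L) - 1) / 2 with hz
    have hz2 : B.valuation (z * (z + 1)) ≤ 1 := by
      rw [show z * (z + 1) = ((u : L) ^ 2 - 1) / (2 * 2) by rw [hz]; ring, map_div₀, map_mul,
        ← pow_two, div_le_one₀ (pow_pos (zero_lt_iff.2 h20) 2)]
      exact hu1
    have hz1 : B.valuation z ≤ 1 := by
      by_contra hgt
      push Not at hgt
      rw [map_mul, Valuation.map_add_eq_of_lt_left _ (by rwa [map_one])] at hz2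
      exact not_lt.2 hz2 (one_lt_mul_of_lt_of_le hgt hgt.le)
    have e : σ z - z = -(1 + 2 * z) := by
      rw [hz, map_div₀ σ, map_sub, map_one, map_ofNat,
        show σ (u : L) = -(u : L) by linear_combination hs]
      field_simp
      ring
    have := hσ.sub_lt z hz1
    rw [e, Valuation.map_neg, Valuation.map_add_eq_of_lt_left, map_one] at this
    · exact lt_irrefl _ this
    · rw [map_one]; exact val_mul_lt_one _ h2 hz1
  have hσs : σ C.s = C.s := by
    rw [show C.s = ((u : L) - (W.map (algebraMap B L)).a₁) / 2 from rfl, map_div₀ σ, map_sub,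
      hσu, hfix₁, map_ofNat]
  have hσr : σ C.r = C.r := by
    rw [show C.r = (C.s * (W.map (algebraMap B L)).a₁ + C.s ^ 2
        - (W.map (algebraMap B L)).a₂) / 3 from rfl]
    simp only [map_div₀ σ, map_sub, map_add, map_mul, map_pow, hσs, hfix₁, hfix₂, map_ofNat]
  have hσt : σ C.t = C.t := by
    rw [show C.t = -((W.map (algebraMap B L)).a₃ + C.r * (W.map (algebraMap B L)).a₁) / 2 from rfl]
    simp only [map_div₀ σ, map_neg, map_add, map_mul, hσr, hfix₁, hfix₃, map_ofNat]
  have hX : σ (vcX C x) = vcX C (σ x) := by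
    rw [vcX, vcX, map_div₀ σ, map_sub, hσr, map_pow, show C.u = u from rfl, hσu]
  have hY : σ (vcY C x y) = vcY C (σ x) (σ y) := by
    rw [vcY, vcY, map_div₀ σ, map_sub, map_sub, map_mul, map_sub, hσs, hσr, hσt, map_pow,
      show C.u = u from rfl, hσu]
  have m : (C • W.map (algebraMap B L)).toAffine.Nonsingular (σ (vcX C x)) (σ (vcY C x y)) := by
    rw [hX, hY]; exact vc_nonsingular C h'
  have key := tate_inertia_fix hc0 hc hC hpu hodd hσ hw (hcΔ.trans hwc) (vc_nonsingular C h) m
    (by rw [← vcHom_some C h, ← map_nsmul, t, _root_.map_zero])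
    (by
      have e : Affine.Point.some _ _ m = vcHom C (Affine.Point.some _ _ h') := by
        rw [vcHom_some, Affine.Point.some.injEq]; exact ⟨hX, hY⟩
      rw [e, ← map_nsmul, t', _root_.map_zero])
  rw [hX, hY, vcX_inj] at key
  obtain ⟨hxx, hyy⟩ := key
  rw [hxx, vcY_inj] at hyy
  exact ⟨hxx, hyy⟩

/-- A torsion point meeting the node has an abscissa of value a power of `v(Δ)^(1/p)` strictly
between `v(Δ)` and one, which is also the value of `2y + a₁x + a₃`. -/
theorem exists_torsion_val (W : WeierstrassCurve B) (hΔ : B.valuation (algebraMap B L W.Δ) < 1)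
    (hΔ0 : W.Δ ≠ 0) (hc₄ : B.valuation (algebraMap B L W.c₄) = 1) (hpu : IsUnit (p : B))
    (hodd : Odd p) {V : WeierstrassCurve L} [hVe : V.IsElliptic]
    (hV : W.map (algebraMap B L) = V) :
    ∃ (x y : L) (h : V.toAffine.Nonsingular x y) (k : ℕ), p • Affine.Point.some x y h = 0 ∧
      B.valuation (2 * y + V.a₁ * x + V.a₃) ^ p = B.valuation (algebraMap B L W.Δ) ^ k ∧
      B.valuation (2 * y + V.a₁ * x + V.a₃) < 1 ∧
      B.valuation (algebraMap B L W.Δ) < B.valuation (2 * y + V.a₁ * x + V.a₃) := by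
  subst hV
  obtain ⟨u, c, hu, hc0, hc, hcΔ, hC⟩ := exists_tateNF W hΔ hΔ0 hc₄
  set C := toTateNF (W.map (algebraMap B L)) u with hCdef
  have hvu : B.valuation (u : L) = 1 := by
    have := congrArg B.valuation hu
    rw [map_pow, hc₄] at this
    exact (pow_eq_one_iff_of_nonneg zero_le (by norm_num)).1 this
  haveI hell : ((tateNF c).map (algebraMap B L)).IsElliptic := by rw [← hC]; infer_instance
  obtain ⟨X', Y', hXY, ht', hX⟩ :=
    LL.exists_singular_torsion c hc (p := p) (Fact.out : p.Prime).two_le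
  obtain ⟨x, y, h, t, hx⟩ := exists_vc_preimage (V := W.map (algebraMap B L)) C hC hXY ht'
  have hCell : (C • W.map (algebraMap B L)).toAffine.Nonsingular (vcX C x) (vcY C x y) :=
    vc_nonsingular C h
  have hT : ((tateNF c).map (algebraMap B L)).toAffine.Nonsingular (vcX C x) (vcY C x y) :=
    hC ▸ hCell
  have hvx : B.valuation (vcX C x) < 1 := by rw [hx]; exact hX
  have tT : p • Affine.Point.some (vcX C x) (vcY C x y) hT = 0 := by
    have h0 : p • Affine.Point.some (vcX C x) (vcY C x y) hCell = 0 := by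
      rw [← vcHom_some C h, ← map_nsmul, t, _root_.map_zero]
    have := congrArg (sigmaPoint (RingHom.id L)
      (show (C • W.map (algebraMap B L)).map (RingHom.id L) = (tateNF c).map (algebraMap B L) by
        rw [← hC]; exact map_id _)) h0
    rwa [map_nsmul, _root_.map_zero, sigmaPoint_some] at this
  obtain ⟨k, hk⟩ := tate_position hc0 hc hpu hodd hT tT hvx
  have hlt := tate_c_lt_sq hc0 hc hpu hodd hT tT hvx
  set X := vcX C x with hXdef
  set Y := vcY C x y with hYdef
  have hX0 : 0 < B.valuation X ^ 2 := lt_of_le_of_lt zero_le hlt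
  have h4 : B.valuation (4 : L) ≤ 1 := by exact_mod_cast val_natCast_le_one (A := B) 4
  have hψ : B.valuation (2 * Y + X) = B.valuation X := by
    refine (pow_left_inj₀ zero_le zero_le two_ne_zero).1 ?_
    have he := (Affine.equation_iff ..).1 hT.1
    simp only [tateNF, WeierstrassCurve.map, map_one, _root_.map_zero, one_mul, zero_mul, add_zero] at he
    have hb : (2 * Y + X) ^ 2 = X ^ 2 + (4 * X ^ 3 + 4 * algebraMap B L c) := by
      linear_combination 4 * he
    rw [← map_pow, hb, Valuation.map_add_eq_of_lt_left, map_pow]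
    rw [map_pow]
    refine val_add_lt _ ?_ ?_
    · rw [map_mul, map_pow]
      refine lt_of_le_of_lt (mul_le_of_le_one_left zero_le h4) ?_
      rw [pow_succ]
      exact mul_lt_of_lt_one_right hX0 hvx
    · rw [map_mul]
      exact lt_of_le_of_lt (mul_le_of_le_one_left zero_le h4) hlt
  have hval : B.valuation (2 * y + (W.map (algebraMap B L)).a₁ * x + (W.map (algebraMap B L)).a₃) =
      B.valuation X := by
    have e : 2 * y + (W.map (algebraMap B L)).a₁ * x + (W.map (algebraMap B L)).a₃ =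
        (u : L) ^ 3 * (2 * Y + X) := by
      rw [hYdef, hXdef, vcX, vcY, show C.u = u from rfl,
        show C.t = -((W.map (algebraMap B L)).a₃ + C.r * (W.map (algebraMap B L)).a₁) / 2 from rfl,
        show C.s = ((u : L) - (W.map (algebraMap B L)).a₁) / 2 from rfl]
      have := u.ne_zero
      field_simp
      ring
    rw [e, map_mul, map_pow, hvu, one_pow, one_mul, hψ]
  refine ⟨x, y, h, k, t, ?_⟩
  rw [hval, ← hcΔ]
  refine ⟨hk, hvx, hlt.trans_le ?_⟩
  rw [pow_two]
  exact mul_le_of_le_one_left zero_le hvx.le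

end Local

variable (W : WeierstrassCurve ℤ) {p : ℕ} [Fact p.Prime]

/-- Inertia at `q ≠ p` fixes `W[p]` when `p ∣ v_q(Δ)`. -/
theorem torsion_smul_eq_of_dvd (hΔ : W.Δ ≠ 0) (hW : W.IsSemistableModel) (hp2 : p ≠ 2)
    (hq : q.Prime) (hqp : q ≠ p) (hv : p ∣ padicValInt q W.Δ) (hA : A.LiesOverPrime q) {σ : GQ}
    (hσ : σ ∈ A.inertiaSubgroupIn ℚ) {P : Pts W} (hP : p • P = 0) : σ • P = P := by
  classical
  have hp : p.Prime := Fact.out
  haveI := isElliptic_pts W hΔ
  rcases P with _ | ⟨x, y, h⟩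
  · rfl
  obtain ⟨h', e'⟩ := algEquiv_smul_some (K := Qb) (W.map (Int.castRingHom ℚ)).toAffine σ h
  have hP' : p • (σ • (Affine.Point.some x y h : Pts W)) = 0 := by
    rw [smul_comm, hP]; rfl
  rw [e'] at hP' ⊢
  haveI := isElliptic_pts W hΔ
  set WA := W.map (Int.castRingHom A) with hWA
  haveI : (WA.map (algebraMap A Qb)).IsElliptic := by
    rw [← baseChange_eq_map W A]; infer_instance
  have g : (WA.map (algebraMap A Qb)).toAffine.Nonsingular x y :=
    cast (by rw [baseChange_eq_map W A]) h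
  have g' : (WA.map (algebraMap A Qb)).toAffine.Nonsingular (σ x) (σ y) :=
    cast (by rw [baseChange_eq_map W A]) h'
  have t₁ : p • Affine.Point.some x y g = 0 := by
    have := congrArg (toPlace W A) hP
    rwa [map_nsmul, _root_.map_zero] at this
  have t₂ : p • Affine.Point.some (σ x) (σ y) g' = 0 := by
    have := congrArg (toPlace W A) hP'
    rwa [map_nsmul, _root_.map_zero] at this
  have hin := actsInertially_of_mem hσ
  have hpu : IsUnit (p : A) :=
    isUnit_natCast hq hA fun h0 => hqp ((Nat.prime_dvd_prime_iff_eq hq hp).1 h0)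
  have hodd : Odd p := hp.odd_of_ne_two hp2
  have hfix : ∀ z : ℤ, σ (algebraMap A Qb (Int.castRingHom A z)) =
      algebraMap A Qb (Int.castRingHom A z) := fun z => by simp
  have hfix₄ : σ (WA.map (algebraMap A Qb)).c₄ = (WA.map (algebraMap A Qb)).c₄ := by
    simp only [hWA, map_c₄, eq_intCast, map_intCast]
  suffices hxy : σ x = x ∧ σ y = y by
    rw [Affine.Point.some.injEq]; exact hxy
  by_cases hbad : (q : ℤ) ∣ W.Δ
  · have hd : A.valuation (algebraMap A Qb WA.Δ) < 1 := by
      rw [hWA, map_Δ, eq_intCast, map_intCast]; exact val_intCast_lt_one hA hbad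
    have hd0 : WA.Δ ≠ 0 := by
      rw [hWA, map_Δ, eq_intCast]; exact_mod_cast hΔ
    have hc4 : A.valuation (algebraMap A Qb WA.c₄) = 1 := by
      rw [hWA, map_c₄, eq_intCast, map_intCast]
      exact val_intCast_eq_one hq hA (hW q hq hbad)
    obtain ⟨j, hj⟩ := hv
    have hwc : A.valuation (algebraMap A Qb WA.Δ) = A.valuation ((q : Qb) ^ j) ^ p := by
      rw [hWA, map_Δ, eq_intCast, map_intCast, val_intCast_padicValInt hq hA hΔ, hj, map_pow,
        ← pow_mul, mul_comm]
    have hw : σ ((q : Qb) ^ j) = (q : Qb) ^ j := by simp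
    by_cases hq2 : q = 2
    · subst hq2
      have h2 : A.valuation (2 : Qb) < 1 := (ValuationSubring.mem_nonunits_iff A).1 hA
      have ha₁ : ¬ (2 : ℤ) ∣ W.a₁ := fun h0 => hW 2 hq hbad (by
        obtain ⟨m, hm⟩ := h0
        refine ⟨8 * (m ^ 2 + W.a₂) ^ 2 - 12 * W.b₄, ?_⟩
        rw [WeierstrassCurve.c₄, WeierstrassCurve.b₂, hm]
        push_cast
        ring)
      obtain ⟨n, hn⟩ : ∃ n, W.a₁ = 2 * n + 1 := Int.not_even_iff_odd.mp
        (fun h0 => ha₁ (even_iff_two_dvd.mp h0))
      have hb : A.valuation (algebraMap A Qb WA.b₂ - 1) ≤ A.valuation (2 : Qb) ^ 2 := by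
        rw [hWA, map_b₂, eq_intCast, map_intCast,
          show W.b₂ = 1 + 2 * 2 * (n * (n + 1) + W.a₂) by
            rw [WeierstrassCurve.b₂, hn]; ring]
        push_cast
        rw [add_sub_cancel_left, map_mul, show (4 : Qb) = 2 ^ 2 by norm_num, map_pow]
        refine mul_le_of_le_one_right zero_le ?_
        exact_mod_cast val_intCast_le_one (A := A) (n * (n + 1) + W.a₂)
      exact inertia_fix_mult_two WA h2 hb hd hd0 hc4 rfl (hfix _) (hfix _) (hfix _) hfix₄ hin hpu
        hodd hw hwc g g' t₁ t₂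
    · have h2 : A.valuation (2 : Qb) = 1 := by
        simpa using val_intCast_eq_one (A := A) hq hA (n := 2) (fun h0 => hq2
          ((Nat.prime_dvd_prime_iff_eq hq Nat.prime_two).1 (by exact_mod_cast h0)))
      exact inertia_fix_mult WA hd hd0 hc4 h2 rfl (hfix _) (hfix _) (hfix _) hfix₄ hin hpu
        hodd hw hwc g g' t₁ t₂
  · have hd : IsUnit WA.Δ := by
      rw [hWA, map_Δ, eq_intCast]; exact isUnit_intCast hq hA hbad
    exact inertia_fix_good WA hd rfl hin hpu hodd g g' t₁ t₂

/-- Inertia at a multiplicative `q ≠ p` moves `W[p]` when `p ∤ v_q(Δ)`. -/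
theorem exists_torsion_moved (hΔ : W.Δ ≠ 0) (hW : W.IsSemistableModel) (hp2 : p ≠ 2)
    (hq : q.Prime) (hqp : q ≠ p) (hv : ¬ p ∣ padicValInt q W.Δ) (hA : A.LiesOverPrime q) :
    ∃ σ ∈ A.inertiaSubgroupIn ℚ, ∃ P : Pts W, p • P = 0 ∧ σ • P ≠ P := by
  classical
  have hp : p.Prime := Fact.out
  have hbad : (q : ℤ) ∣ W.Δ := by
    by_contra h0
    exact hv (by rw [padicValInt.eq_zero_of_not_dvd h0]; exact dvd_zero p)
  by_contra hcon
  push Not at hcon
  haveI := isElliptic_pts W hΔ
  set WA := W.map (Int.castRingHom A) with hWA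
  haveI : (WA.map (algebraMap A Qb)).IsElliptic := by
    rw [← baseChange_eq_map W A]; infer_instance
  have hpu : IsUnit (p : A) :=
    isUnit_natCast hq hA fun h0 => hqp ((Nat.prime_dvd_prime_iff_eq hq hp).1 h0)
  have hd : A.valuation (algebraMap A Qb WA.Δ) < 1 := by
    rw [hWA, map_Δ, eq_intCast, map_intCast]; exact val_intCast_lt_one hA hbad
  have hd0 : WA.Δ ≠ 0 := by
    rw [hWA, map_Δ, eq_intCast]; exact_mod_cast hΔ
  have hc4 : A.valuation (algebraMap A Qb WA.c₄) = 1 := by
    rw [hWA, map_c₄, eq_intCast, map_intCast]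
    exact val_intCast_eq_one hq hA (hW q hq hbad)
  obtain ⟨x, y, h, k, t, hk, hlt1, hΔlt⟩ :=
    exists_torsion_val WA hd hd0 hc4 hpu (hp.odd_of_ne_two hp2) rfl
  set z := 2 * y + (WA.map (algebraMap A Qb)).a₁ * x + (WA.map (algebraMap A Qb)).a₃ with hz
  have g : ((W.map (Int.castRingHom ℚ)).toAffine⁄Qb).Nonsingular x y :=
    cast (by rw [baseChange_eq_map W A]) h
  have hP : p • (Affine.Point.some x y g : Pts W) = 0 := by
    refine toPlace_injective W A ?_
    rw [map_nsmul, _root_.map_zero]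
    exact t
  have hzfix : ∀ σ ∈ A.inertiaSubgroupIn ℚ, σ z = z := fun σ hσ => by
    obtain ⟨g', e'⟩ := algEquiv_smul_some (K := Qb) (W.map (Int.castRingHom ℚ)).toAffine σ g
    have := hcon σ hσ _ hP
    rw [e', Affine.Point.some.injEq] at this
    rw [hz]
    simp only [hWA, map_a₁, map_a₃, eq_intCast, map_intCast, map_add, map_mul, map_ofNat,
      this.1, this.2]
  have hz0 : z ≠ 0 := fun h0 => by
    rw [h0, _root_.map_zero] at hΔlt
    exact not_lt_zero hΔlt
  obtain ⟨a, ha⟩ := NewVec.exists_val_eq_zpow_of_fixed hq hA hzfix hz0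
  set Q := A.valuation (q : Qb) with hQ
  have hQ1 : Q < 1 := (ValuationSubring.mem_nonunits_iff A).1 hA
  have hQ0 : 0 < Q := zero_lt_iff.2 (by simpa [hQ] using hq.ne_zero)
  have hΔQ : A.valuation (algebraMap A Qb WA.Δ) = Q ^ padicValInt q W.Δ := by
    rw [hWA, map_Δ, eq_intCast, map_intCast, val_intCast_padicValInt hq hA hΔ]
  set m := padicValInt q W.Δ
  rw [ha, hΔQ] at hk hΔlt
  rw [ha] at hlt1
  rw [← zpow_natCast, ← zpow_mul, ← zpow_natCast, ← zpow_natCast, ← zpow_mul,
    zpow_right_inj₀ hQ0 hQ1.ne] at hk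
  rw [← zpow_zero Q, zpow_lt_zpow_iff_right_of_lt_one₀ hQ0 hQ1] at hlt1
  rw [← zpow_natCast, zpow_lt_zpow_iff_right_of_lt_one₀ hQ0 hQ1] at hΔlt
  -- `a p = m k` with `0 < a < m`
  have hdvd : (p : ℤ) ∣ (m : ℤ) * k := ⟨a, by rw [← hk, mul_comm]⟩
  rcases (Nat.prime_iff_prime_int.1 hp).dvd_or_dvd hdvd with h1 | h1
  · exact hv (Int.natCast_dvd_natCast.1 h1)
  · obtain ⟨j, hj⟩ := h1
    have hpne : (p : ℤ) ≠ 0 := Int.natCast_ne_zero.2 hp.ne_zero
    have hae : a = (m : ℤ) * j := by
      refine mul_right_cancel₀ hpne ?_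
      rw [hk, hj]; ring
    have hj1 : 1 ≤ j := by
      by_contra h0
      push Not at h0
      have : (m : ℤ) * j ≤ 0 := mul_nonpos_of_nonneg_of_nonpos (Int.natCast_nonneg m) (by omega)
      omega
    have : (m : ℤ) * 1 ≤ (m : ℤ) * j := mul_le_mul_of_nonneg_left hj1 (Int.natCast_nonneg m)
    omega

/-- `W[p]` is unramified at `q ≠ p` iff `p ∣ v_q(Δ)`. -/
theorem isUnramifiedAt_torsResidual_iff (hΔ : W.Δ ≠ 0) (hW : W.IsSemistableModel) (hp2 : p ≠ 2)
    (hq : q.Prime) (hqp : q ≠ p) :
    (torsResidual W p hΔ).IsUnramifiedAt q ↔ p ∣ padicValInt q W.Δ := by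
  constructor
  · intro hunr
    by_contra hv
    obtain ⟨B, hB⟩ := Galois.exists_liesOverPrime hq
    obtain ⟨σ, hσ, P, hP, hne⟩ := exists_torsion_moved W hΔ hW hp2 hq hqp hv hB
    refine hne ?_
    have hmem : P ∈ Submodule.torsionBy ℤ (Pts W) (p : ℤ) := by
      rw [Submodule.mem_torsionBy_iff, natCast_zsmul, hP]
    exact congrArg Subtype.val (LinearMap.congr_fun (hunr B hB σ hσ) ⟨P, hmem⟩)
  · intro hv B hB σ hσ
    refine LinearMap.ext fun P => Subtype.ext ?_
    have hP : p • (P.1 : Pts W) = 0 := by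
      have h0 := (Submodule.mem_torsionBy_iff _ _).1 P.2
      rwa [natCast_zsmul] at h0
    exact torsion_smul_eq_of_dvd W hΔ hW hp2 hq hqp hv hB hσ hP

end Fermat.Agent.R59
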