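import Fermat.Agent.EC.Local.AtP
import Fermat.Agent.EC.Local.ReductionHom

/-!
# S59, unit W: integral chords through points away from the kernel of reduction
-/

set_option autoImplicit false
set_option linter.unusedSectionVars false

namespace Fermat.Agent.R59

open WeierstrassCurve Fermat.Agent.EC

variable {L : Type*} [Field L] [IsAlgClosed L] [CharZero L] [DecidableEq L]
variable {A : ValuationSubring L} {W : WeierstrassCurve A}

local notation "v" => A.valuation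

/-- A point with a nonzero multiple of order prime to the residue characteristic is not in the
kernel of reduction. -/
theorem not_big_of_multiple [(W.map (algebraMap A L)).IsElliptic] {m : ℕ} (hm : IsUnit (m : A))
    {R : (W.map (algebraMap A L)).toAffine.Point} (k : ℕ) (hk : k • R ≠ 0)
    (hmk : m • (k • R) = 0) : ¬ IsBigPoint A R := by
  intro hR
  have hb : IsBigPoint A (k • R) := (redKernel A W).nsmul_mem hR k
  rcases e : k • R with _ | ⟨x, y, h⟩
  · exact hk e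
  · rw [e] at hb hmk
    rw [isBigPoint_some] at hb
    obtain ⟨a, -, ha, -⟩ := exists_coords hm h hmk
    rw [← ha] at hb
    exact not_lt.2 (A.valuation_le_one a) hb

/-- Two integral points whose sum, difference and whose first double are away from the kernel of
reduction have distinct abscissae modulo the maximal ideal. -/
theorem val_sub_eq_one (hΔ : IsUnit W.Δ) {x₁ y₁ x₂ y₂ : L}
    (h₁ : (W.map (algebraMap A L)).toAffine.Nonsingular x₁ y₁)
    (h₂ : (W.map (algebraMap A L)).toAffine.Nonsingular x₂ y₂) (i₁ : v x₁ ≤ 1) (i₂ : v x₂ ≤ 1)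
    (hd : ¬ IsBigPoint A (Affine.Point.some x₁ y₁ h₁ + Affine.Point.some x₁ y₁ h₁))
    (hs : ¬ IsBigPoint A (Affine.Point.some x₂ y₂ h₂ + Affine.Point.some x₁ y₁ h₁))
    (hm : ¬ IsBigPoint A (Affine.Point.some x₂ y₂ h₂ - Affine.Point.some x₁ y₁ h₁)) :
    v (x₂ - x₁) = 1 := by
  refine ((A.valuation.map_sub _ _).trans (max_le i₂ i₁)).lt_or_eq.resolve_left fun hlt => ?_
  let V := W.map (algebraMap A L)
  have ha : ∀ a : A, v (algebraMap A L a) ≤ 1 := A.valuation_le_one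
  have j₁ := val_y_le_one W i₁ h₁.1
  have j₂ := val_y_le_one W i₂ h₂.1
  have hψ := val_psi_eq_one W h₁ i₁ j₁ (forms_not_both_small hΔ i₁) hd
  have hid : (y₂ - y₁) * (y₂ - V.toAffine.negY x₁ y₁) =
      (x₂ - x₁) * (x₂ ^ 2 + x₁ * x₂ + x₁ ^ 2 + V.a₂ * (x₂ + x₁) + V.a₄ - V.a₁ * y₂) := by
    have e₁ := (Affine.equation_iff ..).1 h₁.1
    have e₂ := (Affine.equation_iff ..).1 h₂.1
    simp only [Affine.negY]
    linear_combination e₂ - e₁
  have hv : v ((x₂ - x₁) * (x₂ ^ 2 + x₁ * x₂ + x₁ ^ 2 + V.a₂ * (x₂ + x₁) + V.a₄ - V.a₁ * y₂)) < 1 := by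
    have hadd : ∀ a b : L, v a ≤ 1 → v b ≤ 1 → v (a + b) ≤ 1 := fun a b ha hb =>
      (A.valuation.map_add a b).trans (max_le ha hb)
    have q1 : v (x₂ ^ 2) ≤ 1 := by rw [map_pow]; exact pow_le_one₀ zero_le i₂
    have q2 : v (x₁ ^ 2) ≤ 1 := by rw [map_pow]; exact pow_le_one₀ zero_le i₁
    have q3 : v (x₁ * x₂) ≤ 1 := val_mul_le_one _ i₁ i₂
    have q4 : v (V.a₂ * (x₂ + x₁)) ≤ 1 := val_mul_le_one _ (ha W.a₂) (hadd _ _ i₂ i₁)
    have q5 : v (-(V.a₁ * y₂)) ≤ 1 := by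
      rw [Valuation.map_neg]; exact val_mul_le_one _ (ha W.a₁) j₂
    refine val_mul_lt_one _ hlt ?_
    rw [sub_eq_add_neg _ (V.a₁ * y₂)]
    exact hadd _ _ (hadd _ _ (hadd _ _ (hadd _ _ (hadd _ _ q1 q3) q2) q4) (ha W.a₄)) q5
  rw [← hid, map_mul] at hv
  by_cases hy : v (y₂ - y₁) < 1
  · exact hm (mem_redKernel_sub h₁ h₂ i₁ i₂ (by rw [hψ]; exact hlt) (by rw [hψ]; exact hy))
  · have hy1 : v (y₂ - y₁) = 1 :=
      ((A.valuation.map_sub _ _).trans (max_le j₂ j₁)).antisymm (not_lt.1 hy)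
    rw [hy1, one_mul] at hv
    have hψ' : v (2 * V.toAffine.negY x₁ y₁ + V.a₁ * x₁ + V.a₃) = 1 := by
      rw [← hψ, ← Valuation.map_neg v (2 * y₁ + V.a₁ * x₁ + V.a₃)]
      congr 1
      simp only [Affine.negY]
      ring
    refine hs ?_
    have := mem_redKernel_sub ((Affine.nonsingular_neg ..).2 h₁) h₂ i₁ i₂
      (by rw [hψ']; exact hlt) (by rw [hψ']; exact hv)
    rwa [← Affine.Point.neg_some h₁, sub_neg_eq_add, mem_redKernel_iff] at this

/-- The third point of the chord. -/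
theorem neg_add_eq_chord {V : WeierstrassCurve L} {x₁ y₁ x₂ y₂ : L}
    (h₁ : V.toAffine.Nonsingular x₁ y₁) (h₂ : V.toAffine.Nonsingular x₂ y₂) (hx : x₁ ≠ x₂) :
    ∃ h, -(Affine.Point.some x₁ y₁ h₁ + Affine.Point.some x₂ y₂ h₂) =
      Affine.Point.some (V.toAffine.addX x₁ x₂ ((y₁ - y₂) / (x₁ - x₂)))
        (V.toAffine.negAddY x₁ x₂ y₁ ((y₁ - y₂) / (x₁ - x₂))) h := by
  have h : V.toAffine.Nonsingular (V.toAffine.addX x₁ x₂ (V.toAffine.slope x₁ x₂ y₁ y₂))
      (V.toAffine.negY (V.toAffine.addX x₁ x₂ (V.toAffine.slope x₁ x₂ y₁ y₂))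
        (V.toAffine.addY x₁ x₂ y₁ (V.toAffine.slope x₁ x₂ y₁ y₂))) :=
    (Affine.nonsingular_neg ..).2 (Affine.nonsingular_add h₁ h₂ fun hxy => hx hxy.1)
  have e : -(Affine.Point.some x₁ y₁ h₁ + Affine.Point.some x₂ y₂ h₂) =
      Affine.Point.some _ _ h := by
    rw [Affine.Point.add_of_X_ne hx, Affine.Point.neg_some]
  revert h e
  rw [Affine.slope_of_X_ne hx, Affine.addY, Affine.negY_negY]
  exact fun h e => ⟨h, e⟩

end Fermat.Agent.R59
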