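import Fermat.Agent.R59.TateW.Basic
import Fermat.Agent.R59.TateW.Chord
import Fermat.Agent.MCurve.Flat.Closure
import Fermat.Agent.MCurve.Flat.Unram

/-!
# S59, unit W: finite flat models of `W[pⁿ]` at a prime of good reduction

The coordinates are those of the translates by the nonzero points of order dividing an auxiliary
prime `m`: they are integral, and the chord through `P + T` and `Q - 2T` gives `-(P + Q) + T`.
-/

set_option autoImplicit false
set_option linter.unusedSectionVars false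

noncomputable section

namespace Fermat.Agent.R59

open WeierstrassCurve WeierstrassCurve.Affine.Point IsLocalRing
open Fermat.Agent.EC Fermat.Agent.ConductorMatch
open Fermat.Agent.MCurve.Flat (HasFlatModel IntCoords exists_root_lift exists_pow_eq_self pow_eq_self_mul)
open scoped WeierstrassCurve.Affine

local notation "Qb" => AlgebraicClosure ℚ
local notation "GQ" => (AlgebraicClosure ℚ) ≃ₐ[ℚ] (AlgebraicClosure ℚ)

/-- A function with unit values has its inverse in the algebra it generates. -/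
theorem exists_inv_mem {R Z : Type*} [CommRing R] [Finite Z] (C : Subalgebra R (Z → R))
    {d : Z → R} (hd : d ∈ C) (hu : ∀ z, IsUnit (d z)) : ∃ e ∈ C, d * e = 1 := by
  classical
  haveI := Fintype.ofFinite Z
  let q : Polynomial R := ∏ z, (Polynomial.X - Polynomial.C (d z))
  have hq0 : Polynomial.aeval d q = 0 := by
    funext z
    rw [Pi.zero_apply, show Polynomial.aeval d q z = Polynomial.aeval (d z) q from
      (Polynomial.aeval_algHom_apply (Pi.evalAlgHom R (fun _ : Z => R) z) d q).symm,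
      map_prod, Finset.prod_eq_zero (Finset.mem_univ z) (by simp)]
  have hc : IsUnit (q.coeff 0) := by
    rw [Polynomial.coeff_zero_eq_eval_zero, Polynomial.eval_prod, IsUnit.prod_univ_iff]
    intro z
    rw [Polynomial.eval_sub, Polynomial.eval_X, Polynomial.eval_C, zero_sub]
    exact (hu z).neg
  obtain ⟨c, hc⟩ := hc.exists_left_inv
  have hq := congrArg (Polynomial.aeval d) q.X_mul_divX_add
  rw [hq0, map_add, map_mul, Polynomial.aeval_X, Polynomial.aeval_C] at hq
  refine ⟨(-c) • Polynomial.aeval d q.divX, C.smul_mem ?_ _, ?_⟩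
  · exact Algebra.adjoin_le (Set.singleton_subset_iff.2 hd)
      (Polynomial.aeval_mem_adjoin_singleton R d)
  · funext z
    have h := congrFun hq z
    simp only [Pi.add_apply, Pi.mul_apply, Pi.zero_apply, Pi.algebraMap_apply,
      Algebra.algebraMap_self, RingHom.id_apply] at h
    simp only [Pi.mul_apply, Pi.smul_apply, Pi.one_apply, smul_eq_mul]
    linear_combination -c * h + hc

section Point

variable {A : ValuationSubring Qb} {V : WeierstrassCurve Qb}

open Classical in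
/-- The abscissa, as an element of `A` (`0` if not integral). -/
def absA : V.toAffine.Point → A
  | .zero => 0
  | .some x _ _ => if h : x ∈ A then ⟨x, h⟩ else 0

open Classical in
/-- The ordinate, as an element of `A` (`0` if not integral). -/
def ordA : V.toAffine.Point → A
  | .zero => 0
  | .some _ y _ => if h : y ∈ A then ⟨y, h⟩ else 0

theorem coe_absA {x y : Qb} (h : V.toAffine.Nonsingular x y) (hx : x ∈ A) :
    ((absA (A := A) (Affine.Point.some x y h) : A) : Qb) = x := by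
  simp [absA, hx]

theorem coe_ordA {x y : Qb} (h : V.toAffine.Nonsingular x y) (hy : y ∈ A) :
    ((ordA (A := A) (Affine.Point.some x y h) : A) : Qb) = y := by
  simp [ordA, hy]

/-- A point away from the kernel of reduction has integral coordinates. -/
theorem exists_eq_some_of_not_big (W : WeierstrassCurve A)
    {R : (W.map (algebraMap A Qb)).toAffine.Point} (h : ¬ IsBigPoint A R) :
    ∃ (x y : Qb) (hh : (W.map (algebraMap A Qb)).toAffine.Nonsingular x y),
      R = Affine.Point.some x y hh ∧ x ∈ A ∧ y ∈ A := by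
  rcases R with _ | ⟨x, y, hh⟩
  · exact absurd isBigPoint_zero h
  · rw [isBigPoint_some, not_lt] at h
    have hx : x ∈ A := (A.valuation_le_one_iff x).1 h
    exact ⟨x, y, hh, rfl, hx, y_mem_of_x_mem A W hx hh.1⟩

end Point

variable (W : WeierstrassCurve ℤ) (p : ℕ) [Fact p.Prime]

/-- An auxiliary prime. -/
theorem exists_aux_prime : ∃ m : ℕ, m.Prime ∧ m ≠ p ∧ 5 ≤ m := by
  by_cases h : p = 5
  · exact ⟨7, by norm_num, by omega, by norm_num⟩
  · exact ⟨5, by norm_num, Ne.symm h, le_rfl⟩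

/-- The nonzero points killed by `m`. -/
abbrev Aux (m : ℕ) : Type := {T : Pts W // m • T = 0 ∧ T ≠ 0}

theorem natCast_smul_ne_zero {m : ℕ} (hm : m.Prime) {T : Pts W} (hT : m • T = 0) (hT0 : T ≠ 0)
    {j : ℕ} (hj : ¬ m ∣ j) : j • T ≠ 0 := fun h => hT0 (AddMonoid.addOrderOf_eq_one_iff.1
  (Nat.eq_one_of_dvd_coprimes (hm.coprime_iff_not_dvd.2 hj)
    (addOrderOf_dvd_iff_nsmul_eq_zero.2 hT) (addOrderOf_dvd_iff_nsmul_eq_zero.2 h)))

section Good

variable {W p}
variable (hgood : ¬ (p : ℤ) ∣ W.Δ) {A : ValuationSubring Qb} (hA : A.LiesOverPrime p)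
  {n m : ℕ} (hm : m.Prime) (hmp : m ≠ p)

include hgood hA

theorem isElliptic_good :
    ((W.map (Int.castRingHom A)).map (algebraMap A Qb)).IsElliptic :=
  ⟨by rw [map_Δ]; exact (isUnit_delta_place W Fact.out hgood hA).map _⟩

include hm hmp in
theorem not_big_translate {P T : Pts W} (hP : p ^ n • P = 0) (hT : m • T = 0) (hT0 : T ≠ 0) :
    ¬ IsBigPoint A (toPlace W A (P + T)) := by
  haveI := isElliptic_good hgood hA
  have hmu : IsUnit (m : A) := by
    rw [← Int.cast_natCast]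
    exact isUnit_intCast Fact.out hA fun h => hmp
      ((Nat.prime_dvd_prime_iff_eq (Fact.out : p.Prime) hm).1 (Int.natCast_dvd_natCast.1 h)).symm
  have e : p ^ n • (P + T) = p ^ n • T := by rw [nsmul_add, hP, zero_add]
  refine not_big_of_multiple hmu (p ^ n) ?_ ?_
  · rw [← map_nsmul, ← _root_.map_zero (toPlace W A), (toPlace_injective W A).ne_iff, e]
    exact natCast_smul_ne_zero W hm hT hT0 fun h => hmp
      ((Nat.prime_dvd_prime_iff_eq hm Fact.out).1 (hm.dvd_of_dvd_pow h))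
  · rw [← map_nsmul, ← map_nsmul, e, smul_comm, hT, nsmul_zero, _root_.map_zero]

omit hA in
theorem smul_coords {σ : GQ} (hσ : σ ∈ A.decompositionSubgroup ℚ) (R : Pts W)
    (h : ¬ IsBigPoint A (toPlace W A R)) :
    ((absA (A := A) (toPlace W A (σ • R)) : A) : Qb) = σ (absA (A := A) (toPlace W A R) : A) ∧
      ((ordA (A := A) (toPlace W A (σ • R)) : A) : Qb) =
        σ (ordA (A := A) (toPlace W A R) : A) := by
  haveI := isElliptic_pts W fun h : W.Δ = 0 => hgood (h ▸ dvd_zero _)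
  rcases R with _ | ⟨x, y, hh⟩
  · exact absurd isBigPoint_zero h
  · obtain ⟨h', e⟩ := algEquiv_smul_some (K := Qb) (W.map (Int.castRingHom ℚ)).toAffine σ hh
    obtain ⟨x₁, y₁, hh₁, e₁, hx₁, hy₁⟩ := exists_eq_some_of_not_big _ h
    obtain ⟨rfl, rfl⟩ := (Affine.Point.some.injEq ..).mp e₁
    simp only [RingHom.id_apply] at hx₁ hy₁
    have hmem : ∀ z ∈ A, σ z ∈ A := fun z hz =>
      ((⟨σ, hσ⟩ : A.decompositionSubgroup ℚ) • (⟨z, hz⟩ : A)).2
    rw [e]
    constructor
    · refine (coe_absA _ (hmem _ hx₁)).trans (congrArg σ ?_)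
      exact (coe_absA _ hx₁).symm
    · refine (coe_ordA _ (hmem _ hy₁)).trans (congrArg σ ?_)
      exact (coe_ordA _ hy₁).symm

include hm hmp in
/-- Decomposition elements acting trivially on enough roots of unity fix the auxiliary points. -/
theorem exists_fixing_exponent (hm2 : m ≠ 2) [Finite (Aux W m)] :
    ∃ f : ℕ, 0 < f ∧ ∀ σ : GQ, σ ∈ A.decompositionSubgroup ℚ →
      (∀ ζ : Qb, ζ ^ (p ^ f - 1) = 1 → σ ζ = ζ) → ∀ T : Aux W m, σ • T.1 = T.1 := by
  classical
  haveI := Fintype.ofFinite (Aux W m)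
  haveI := isElliptic_good hgood hA
  have hΔ : IsUnit (W.map (Int.castRingHom A)).Δ := isUnit_delta_place W Fact.out hgood hA
  have hmu : IsUnit (m : A) := by
    rw [← Int.cast_natCast]
    exact isUnit_intCast Fact.out hA fun h => hmp
      ((Nat.prime_dvd_prime_iff_eq (Fact.out : p.Prime) hm).1 (Int.natCast_dvd_natCast.1 h)).symm
  let res : Bool → Aux W m → A := fun b T =>
    if b then ordA (toPlace W A T.1) else absA (toPlace W A T.1)
  choose g hg0 hg using fun z : Bool × Aux W m =>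
    exists_pow_eq_self hA (residue A (res z.1 z.2))
  refine ⟨∏ z, g z, Finset.prod_pos fun z _ => hg0 z, fun σ hσ hζ T => ?_⟩
  have hres : ∀ b, residue A ((⟨σ, hσ⟩ : A.decompositionSubgroup ℚ) • res b T) =
      residue A (res b T) := by
    intro b
    obtain ⟨k, hk⟩ := Finset.dvd_prod_of_mem g (Finset.mem_univ (b, T))
    obtain ⟨z, hz, hz'⟩ := exists_root_lift hA
      (Finset.prod_pos fun z _ => hg0 z : 0 < ∏ z, g z) (x := residue A (res b T))
      (by rw [hk]; exact pow_eq_self_mul (hg (b, T)) k)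
    have hfix : (⟨σ, hσ⟩ : A.decompositionSubgroup ℚ) • z = z := by
      refine Subtype.ext ?_
      show σ (z : Qb) = z
      rcases hz' with rfl | hz'
      · exact _root_.map_zero σ
      · exact hζ _ hz'
    rw [ResidueField.residue_smul, ← hz, ← ResidueField.residue_smul, hfix]
  have hnb : ¬ IsBigPoint A (toPlace W A T.1) := by
    have := not_big_translate hgood hA (n := 0) hm hmp (P := (0 : Pts W)) (nsmul_zero _) T.2.1 T.2.2
    rwa [zero_add] at this
  obtain ⟨h1, h2⟩ := smul_coords hgood hσ T.1 hnb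
  have hnb' : ¬ IsBigPoint A (toPlace W A (σ • T.1)) := by
    have := not_big_translate hgood hA (n := 0) hm hmp (P := (0 : Pts W)) (nsmul_zero _)
      (T := σ • T.1) (by rw [smul_comm, T.2.1]; rfl) fun h => T.2.2 (by
        have := congrArg (σ⁻¹ • ·) h
        rw [inv_smul_smul] at this
        exact this.trans rfl)
    rwa [zero_add] at this
  obtain ⟨x₁, y₁, k₁, e₁, hx₁, hy₁⟩ := exists_eq_some_of_not_big _ hnb
  obtain ⟨x₂, y₂, k₂, e₂, hx₂, hy₂⟩ := exists_eq_some_of_not_big _ hnb'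
  rw [e₁, e₂] at h1 h2
  rw [coe_absA _ hx₁, coe_absA _ hx₂] at h1
  rw [coe_ordA _ hy₁, coe_ordA _ hy₂] at h2
  have r1 := hres false
  have r2 := hres true
  simp only [res, Bool.false_eq_true, if_false, if_true, e₁] at r1 r2
  rw [residue_eq_residue_iff] at r1 r2
  refine toPlace_injective W A ?_
  rw [e₁, e₂]
  refine (eq_of_congr hmu (hm.odd_of_ne_two hm2) k₁ k₂
    (by rw [← e₁, ← map_nsmul, T.2.1, _root_.map_zero])
    (by rw [← e₂, ← map_nsmul, smul_comm, T.2.1]; exact _root_.map_zero _)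
    (forms_not_both_small hΔ ((A.valuation_le_one_iff _).2 hx₁)) ?_ ?_).symm
  · rw [← Valuation.map_neg, neg_sub, h1]
    have e : (((⟨σ, hσ⟩ : A.decompositionSubgroup ℚ) •
      absA (A := A) (Affine.Point.some x₁ y₁ k₁) : A) : Qb) = σ x₁ := congrArg σ (coe_absA _ hx₁)
    rw [e, coe_absA _ hx₁] at r1
    exact r1
  · rw [← Valuation.map_neg, neg_sub, h2]
    have e : (((⟨σ, hσ⟩ : A.decompositionSubgroup ℚ) •
      ordA (A := A) (Affine.Point.some x₁ y₁ k₁) : A) : Qb) = σ y₁ := congrArg σ (coe_ordA _ hy₁)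
    rw [e, coe_ordA _ hy₁] at r2
    exact r2

include hm hmp in
/-- The chord through `P + T` and `Q - 2T`. -/
theorem chord_coords (hm5 : 5 ≤ m) (hp2 : p ≠ 2) {P Q T : Pts W} (hP : p ^ n • P = 0)
    (hQ : p ^ n • Q = 0) (hT : m • T = 0) (hT0 : T ≠ 0) :
    ∀ (X₁ Y₁ X₂ Y₂ X₃ Y₃ : A), X₁ = absA (toPlace W A (P + T)) → Y₁ = ordA (toPlace W A (P + T)) →
      X₂ = absA (toPlace W A (Q + -(2 • T))) → Y₂ = ordA (toPlace W A (Q + -(2 • T))) →
      X₃ = absA (toPlace W A (-(P + Q) + T)) → Y₃ = ordA (toPlace W A (-(P + Q) + T)) →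
      IsUnit (X₂ - X₁) ∧
      ∀ D : A, (X₂ - X₁) * D = 1 →
        X₃ = ((Y₂ - Y₁) * D) ^ 2 + (W.a₁ : A) * ((Y₂ - Y₁) * D) - (W.a₂ : A) - X₁ - X₂ ∧
        Y₃ = (Y₂ - Y₁) * D * (X₃ - X₁) + Y₁ := by
  intro X₁ Y₁ X₂ Y₂ X₃ Y₃ a₁ b₁ a₂ b₂ a₃ b₃
  classical
  haveI := isElliptic_good hgood hA
  have hΔ : IsUnit (W.map (Int.castRingHom A)).Δ := isUnit_delta_place W Fact.out hgood hA
  have hj : ∀ j : ℕ, 0 < j → j < m → j • T ≠ 0 := fun j hj0 hjm =>
    natCast_smul_ne_zero W hm hT hT0 fun h => by have := Nat.le_of_dvd hj0 h; omega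
  have hjm : ∀ j : ℕ, m • (j • T) = 0 := fun j => by rw [smul_comm, hT, nsmul_zero]
  have hjm' : ∀ j : ℕ, m • (-(j • T)) = 0 := fun j => by rw [neg_nsmul, hjm, _root_.neg_zero]
  have k₁ := not_big_translate hgood hA (n := n) hm hmp hP hT hT0
  have k₂ := not_big_translate hgood hA (n := n) hm hmp hQ (hjm' 2)
    (neg_ne_zero.2 (hj 2 two_pos (by omega)))
  have k₃ := not_big_translate hgood hA (n := n) hm hmp (P := -(P + Q))
    (by rw [neg_nsmul, nsmul_add, hP, hQ, add_zero, _root_.neg_zero]) hT hT0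
  have kd := not_big_translate hgood hA (n := n) hm hmp (P := P + P)
    (by rw [nsmul_add, hP, add_zero]) (hjm 2) (hj 2 two_pos (by omega))
  have ks := not_big_translate hgood hA (n := n) hm hmp (P := Q + P)
    (by rw [nsmul_add, hP, hQ, add_zero]) (by rw [neg_nsmul, hT, _root_.neg_zero] : m • (-T) = 0)
    (neg_ne_zero.2 hT0)
  have kf := not_big_translate hgood hA (n := n) hm hmp (P := Q - P)
    (by rw [nsmul_sub, hP, hQ, sub_zero]) (hjm' 3) (neg_ne_zero.2 (hj 3 (by omega) (by omega)))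
  obtain ⟨x₁, y₁, h₁, e₁, hx₁, hy₁⟩ := exists_eq_some_of_not_big _ k₁
  obtain ⟨x₂, y₂, h₂, e₂, hx₂, hy₂⟩ := exists_eq_some_of_not_big _ k₂
  obtain ⟨x₃, y₃, h₃, e₃, hx₃, hy₃⟩ := exists_eq_some_of_not_big _ k₃
  have hv : A.valuation (x₂ - x₁) = 1 := by
    refine val_sub_eq_one hΔ h₁ h₂ ((A.valuation_le_one_iff _).2 hx₁)
      ((A.valuation_le_one_iff _).2 hx₂) ?_ ?_ ?_
    · rw [← e₁, ← map_add, show P + T + (P + T) = P + P + 2 • T by rw [two_nsmul]; abel]
      exact kd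
    · rw [← e₁, ← e₂, ← map_add, show Q + -(2 • T) + (P + T) = Q + P + -T by
        rw [two_nsmul]; abel]
      exact ks
    · rw [← e₁, ← e₂, ← map_sub, show Q + -(2 • T) - (P + T) = Q - P + -(3 • T) by
        rw [two_nsmul, show (3 : ℕ) = 2 + 1 from rfl, add_nsmul, two_nsmul, one_nsmul]; abel]
      exact kf
  have cX₁ : (X₁ : Qb) = x₁ := by rw [a₁, e₁]; exact coe_absA _ hx₁
  have cY₁ : (Y₁ : Qb) = y₁ := by rw [b₁, e₁]; exact coe_ordA _ hy₁
  have cX₂ : (X₂ : Qb) = x₂ := by rw [a₂, e₂]; exact coe_absA _ hx₂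
  have cY₂ : (Y₂ : Qb) = y₂ := by rw [b₂, e₂]; exact coe_ordA _ hy₂
  have cX₃ : (X₃ : Qb) = x₃ := by rw [a₃, e₃]; exact coe_absA _ hx₃
  have cY₃ : (Y₃ : Qb) = y₃ := by rw [b₃, e₃]; exact coe_ordA _ hy₃
  refine ⟨(A.valuation_eq_one_iff _).2 (by push_cast; rw [cX₁, cX₂]; exact hv), fun D hD => ?_⟩
  have hne : x₁ ≠ x₂ := fun e => by rw [e, sub_self, _root_.map_zero] at hv; exact zero_ne_one hv
  obtain ⟨h, e⟩ := neg_add_eq_chord h₁ h₂ hne
  have key : toPlace W A (-(P + Q) + T) =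
      -(Affine.Point.some x₁ y₁ h₁ + Affine.Point.some x₂ y₂ h₂) := by
    rw [← e₁, ← e₂, ← map_add, ← map_neg]
    congr 1
    rw [two_nsmul]
    abel
  rw [e₃, e, Affine.Point.some.injEq] at key
  have hD' : (x₂ - x₁) * (D : Qb) = 1 := by
    rw [← cX₁, ← cX₂]
    exact_mod_cast congrArg Subtype.val hD
  have hs : (y₁ - y₂) / (x₁ - x₂) = (y₂ - y₁) * (D : Qb) := by
    rw [div_eq_iff (sub_ne_zero.2 hne)]
    linear_combination (y₂ - y₁) * hD'
  rw [hs] at key
  simp only [Affine.addX, Affine.negAddY, map_a₁, map_a₂, eq_intCast] at key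
  have f₃ : x₃ = ((y₂ - y₁) * (D : Qb)) ^ 2 + (W.a₁ : Qb) * ((y₂ - y₁) * (D : Qb))
      - (W.a₂ : Qb) - x₁ - x₂ := by
    rw [key.1]
    rw [map_intCast, map_intCast]
  constructor
  · refine Subtype.ext ?_
    push_cast
    rw [cX₃, cY₁, cY₂, cX₁, cX₂]
    exact f₃
  · refine Subtype.ext ?_
    push_cast
    rw [cY₃, cY₁, cY₂, cX₁, cX₃]
    rw [key.2, key.1]

/-- `W[pⁿ]` has integral coordinates at a good place over `p`. -/
theorem nonempty_intCoords (hp2 : p ≠ 2) (hm5 : 5 ≤ m) (hm : m.Prime) (hmp : m ≠ p) :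
    Nonempty (IntCoords (Submodule.torsionBy ℤ (Pts W) ((p ^ n : ℕ) : ℤ)) A p) := by
  classical
  have hΔ0 : W.Δ ≠ 0 := fun h => hgood (h ▸ dvd_zero _)
  haveI := isElliptic_pts W hΔ0
  haveI := finite_torsionBy ((W.map (Int.castRingHom ℚ))⁄Qb) m hm.one_le
  haveI : Finite (Aux W m) := Finite.of_injective
    (fun T : Aux W m => (⟨T.1, (mem_tors_iff W).2 T.2.1⟩ :
      Submodule.torsionBy ℤ (Pts W) (m : ℤ)))
    fun T U h => Subtype.ext (congrArg (fun z => (z.1 : Pts W)) h)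
  haveI := Fintype.ofFinite (Aux W m)
  haveI := finite_torsionBy ((W.map (Int.castRingHom ℚ))⁄Qb) (p ^ n)
    (Nat.one_le_pow _ _ (Fact.out : p.Prime).pos)
  obtain ⟨f, hf, hfix⟩ := exists_fixing_exponent hgood hA hm hmp (by omega)
  set M := Submodule.torsionBy ℤ (Pts W) ((p ^ n : ℕ) : ℤ)
  have hM : ∀ P : M, p ^ n • (P : Pts W) = 0 := fun P => (mem_tors_iff W).1 P.2
  let φ : Bool × Aux W m → M → A := fun i P =>
    if i.1 then ordA (toPlace W A ((P : Pts W) + i.2.1))
    else absA (toPlace W A ((P : Pts W) + i.2.1))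
  have hnb : ∀ (P : M) (T : Aux W m), ¬ IsBigPoint A (toPlace W A ((P : Pts W) + T.1)) :=
    fun P T => not_big_translate hgood hA hm hmp (hM P) T.2.1 T.2.2
  obtain ⟨T₀⟩ : Nonempty (Aux W m) := by
    by_contra h
    have hall : ∀ x : Submodule.torsionBy ℤ (Pts W) (m : ℤ), x = 0 := fun x => by
      by_contra hx
      exact h ⟨⟨x.1, (mem_tors_iff W).1 x.2, fun e => hx (Subtype.ext e)⟩⟩
    have h1 := natCard_torsionBy ((W.map (Int.castRingHom ℚ))⁄Qb) m hm.one_le
    haveI : Subsingleton (Submodule.torsionBy ℤ (Pts W) (m : ℤ)) :=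
      ⟨fun a b => (hall a).trans (hall b).symm⟩
    rw [Nat.card_unique] at h1
    have := hm.two_le
    nlinarith
  refine ⟨{
    ι := Bool × Aux W m
    fintype_ι := inferInstance
    φ := φ
    sep := fun P Q h => ?_
    f := f
    f_pos := hf
    equiv := fun σ hσ hζ i P => ?_
    isOpen_stab := ?_
    flip := fun i => ?_ }⟩
  · obtain ⟨x₁, y₁, k₁, e₁, hx₁, hy₁⟩ := exists_eq_some_of_not_big _ (hnb P T₀)
    obtain ⟨x₂, y₂, k₂, e₂, hx₂, hy₂⟩ := exists_eq_some_of_not_big _ (hnb Q T₀)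
    have r1 := congrArg Subtype.val (congrFun h (false, T₀))
    have r2 := congrArg Subtype.val (congrFun h (true, T₀))
    simp only [φ, Bool.false_eq_true, if_false, if_true, e₁, e₂] at r1 r2
    rw [coe_absA _ hx₁, coe_absA _ hx₂] at r1
    rw [coe_ordA _ hy₁, coe_ordA _ hy₂] at r2
    refine Subtype.ext (add_right_cancel (b := T₀.1) (toPlace_injective W A ?_))
    rw [e₁, e₂]
    exact (Affine.Point.some.injEq ..).mpr ⟨r1, r2⟩
  · obtain ⟨h1, h2⟩ := smul_coords hgood hσ _ (hnb P i.2)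
    have e : σ • ((P : Pts W) + i.2.1) = ((σ • P : M) : Pts W) + i.2.1 :=
      (map_add (DistribSMul.toAddMonoidHom (Pts W) σ) (P : Pts W) i.2.1).trans
        (congrArg₂ (· + ·) rfl (hfix σ hσ hζ i.2))
    rw [e] at h1 h2
    rcases i with ⟨_ | _, T⟩
    · exact h1
    · exact h2
  · obtain ⟨L, hL, hfixL⟩ := exists_finite_level (K := Qb) ℚ
      (W.map (Int.castRingHom ℚ)).toAffine (p ^ n) (Nat.one_le_pow _ _ (Fact.out : p.Prime).pos)
    exact ⟨L, hL, fun σ hσ P => hfixL σ hσ P⟩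
  · obtain ⟨b, T⟩ := i
    have h2T : m • (-(2 • T.1)) = 0 ∧ -(2 • T.1) ≠ 0 :=
      ⟨by rw [neg_nsmul, smul_comm, T.2.1, nsmul_zero, _root_.neg_zero],
        neg_ne_zero.2 (natCast_smul_ne_zero W hm T.2.1 T.2.2 fun h => by
          have := Nat.le_of_dvd two_pos h; omega)⟩
    let T' : Aux W m := ⟨-(2 • T.1), h2T⟩
    set C := Algebra.adjoin A (Set.range (fun j => fun q : M × M => φ j q.1) ∪
      Set.range fun j => fun q : M × M => φ j q.2) with hC
    let X₁ : M × M → A := fun q => φ (false, T) q.1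
    let Y₁ : M × M → A := fun q => φ (true, T) q.1
    let X₂ : M × M → A := fun q => φ (false, T') q.2
    let Y₂ : M × M → A := fun q => φ (true, T') q.2
    have hX₁ : X₁ ∈ C := Algebra.subset_adjoin (Or.inl ⟨_, rfl⟩)
    have hY₁ : Y₁ ∈ C := Algebra.subset_adjoin (Or.inl ⟨_, rfl⟩)
    have hX₂ : X₂ ∈ C := Algebra.subset_adjoin (Or.inr ⟨_, rfl⟩)
    have hY₂ : Y₂ ∈ C := Algebra.subset_adjoin (Or.inr ⟨_, rfl⟩)
    have key := fun q : M × M => chord_coords hgood hA hm hmp hm5 hp2 (hM q.1) (hM q.2) T.2.1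
      T.2.2 (X₁ q) (Y₁ q) (X₂ q) (Y₂ q) (φ (false, T) (-(q.1 + q.2))) (φ (true, T) (-(q.1 + q.2)))
      rfl rfl rfl rfl rfl rfl
    obtain ⟨D, hD, hXD⟩ := exists_inv_mem C (sub_mem hX₂ hX₁) fun q => (key q).1
    let l : M × M → A := (Y₂ - Y₁) * D
    have hl : l ∈ C := mul_mem (sub_mem hY₂ hY₁) hD
    let X₃ : M × M → A := l ^ 2 + (W.a₁ : A) • l - algebraMap A _ (W.a₂ : A) - X₁ - X₂
    have hX₃ : X₃ ∈ C := sub_mem (sub_mem (sub_mem (add_mem (pow_mem hl 2) (C.smul_mem hl _))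
      (C.algebraMap_mem _)) hX₁) hX₂
    have hE : ∀ q, φ (false, T) (-(q.1 + q.2)) = X₃ q ∧
        φ (true, T) (-(q.1 + q.2)) = l q * (X₃ q - X₁ q) + Y₁ q := fun q => by
      obtain ⟨f₁, f₂⟩ := (key q).2 (D q) (congrFun hXD q)
      refine ⟨f₁, ?_⟩
      rw [f₂, f₁]
      rfl
    cases b
    · rw [show (fun q : M × M => φ (false, T) (-(q.1 + q.2))) = X₃ from funext fun q => (hE q).1]
      exact hX₃
    · rw [show (fun q : M × M => φ (true, T) (-(q.1 + q.2))) = l * (X₃ - X₁) + Y₁ from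
        funext fun q => (hE q).2]
      exact add_mem (mul_mem hl (sub_mem hX₃ hX₁)) hY₁

end Good

variable {W p}

/-- `W[pⁿ]` has a finite flat model at a good prime `p`. -/
theorem hasFlatModel_tors (hp2 : p ≠ 2) (hgood : ¬ (p : ℤ) ∣ W.Δ) (n : ℕ) :
    HasFlatModel (Submodule.torsionBy ℤ (Pts W) ((p ^ n : ℕ) : ℤ)) p := by
  have hΔ0 : W.Δ ≠ 0 := fun h => hgood (h ▸ dvd_zero _)
  haveI := isElliptic_pts W hΔ0
  haveI := finite_torsionBy ((W.map (Int.castRingHom ℚ))⁄Qb) (p ^ n)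
    (Nat.one_le_pow _ _ (Fact.out : p.Prime).pos)
  obtain ⟨A, hA⟩ := Galois.exists_liesOverPrime (Fact.out : p.Prime)
  obtain ⟨m, hm, hmp, hm5⟩ := exists_aux_prime p
  obtain ⟨C⟩ := nonempty_intCoords hgood hA (n := n) hp2 hm5 hm hmp
  exact Fermat.Agent.MCurve.Flat.hasFlatModel_of_intCoords hA C

end Fermat.Agent.R59
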