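import Fermat.Agent.R59.TateW.Basic
import Fermat.Prelude.Def_GaloisRep_Flat
import Fermat.Prelude.Def_GaloisRep_StrictOrdinary

/-!
# S59, unit W: the bundle of properties of the Tate module of a semistable model
-/

set_option autoImplicit false
set_option linter.unusedSectionVars false

noncomputable section

namespace Fermat.Agent.R59

open WeierstrassCurve WeierstrassCurve.Affine.Point Polynomial
open Fermat.Agent.Deform Fermat.Agent.ConductorMatch
open scoped WeierstrassCurve.Affine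

local notation "Qb" => AlgebraicClosure ℚ
local notation "GQ" => (AlgebraicClosure ℚ) ≃ₐ[ℚ] (AlgebraicClosure ℚ)

variable (W : WeierstrassCurve ℤ) (p : ℕ) [Fact p.Prime]

theorem natCard_torsion_sq (hΔ : W.Δ ≠ 0) :
    Nat.card (Submodule.torsionBy ℤ ((W.map (Int.castRingHom ℚ))⁄Qb).Point (p : ℤ)) = p ^ 2 :=
  haveI := isElliptic_pts W hΔ
  EC.natCard_torsionBy ((W.map (Int.castRingHom ℚ))⁄Qb) p (Fact.out : p.Prime).one_le

theorem factors_torsion (hΔ : W.Δ ≠ 0) :
    GaloisFactorsThroughFiniteLevel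
      (galoisRepModuleEnd (K := Qb) ℚ (W.map (Int.castRingHom ℚ)).toAffine p) := by
  haveI := isElliptic_pts W hΔ
  obtain ⟨L, hL, hfix⟩ := EC.exists_finite_level (K := Qb) ℚ
    (W.map (Int.castRingHom ℚ)).toAffine p (Fact.out : p.Prime).one_le
  exact ⟨L, hL, fun σ hσ => LinearMap.ext fun P => hfix σ hσ P⟩

/-- The mod `p` representation of `W`, as a residual Galois representation. -/
def torsResidual (hΔ : W.Δ ≠ 0) : ResidualGaloisRep (ZMod p) :=
  (W.map (Int.castRingHom ℚ)).residualGaloisRepOf p (natCard_torsion_sq W p hΔ)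
    (factors_torsion W p hΔ)

/-- The properties of (a base change of) the `p`-adic Tate module of a semistable model `W`. -/
structure IsTateRep {A : Type} [CommRing A] [IsLocalRing A] (ρ : GaloisRepAdic A) : Prop where
  det_cyc : ρ.DetIsCyclotomic p
  unram : ∀ q : ℕ, q.Prime → q ≠ p → ¬ (q : ℤ) ∣ W.Δ → ρ.IsUnramifiedAt q
  charpoly_frob : ∀ ℓ : ℕ, ℓ.Prime → ℓ ≠ p → W.IsGoodPrimeFor ℓ →
    ∀ P : ValuationSubring Qb, P.LiesOverPrime ℓ → ∀ σ : GQ, P.IsFrobeniusAt σ ℓ →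
      LinearMap.charpoly (ρ.ρ σ) = X ^ 2 - C ((W.apOfModel ℓ : A)) * X + C ((ℓ : A))
  unipotent : ∀ q : ℕ, q.Prime → q ≠ p → ρ.IsUnipotentOnInertiaAt q
  flat : ¬ (p : ℤ) ∣ W.Δ → ρ.IsFlatAt p
  ordinary : (p : ℤ) ∣ W.Δ → ρ.IsStrictOrdinaryAt p
  residual : ∀ (hΔ : W.Δ ≠ 0) (ψ : ZMod p →+* IsLocalRing.ResidueField A),
    ρ.residual.IsEquiv ((torsResidual W p hΔ).baseChangeAlong ψ)

end Fermat.Agent.R59
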