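import Fermat.Agent.ConductorMatch.Compare
import Fermat.Agent.EC.Torsion
import Fermat.Agent.EC.Rep
import Fermat.Agent.Deform.MatrixRep

/-!
# S59, unit W: the Tate module of an integral model

Compatible bases of the `p`-power torsion give a matrix representation over `ℤ_[p]`.
-/

set_option autoImplicit false
set_option linter.unusedSectionVars false

noncomputable section

namespace Fermat.Agent.R59

open WeierstrassCurve WeierstrassCurve.Affine.Point
open Fermat.Agent.Deform Fermat.Agent.ConductorMatch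
open scoped WeierstrassCurve.Affine

local notation "Qb" => AlgebraicClosure ℚ
local notation "GQ" => (AlgebraicClosure ℚ) ≃ₐ[ℚ] (AlgebraicClosure ℚ)

variable (W : WeierstrassCurve ℤ) (p : ℕ) [Fact p.Prime]

/-- A `p`-adic Tate module of `W`: level maps `ι n : ℤ_p² → W[pⁿ]` and the Galois matrices. -/
structure TateData where
  /-- The Galois matrices. -/
  r : GQ →* Mat2 ℤ_[p]
  cts : MatCts r
  /-- The level maps. -/
  ι : ℕ → (Fin 2 → ℤ_[p]) →+ Pts W
  ι_surj : ∀ (n : ℕ) (P : Pts W), p ^ n • P = 0 → ∃ v, ι n v = P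
  ι_eq_zero : ∀ (n : ℕ) (v : Fin 2 → ℤ_[p]), ι n v = 0 ↔ ∀ i, (p : ℤ_[p]) ^ n ∣ v i
  ι_succ : ∀ (n : ℕ) (v : Fin 2 → ℤ_[p]), p • ι (n + 1) v = ι n v
  ι_smul : ∀ (n : ℕ) (σ : GQ) (v : Fin 2 → ℤ_[p]), σ • ι n v = ι n ((r σ).mulVec v)

variable {W p}

namespace TateData

variable (T : TateData W p)

/-- The representation. -/
abbrev rep : GaloisRepAdic ℤ_[p] := ofMatrix T.r T.cts

theorem hasMatrix : HasMatrix T.rep T.r := hasMatrix_ofMatrix T.r T.cts

theorem pow_nsmul_ι (n : ℕ) (v : Fin 2 → ℤ_[p]) : p ^ n • T.ι n v = 0 := by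
  rw [← map_nsmul, T.ι_eq_zero]
  intro i
  exact ⟨v i, by rw [Pi.smul_apply, nsmul_eq_mul, Nat.cast_pow]⟩

theorem ι_padd (n k : ℕ) (v : Fin 2 → ℤ_[p]) : p ^ k • T.ι (n + k) v = T.ι n v := by
  induction k with
  | zero => simp
  | succ k ih => rw [pow_succ, mul_nsmul', ← add_assoc, T.ι_succ, ih]

theorem ι_smul_eq (n : ℕ) (σ : GQ) (v : Fin 2 → ℤ_[p]) :
    σ • T.ι n v = T.ι n (T.rep.ρ σ v) := T.ι_smul n σ v

theorem ι_congr (n : ℕ) {c : ℤ_[p]} {a : ℕ} (h : (p : ℤ_[p]) ^ n ∣ c - a) (v : Fin 2 → ℤ_[p]) :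
    T.ι n (c • v) = a • T.ι n v := by
  rw [← map_nsmul, ← sub_eq_zero, ← map_sub, T.ι_eq_zero]
  intro i
  rw [Pi.sub_apply, Pi.smul_apply, Pi.smul_apply, smul_eq_mul, nsmul_eq_mul, ← sub_mul]
  exact h.mul_right _

end TateData

theorem eq_zero_of_forall_pow_dvd {x : ℤ_[p]} (h : ∀ n : ℕ, (p : ℤ_[p]) ^ n ∣ x) : x = 0 := by
  have hp : (p : ℤ_[p]) ∈ IsLocalRing.maximalIdeal ℤ_[p] := by
    rw [PadicInt.maximalIdeal_eq_span_p]; exact Ideal.mem_span_singleton_self _
  refine IsHausdorff.haus (inferInstance : IsHausdorff (IsLocalRing.maximalIdeal ℤ_[p]) ℤ_[p]) x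
    fun n => ?_
  rw [SModEq.zero, smul_eq_mul, Ideal.mul_top]
  obtain ⟨c, rfl⟩ := h n
  exact Ideal.mul_mem_right _ _ (Ideal.pow_mem_pow hp n)

variable (W p)

section Construction

variable [((W.map (Int.castRingHom ℚ))⁄Qb).IsElliptic]

theorem mem_tors_iff {n : ℕ} {P : Pts W} :
    P ∈ Submodule.torsionBy ℤ (Pts W) (n : ℤ) ↔ n • P = 0 :=
  EC.mem_torsionBy_iff_nsmul ((W.map (Int.castRingHom ℚ))⁄Qb)

theorem natCard_tors (n : ℕ) :
    Nat.card {P : Pts W // p ^ n • P = 0} = (p ^ n) ^ 2 := by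
  rw [← EC.natCard_torsionBy ((W.map (Int.castRingHom ℚ))⁄Qb) (p ^ n)
    (Nat.one_le_pow _ _ (Fact.out : p.Prime).pos)]
  exact Nat.card_congr (Equiv.subtypeEquivRight fun P => (mem_tors_iff W).symm)

/-- Multiplication by `p` maps `W[p^(n+1)]` onto `W[p^n]`. -/
theorem exists_p_nsmul_eq (n : ℕ) (P : Pts W) (hP : p ^ n • P = 0) :
    ∃ Q : Pts W, p • Q = P := by
  classical
  let H : ℕ → AddSubgroup (Pts W) := fun k => (nsmulAddMonoidHom (p ^ k)).ker
  have hH : ∀ k, Nat.card (H k) = (p ^ k) ^ 2 := fun k => natCard_tors W p k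
  haveI : ∀ k, Finite (H k) := fun k => Nat.finite_of_card_ne_zero (by
    rw [hH]; exact pow_ne_zero _ (pow_ne_zero _ (Fact.out : p.Prime).ne_zero))
  let f : H (n + 1) →+ H n :=
    ((nsmulAddMonoidHom p).comp (H (n + 1)).subtype).codRestrict (H n) fun x => by
      show p ^ n • p • (x : Pts W) = 0
      rw [← mul_nsmul', ← pow_succ]
      exact x.2
  have hker : Nat.card f.ker = (p ^ 1) ^ 2 := by
    rw [← hH 1]
    refine Nat.card_congr
      { toFun := fun x => ⟨x.1.1, ?_⟩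
        invFun := fun y => ⟨⟨y.1, ?_⟩, ?_⟩
        left_inv := fun _ => rfl
        right_inv := fun _ => rfl }
    · show p ^ 1 • x.1.1 = 0
      rw [pow_one]
      exact congrArg Subtype.val (AddMonoidHom.mem_ker.1 x.2)
    · show p ^ (n + 1) • y.1 = 0
      have hy : p ^ 1 • y.1 = 0 := y.2
      rw [pow_one] at hy
      rw [pow_succ, mul_nsmul', hy, nsmul_zero]
    · refine AddMonoidHom.mem_ker.2 (Subtype.ext ?_)
      show p • y.1 = 0
      have hy : p ^ 1 • y.1 = 0 := y.2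
      rwa [pow_one] at hy
  have hrange : Nat.card f.range = Nat.card (H n) := by
    have h1 : Nat.card f.ker * Nat.card f.range = Nat.card (H (n + 1)) := by
      rw [← Nat.card_congr (QuotientAddGroup.quotientKerEquivRange f).toEquiv,
        AddSubgroup.card_eq_card_quotient_mul_card_addSubgroup f.ker, mul_comm]
    rw [hker, hH] at h1
    rw [hH]
    have hp2 : 0 < (p ^ 1) ^ 2 := by
      have := (Fact.out : p.Prime).pos
      positivity
    refine mul_left_cancel₀ hp2.ne' (h1.trans ?_)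
    ring
  have htop : f.range = ⊤ := AddSubgroup.eq_top_of_card_eq _ hrange
  obtain ⟨Q, hQ⟩ : (⟨P, hP⟩ : H n) ∈ f.range := htop ▸ AddSubgroup.mem_top _
  exact ⟨Q.1, congrArg Subtype.val hQ⟩

/-- Compatible bases at all levels. -/
theorem exists_bases : ∃ b : ℕ → Fin 2 → Pts W,
    (∀ i, b 0 i = 0) ∧ (∀ n i, p • b (n + 1) i = b n i) ∧ (∀ n i, p ^ n • b n i = 0) ∧
    (∀ a : Fin 2 → ℕ, ∑ i, a i • b 1 i = 0 → ∀ i, p ∣ a i) ∧
    (∀ P : Pts W, p • P = 0 → ∃ a : Fin 2 → ℕ, ∑ i, a i • b 1 i = P) := by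
  classical
  have hp : p.Prime := Fact.out
  have hrk := EC.finrank_torsionBy (K := Qb) (W.map (Int.castRingHom ℚ)).toAffine p
  haveI : Module.Finite (ZMod p) (Submodule.torsionBy ℤ (Pts W) (p : ℤ)) :=
    Module.finite_of_finrank_eq_succ hrk
  let B := Module.finBasisOfFinrankEq (ZMod p) _ hrk
  let b1 : Fin 2 → Pts W := fun i => (B i).1
  have hb1 : ∀ i, p • b1 i = 0 := fun i => (mem_tors_iff W).1 (B i).2
  have hsum : ∀ a : Fin 2 → ℕ,
      ((∑ i, (a i : ZMod p) • B i : Submodule.torsionBy ℤ (Pts W) (p : ℤ)) : Pts W) =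
        ∑ i, a i • b1 i := fun a => by
    rw [Submodule.coe_sum]
    refine Finset.sum_congr rfl fun i _ => ?_
    rw [Nat.cast_smul_eq_nsmul, Submodule.coe_smul_of_tower]
  let step : ∀ (i : Fin 2) (n : ℕ), {P : Pts W // p ^ (n + 1) • P = 0} := fun i n =>
    Nat.rec ⟨b1 i, by show p ^ (0 + 1) • b1 i = 0; rw [zero_add, pow_one]; exact hb1 i⟩
      (fun n P => ⟨(exists_p_nsmul_eq W p (n + 1) P.1 P.2).choose, by
        rw [pow_succ p (n + 1), mul_nsmul', (exists_p_nsmul_eq W p (n + 1) P.1 P.2).choose_spec,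
          P.2]⟩) n
  have hstep : ∀ i n, p • (step i (n + 1)).1 = (step i n).1 := fun i n =>
    (exists_p_nsmul_eq W p (n + 1) _ (step i n).2).choose_spec
  let b : ℕ → Fin 2 → Pts W := fun n i =>
    match n with
    | 0 => 0
    | n + 1 => (step i n).1
  refine ⟨b, fun i => rfl, fun n i => ?_, fun n i => ?_, fun a ha i => ?_, fun P hP => ?_⟩
  · cases n with
    | zero => exact hb1 i
    | succ n => exact hstep i n
  · cases n with
    | zero => exact nsmul_zero _
    | succ n => exact (step i n).2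
  · have h0 : ∑ i, (a i : ZMod p) • B i = 0 := Subtype.ext ((hsum a).trans ha)
    exact (ZMod.natCast_eq_zero_iff _ _).1
      (Fintype.linearIndependent_iff.1 B.linearIndependent _ h0 i)
  · let x : Submodule.torsionBy ℤ (Pts W) (p : ℤ) := ⟨P, (mem_tors_iff W).2 hP⟩
    refine ⟨fun i => (B.repr x i).val, ?_⟩
    have h2 : ∑ i, ((B.repr x i).val : ZMod p) • B i = x := by
      simp_rw [ZMod.natCast_zmod_val]
      exact B.sum_repr x
    rw [← hsum, h2]

variable {W p}

/-- The level map of a system of bases. -/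
def levelHom (b : ℕ → Fin 2 → Pts W) (hb : ∀ n i, p ^ n • b n i = 0) (n : ℕ) :
    (Fin 2 → ℤ_[p]) →+ Pts W :=
  AddMonoidHom.mk' (fun v => ∑ i, (PadicInt.toZModPow n (v i)).val • b n i) fun v w => by
    rw [← Finset.sum_add_distrib]
    refine Finset.sum_congr rfl fun i _ => ?_
    rw [Pi.add_apply, map_add, ← add_nsmul, ZMod.val_add]
    conv_rhs => rw [← Nat.mod_add_div ((PadicInt.toZModPow n (v i)).val +
      (PadicInt.toZModPow n (w i)).val) (p ^ n)]
    rw [add_nsmul, mul_comm (p ^ n), mul_nsmul', hb, nsmul_zero, add_zero]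

theorem exists_limit (u : ℕ → ℤ_[p]) (hu : ∀ n, (p : ℤ_[p]) ^ n ∣ u (n + 1) - u n) :
    ∃ x : ℤ_[p], ∀ n, (p : ℤ_[p]) ^ n ∣ x - u n := by
  have hm : ∀ (n : ℕ) (y : ℤ_[p]),
      y ∈ IsLocalRing.maximalIdeal ℤ_[p] ^ n ↔ (p : ℤ_[p]) ^ n ∣ y := fun n y => by
    rw [PadicInt.maximalIdeal_eq_span_p, Ideal.span_singleton_pow, Ideal.mem_span_singleton]
  have hcauchy : ∀ m k, (p : ℤ_[p]) ^ m ∣ u m - u (m + k) := by
    intro m k
    induction k with
    | zero => simp
    | succ k ih =>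
      have h2 := dvd_trans (pow_dvd_pow (p : ℤ_[p]) (Nat.le_add_right m k)) (hu (m + k))
      rw [show u m - u (m + (k + 1)) = (u m - u (m + k)) - (u (m + k + 1) - u (m + k)) by
        rw [add_assoc]; ring]
      exact dvd_sub ih h2
  obtain ⟨x, hx⟩ := IsPrecomplete.prec
    (inferInstance : IsPrecomplete (IsLocalRing.maximalIdeal ℤ_[p]) ℤ_[p]) (f := u) fun {m n} hmn => by
    obtain ⟨k, rfl⟩ := Nat.exists_eq_add_of_le hmn
    rw [SModEq.sub_mem, smul_eq_mul, Ideal.mul_top, hm]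
    exact hcauchy m k
  refine ⟨x, fun n => ?_⟩
  have h := hx n
  rw [SModEq.sub_mem, smul_eq_mul, Ideal.mul_top, hm] at h
  rwa [← dvd_neg, neg_sub]

variable (W p)

/-- Every integral model with nonzero discriminant has a Tate module. -/
theorem exists_tateData_aux : Nonempty (TateData W p) := by
  classical
  have hp : p.Prime := Fact.out
  obtain ⟨b, hb0, hbs, hbk, hindep, hspan⟩ := exists_bases W p
  let ι := levelHom b hbk
  have hι : ∀ n v, ι n v = ∑ i, (PadicInt.toZModPow n (v i)).val • b n i := fun _ _ => rfl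
  have hnsmul : ∀ (n m : ℕ) (i : Fin 2),
      ((m : ZMod (p ^ n))).val • b n i = m • b n i := fun n m i => by
    rw [ZMod.val_natCast]
    conv_rhs => rw [← Nat.mod_add_div m (p ^ n), add_nsmul, mul_comm (p ^ n), mul_nsmul', hbk,
      nsmul_zero, add_zero]
  have hsucc : ∀ n v, p • ι (n + 1) v = ι n v := fun n v => by
    rw [hι, hι, Finset.smul_sum]
    refine Finset.sum_congr rfl fun i _ => ?_
    rw [smul_comm, hbs, ← hnsmul n (PadicInt.toZModPow (n + 1) (v i)).val]
    congr 2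
    rw [← PadicInt.zmod_cast_comp_toZModPow n (n + 1) n.le_succ, RingHom.comp_apply,
      ZMod.castHom_apply, ZMod.natCast_val]
  have hpow : ∀ (n k : ℕ) v, p ^ k • ι (n + k) v = ι n v := by
    intro n k v
    induction k with
    | zero => simp
    | succ k ih => rw [pow_succ, mul_nsmul', ← add_assoc, hsucc, ih]
  have hscal : ∀ (n : ℕ) (c : ℤ_[p]) v,
      ι n (c • v) = (PadicInt.toZModPow n c).val • ι n v := fun n c v => by
    rw [hι, hι, Finset.smul_sum]
    refine Finset.sum_congr rfl fun i _ => ?_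
    rw [Pi.smul_apply, smul_eq_mul, map_mul, ← mul_nsmul', ← hnsmul n (_ * _)]
    congr 2
    rw [Nat.cast_mul, ZMod.natCast_zmod_val, ZMod.natCast_zmod_val]
  have hdiv : ∀ (n : ℕ) v, (∀ i, (p : ℤ_[p]) ^ n ∣ v i) → ι n v = 0 := fun n v h => by
    rw [hι]
    refine Finset.sum_eq_zero fun i _ => ?_
    have h0 : PadicInt.toZModPow n (v i) = 0 := by
      rw [← RingHom.mem_ker, PadicInt.ker_toZModPow, Ideal.mem_span_singleton]
      exact h i
    rw [h0, ZMod.val_zero, zero_nsmul]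
  have hzero : ∀ (n : ℕ) v, ι n v = 0 → ∀ i, (p : ℤ_[p]) ^ n ∣ v i := by
    intro n
    induction n with
    | zero => simp
    | succ n ih =>
      intro v hv
      have h1 : ι 1 v = 0 := by
        rw [← hpow 1 n v, show 1 + n = n + 1 by omega, hv, nsmul_zero]
      rw [hι] at h1
      have h2 : ∀ i, (p : ℤ_[p]) ∣ v i := fun i => by
        have h3 : PadicInt.toZModPow 1 (v i) = 0 := by
          rw [← ZMod.natCast_zmod_val (PadicInt.toZModPow 1 (v i)),
            ZMod.natCast_eq_zero_iff]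
          exact (dvd_of_eq (pow_one p)).trans (hindep _ h1 i)
        rw [← RingHom.mem_ker, PadicInt.ker_toZModPow, Ideal.mem_span_singleton, pow_one] at h3
        exact h3
      choose w hw using h2
      have e : v = p • w := funext fun i => by rw [hw, Pi.smul_apply, nsmul_eq_mul]
      have h4 : ι n w = 0 := by rw [← hsucc, ← map_nsmul, ← e, hv]
      intro i
      rw [hw, pow_succ, mul_comm ((p : ℤ_[p]) ^ n)]
      exact mul_dvd_mul_left _ (ih w h4 i)
  have hsurj : ∀ (n : ℕ) (P : Pts W), p ^ n • P = 0 → ∃ v, ι n v = P := by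
    intro n
    induction n with
    | zero =>
      intro P hP
      rw [pow_zero, one_nsmul] at hP
      exact ⟨0, by rw [_root_.map_zero, hP]⟩
    | succ n ih =>
      intro P hP
      obtain ⟨v, hv⟩ := ih (p • P) (by rwa [← mul_nsmul', ← pow_succ])
      rw [← hsucc] at hv
      obtain ⟨a, ha⟩ := hspan (P - ι (n + 1) v) (by rw [nsmul_sub, hv, sub_self])
      refine ⟨v + p ^ n • fun i => (a i : ℤ_[p]), ?_⟩
      have h1 : ι 1 (fun i => (a i : ℤ_[p])) = P - ι (n + 1) v := by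
        rw [← ha, hι]
        refine Finset.sum_congr rfl fun i _ => ?_
        rw [map_natCast, hnsmul]
      rw [map_add, map_nsmul, show n + 1 = 1 + n by omega, hpow 1 n, h1,
        show 1 + n = n + 1 by omega]
      abel
  have hsep : ∀ v w : Fin 2 → ℤ_[p], (∀ n, ι n v = ι n w) → v = w := fun v w h =>
    funext fun i => sub_eq_zero.1 (eq_zero_of_forall_pow_dvd fun n =>
      hzero n (v - w) (by rw [map_sub, h n, sub_self]) i)
  have hcol : ∀ (σ : GQ) (j : Fin 2), ∃ x : Fin 2 → ℤ_[p], ∀ n, ι n x = σ • b n j := by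
    intro σ j
    have h : ∀ n, ∃ v, ι n v = σ • b n j := fun n => hsurj n _ (by
      rw [smul_comm, hbk]; rfl)
    choose u hu using h
    have hu' : ∀ n i, (p : ℤ_[p]) ^ n ∣ (u (n + 1) - u n) i := fun n => hzero n _ (by
      rw [map_sub, ← hsucc, hu, hu, smul_comm, hbs, sub_self])
    choose x hx using fun i => exists_limit (fun n => u n i) fun n => hu' n i
    refine ⟨x, fun n => ?_⟩
    rw [← hu, ← sub_eq_zero, ← map_sub]
    exact hdiv n _ fun i => hx i n
  choose col hcol using hcol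
  let M : GQ → Mat2 ℤ_[p] := fun σ => Matrix.of fun i j => col σ j i
  have hM : ∀ n σ v, σ • ι n v = ι n ((M σ).mulVec v) := fun n σ v => by
    have e : (M σ).mulVec v = ∑ j, v j • col σ j := by
      funext i
      rw [Finset.sum_apply]
      show ∑ j, M σ i j * v j = _
      exact Finset.sum_congr rfl fun j _ => mul_comm (M σ i j) (v j)
    rw [e, map_sum, hι, Finset.smul_sum]
    refine Finset.sum_congr rfl fun j _ => ?_
    rw [hscal, hcol, smul_comm]
  have hmat : ∀ X Y : Mat2 ℤ_[p], (∀ v, X.mulVec v = Y.mulVec v) → X = Y := fun X Y h =>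
    Matrix.toLin'.injective (LinearMap.ext fun v => h v)
  let r : GQ →* Mat2 ℤ_[p] :=
    { toFun := M
      map_one' := hmat _ _ fun v => hsep _ _ fun n => by
        rw [← hM, one_smul, Matrix.one_mulVec]
      map_mul' := fun σ τ => hmat _ _ fun v => hsep _ _ fun n => by
        rw [← hM, mul_smul, hM, hM, Matrix.mulVec_mulVec] }
  refine ⟨⟨r, fun n => ?_, ι, hsurj, fun n v => ⟨hzero n v, hdiv n v⟩, hsucc, hM⟩⟩
  obtain ⟨L, hL, hfix⟩ := EC.exists_finite_level (K := Qb) ℚ
    (W.map (Int.castRingHom ℚ)).toAffine (p ^ n) (Nat.one_le_pow _ _ hp.pos)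
  refine ⟨L, hL, fun σ hσ i j => ?_⟩
  rw [PadicInt.maximalIdeal_eq_span_p, Ideal.span_singleton_pow, Ideal.mem_span_singleton]
  have h0 : ι n ((r σ).mulVec (Pi.single j 1) - Pi.single j 1) = 0 := by
    have hPn : p ^ n • ι n (Pi.single j 1) = 0 := by
      rw [← map_nsmul]
      exact hdiv n _ fun i => ⟨(Pi.single j 1 : Fin 2 → ℤ_[p]) i, by rw [Pi.smul_apply, nsmul_eq_mul, Nat.cast_pow]⟩
    rw [map_sub, show r σ = M σ from rfl, ← hM, sub_eq_zero]
    exact congrArg Subtype.val (hfix σ hσ ⟨_, (mem_tors_iff W).2 hPn⟩)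
  have := hzero n _ h0 i
  rwa [Pi.sub_apply, Matrix.mulVec_single_one, Matrix.col_apply, Pi.single_apply,
    ← Matrix.one_apply, ← Matrix.sub_apply] at this

end Construction

/-- Every integral model with nonzero discriminant has a Tate module. -/
theorem exists_tateData (hΔ : W.Δ ≠ 0) : Nonempty (TateData W p) :=
  haveI := isElliptic_pts W hΔ
  exists_tateData_aux W p

end Fermat.Agent.R59
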