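import Fermat.Agent.R59.TateW.Bundle
import Fermat.Agent.R59.TateW.Flat

/-!
# S59, unit W: flatness at a good `p` of the Tate module with finite coefficient rings
-/

set_option autoImplicit false
set_option linter.unusedSectionVars false

noncomputable section

namespace Fermat.Agent.R59

open WeierstrassCurve WeierstrassCurve.Affine.Point IsLocalRing
open Fermat.Agent.Deform Fermat.Agent.ConductorMatch
open Fermat.Agent.MCurve.Flat (HasFlatModel)
open scoped WeierstrassCurve.Affine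

local notation "Qb" => AlgebraicClosure ℚ
local notation "GQ" => (AlgebraicClosure ℚ) ≃ₐ[ℚ] (AlgebraicClosure ℚ)

variable {p : ℕ} [Fact p.Prime]

/-- A power of `p` lies in every ideal with finite quotient. -/
theorem exists_pow_mem_of_finite {O : Type} [CommRing O] [IsLocalRing O]
    (hp : (p : O) ∈ maximalIdeal O) (I : Ideal O) [Finite (O ⧸ I)] :
    ∃ k : ℕ, (p : O) ^ k ∈ I := by
  obtain ⟨i, j, hij, hne⟩ := Finite.exists_ne_map_eq_of_infinite
    (fun k : ℕ => Ideal.Quotient.mk I ((p : O) ^ k))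
  wlog h : i < j generalizing i j
  · exact this j i (Ne.symm hij) hne.symm (lt_of_le_of_ne (not_lt.1 h) (Ne.symm hij))
  refine ⟨i, ?_⟩
  obtain ⟨d, rfl⟩ := Nat.exists_eq_add_of_lt h
  rw [Ideal.Quotient.eq, add_assoc, pow_add, ← mul_one ((p : O) ^ i), mul_assoc, one_mul,
    ← mul_sub] at hne
  obtain ⟨u, hu⟩ := isUnit_one_sub_self_of_mem_nonunits ((p : O) ^ (d + 1))
    (Ideal.pow_mem_of_mem _ hp _ d.succ_pos)
  rw [← hu] at hne
  exact (Ideal.mul_unit_mem_iff_mem I u.isUnit).1 hne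

variable {W : WeierstrassCurve ℤ}

/-- Flatness at a good `p` over a finite coefficient ring. -/
theorem TateData.isFlatAt (T : TateData W p) (hp2 : p ≠ 2) (hgood : ¬ (p : ℤ) ∣ W.Δ) {O : Type}
    [CommRing O] [IsLocalRing O] [Algebra ℤ_[p] O] [Module.Finite ℤ_[p] O]
    (hpO : (p : O) ∈ maximalIdeal O) (ρ : GaloisRepAdic O)
    (h : HasMatrix ρ ((mapHom (algebraMap ℤ_[p] O)).comp T.r)) : ρ.IsFlatAt p := by
  classical
  haveI := isElliptic_pts W fun h : W.Δ = 0 => hgood (h ▸ dvd_zero _)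
  obtain ⟨b, hb⟩ := h
  obtain ⟨d, s, hs⟩ := Module.Finite.exists_fin (R := ℤ_[p]) (M := O)
  have hexp : ∀ x : O, ∃ a : Fin d → ℤ_[p], x = ∑ l, algebraMap ℤ_[p] O (a l) * s l := fun x => by
    obtain ⟨a, ha⟩ := (Submodule.mem_span_range_iff_exists_fun ℤ_[p]).1
      (by rw [hs]; trivial : x ∈ Submodule.span ℤ_[p] (Set.range s))
    exact ⟨a, by rw [← ha]; simp [Algebra.smul_def]⟩
  have hcast : ∀ (I : Ideal O) {k : ℕ} (c : ℤ_[p]), (p : O) ^ k ∈ I →
      (p : ℤ_[p]) ^ k ∣ c → algebraMap ℤ_[p] O c ∈ I := by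
    intro I k c hk hc
    obtain ⟨e, rfl⟩ := hc
    rw [map_mul, map_pow, map_natCast]
    exact I.mul_mem_right _ hk
  refine ⟨?_, fun I hI => ?_⟩
  · refine Finite.of_surjective (fun a : Fin d → ZMod p =>
      ∑ l, residue O (((a l).val : O) * s l)) fun x => ?_
    obtain ⟨x, rfl⟩ := residue_surjective x
    obtain ⟨a, rfl⟩ := hexp x
    refine ⟨fun l => PadicInt.toZMod (a l), ?_⟩
    simp only [map_sum, map_mul]
    refine Finset.sum_congr rfl fun l _ => congrArg (· * _) ?_
    rw [← sub_eq_zero, ← map_sub, residue_eq_zero_iff, ← map_natCast (algebraMap ℤ_[p] O),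
      ← map_sub]
    refine hcast _ (k := 1) _ (by rwa [pow_one]) ?_
    rw [pow_one, ← Ideal.mem_span_singleton, ← PadicInt.maximalIdeal_eq_span_p,
      ← PadicInt.ker_toZMod, RingHom.mem_ker, map_sub, map_natCast, ZMod.natCast_zmod_val, sub_self]
  haveI := hI
  obtain ⟨k, hk⟩ := exists_pow_mem_of_finite hpO I
  set M := Submodule.torsionBy ℤ (Pts W) ((p ^ k : ℕ) : ℤ) with hM
  haveI : Finite M := EC.finite_torsionBy ((W.map (Int.castRingHom ℚ))⁄Qb) (p ^ k)
    (Nat.one_le_pow _ _ (Fact.out : p.Prime).pos)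
  choose w hw using fun P : M => T.ι_surj k (P : Pts W) ((mem_tors_iff W).1 P.2)
  set S := I • (⊤ : Submodule O ρ.V) with hS
  let vec : (Fin 2 → ℤ_[p]) →+ ρ.V :=
    AddMonoidHom.mk' (fun u => ∑ i, algebraMap ℤ_[p] O (u i) • b i) fun u u' => by
      simp [Finset.sum_add_distrib, add_smul]
  have hvec : ∀ (σ : GQ) u, ρ.ρ σ (vec u) = vec ((T.r σ).mulVec u) := fun σ u => by
    refine b.ext_elem fun i => ?_
    have hcol : ∀ i j, b.repr (ρ.ρ σ (b j)) i = algebraMap ℤ_[p] O (T.r σ i j) := fun i j => by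
      have := congrFun (congrFun (hb σ) i) j
      rwa [LinearMap.toMatrix_apply] at this
    fin_cases i <;>
      simp [vec, hcol, Fin.sum_univ_two, Matrix.mulVec, dotProduct, Algebra.smul_def] <;> ring
  have hcongr : ∀ u u' : Fin 2 → ℤ_[p], T.ι k u = T.ι k u' → vec u - vec u' ∈ S := by
    intro u u' e
    rw [← map_sub]
    show ∑ i, algebraMap ℤ_[p] O ((u - u') i) • b i ∈ I • (⊤ : Submodule O ρ.V)
    refine Submodule.sum_mem _ fun i _ => Submodule.smul_mem_smul ?_ Submodule.mem_top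
    exact hcast I _ hk ((T.ι_eq_zero k _).1 (by rw [map_sub, e, sub_self]) i)
  letI actV : DistribMulAction GQ (ρ.V ⧸ S) :=
    { smul := fun σ x => ρ.levelAction I σ x
      one_smul := fun x => Submodule.Quotient.induction_on _ x fun v => by
        show Submodule.Quotient.mk (ρ.ρ 1 v) = _
        rw [map_one, Module.End.one_apply]
      mul_smul := fun σ τ x => Submodule.Quotient.induction_on _ x fun v => by
        show Submodule.Quotient.mk (ρ.ρ (σ * τ) v) = Submodule.Quotient.mk (ρ.ρ σ (ρ.ρ τ v))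
        rw [map_mul, Module.End.mul_apply]
      smul_zero := fun σ => _root_.map_zero (ρ.levelAction I σ)
      smul_add := fun σ u v => map_add (ρ.levelAction I σ) u v }
  let q : (Fin d → M) →+ ρ.V ⧸ S :=
    AddMonoidHom.mk' (fun P => ∑ l, s l • (S.mkQ (vec (w (P l))))) fun P P' => by
      rw [← Finset.sum_add_distrib]
      refine Finset.sum_congr rfl fun l _ => ?_
      rw [← smul_add, ← map_add, ← map_add]
      refine congrArg (s l • ·) ((Submodule.Quotient.eq S).2 (hcongr _ _ ?_))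
      rw [map_add, hw, hw, hw]
      rfl
  have hq : ∀ (σ : GQ) P, q (σ • P) = σ • q P := by
    intro σ P
    show _ = ρ.levelAction I σ (∑ l, s l • (S.mkQ (vec (w (P l)))))
    rw [map_sum]
    show ∑ l, s l • (S.mkQ (vec (w ((σ • P) l)))) = _
    refine Finset.sum_congr rfl fun l _ => ?_
    rw [map_smul, Pi.smul_apply]
    refine congrArg (s l • ·) ?_
    show S.mkQ (vec (w (σ • P l))) = Submodule.Quotient.mk (ρ.ρ σ (vec (w (P l))))
    rw [hvec]
    refine (Submodule.Quotient.eq S).2 (hcongr _ _ ?_)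
    rw [hw, ← T.ι_smul, hw]
    rfl
  have hsurj : Function.Surjective q := by
    intro x
    obtain ⟨v, rfl⟩ := Submodule.Quotient.mk_surjective S x
    choose a ha using fun i => hexp (b.repr v i)
    refine ⟨fun l => ⟨T.ι k (fun i => a i l), (mem_tors_iff W).2 (T.pow_nsmul_ι k _)⟩, ?_⟩
    show ∑ l, s l • (S.mkQ (vec (w _))) = _
    have hl : ∀ l, S.mkQ (vec (w ⟨T.ι k (fun i => a i l), (mem_tors_iff W).2 (T.pow_nsmul_ι k _)⟩)) =
        S.mkQ (vec fun i => a i l) := fun l => (Submodule.Quotient.eq S).2 (hcongr _ _ (hw _))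
    simp only [hl]
    rw [show (Submodule.Quotient.mk v : ρ.V ⧸ S) = S.mkQ v from rfl, ← b.sum_repr v, map_sum]
    simp only [vec, AddMonoidHom.mk'_apply, map_sum, map_smul, Finset.smul_sum, smul_smul]
    rw [Finset.sum_comm]
    refine Finset.sum_congr rfl fun i _ => ?_
    rw [ha i, Finset.sum_smul]
    exact Finset.sum_congr rfl fun l _ => by rw [mul_comm]
  obtain ⟨H, iH, iA, hfin, hflat, hcc, e, he1, he2⟩ :=
    ((hasFlatModel_tors hp2 hgood k).pi (Fin d)).of_surjective q hq hsurj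
  exact ⟨H, iH, iA, hfin, hflat, hcc, e, he1, fun σ f g hfg => he2 σ f g hfg⟩

end Fermat.Agent.R59
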