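import Fermat.Agent.ConductorMatch.TorsionRel

/-!
# S59, unit W: a scalar Frobenius on `E[n]` has trace `a_ℓ` modulo `n`
-/

set_option autoImplicit false
set_option linter.unusedSectionVars false

namespace Fermat.Agent.R59

open WeierstrassCurve WeierstrassCurve.Affine.Point IsLocalRing
open Fermat.Agent.EC Fermat.Agent.Galois Fermat.Agent.ConductorMatch
open scoped WeierstrassCurve.Affine

section Degree

variable {K : Type*} [Field K] [DecidableEq K] [IsAlgClosed K] {ℓ : ℕ} [hℓ : Fact ℓ.Prime]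
  [CharP K ℓ] {V : WeierstrassCurve K} [V.IsElliptic] (hV : V.map (frobenius K ℓ) = V)

local notation "Pt" => V.toAffine.Point

/-- If Frobenius is the scalar `m` on a subgroup of order `N²` killed by `N`, then
`N ∣ a - 2m`. -/
theorem dvd_of_scalar_nat {N : ℕ} (hN : N ≠ 0) (H : AddSubgroup Pt)
    (hH : Nat.card H = N ^ 2) (hNH : ∀ P ∈ H, (N : ℤ) • P = 0) (m : ℤ)
    (hm : ∀ P ∈ H, EC.Degree.frobPt ℓ hV P = m • P) :
    (N : ℤ) ∣ EC.Degree.frobTrace hV - 2 * m := by
  have key : ∀ j : ℤ, (N : ℤ) ^ 2 ∣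
      (-m - j * N) ^ 2 + (-m - j * N) * EC.Degree.frobTrace hV + ℓ := by
    intro j
    set n : ℤ := -m - j * N
    obtain ⟨d, hd, ed⟩ := EC.Degree.xDegZ_lattice hV 1 n
    rw [one_zsmul, one_mul, one_pow, one_mul] at *
    rw [ed]
    rcases Nat.eq_zero_or_pos d with rfl | hd0
    · simp
    obtain ⟨k, hk⟩ := EC.Degree.exists_card_ker_mul_eq (EC.Degree.frobPt ℓ hV)
      (EC.Degree.frobPt_bijective hV) (fun x y h => EC.Degree.xv_frobPt hV h) d _ hd hd0
    set f : AddMonoid.End Pt := (n : AddMonoid.End Pt) + EC.Degree.frobPt ℓ hV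
    let Kf : AddSubgroup Pt :=
      { carrier := {P | f P = 0}
        zero_mem' := _root_.map_zero f
        add_mem' := fun {a b} ha hb => (map_add f a b).trans (by
          rw [show f a = 0 from ha, show f b = 0 from hb, add_zero])
        neg_mem' := fun {a} ha => (map_neg f a).trans (by rw [show f a = 0 from ha, _root_.neg_zero]) }
    have hle : H ≤ Kf := fun P hP => by
      show (n : AddMonoid.End Pt) P + EC.Degree.frobPt ℓ hV P = 0
      rw [AddMonoid.End.intCast_apply, hm P hP, ← add_zsmul,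
        show n + m = -j * (N : ℤ) by simp only [n]; ring, mul_zsmul, hNH P hP, zsmul_zero]
    have hdvd := AddSubgroup.card_dvd_of_le hle
    rw [hH, show Nat.card Kf = Nat.card {P : Pt // f P = 0} from rfl] at hdvd
    have h2 : N ^ 2 ∣ d := hk ▸ hdvd.mul_right _
    exact_mod_cast h2
  have h0 := key 0
  have h1 := key 1
  have h2 := dvd_sub h1 h0
  rw [show (-m - 1 * (N : ℤ)) ^ 2 + (-m - 1 * N) * EC.Degree.frobTrace hV + ℓ -
      ((-m - 0 * N) ^ 2 + (-m - 0 * N) * EC.Degree.frobTrace hV + ℓ) =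
      N * (N - (EC.Degree.frobTrace hV - 2 * m)) by ring, sq] at h2
  have h3 := Int.dvd_of_mul_dvd_mul_left (by exact_mod_cast hN) h2
  have := dvd_sub (dvd_refl (N : ℤ)) h3
  rwa [sub_sub_cancel] at this

end Degree

local notation "Qb" => AlgebraicClosure ℚ
local notation "GQ" => (AlgebraicClosure ℚ) ≃ₐ[ℚ] (AlgebraicClosure ℚ)

variable (W : WeierstrassCurve ℤ)

/-- If Frobenius is the scalar `m` on the `n`-torsion, then `n ∣ a_ℓ - 2m`. -/
theorem frobenius_scalar_nsmul {ℓ : ℕ} (hℓ : ℓ.Prime) (hgood : W.IsGoodPrimeFor ℓ)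
    {A : ValuationSubring Qb} (hA : A.LiesOverPrime ℓ) {σ : GQ} (hσ : A.IsFrobeniusAt σ ℓ)
    {n : ℕ} (hodd : Odd n) (hℓn : ¬ ℓ ∣ n) (m : ℤ)
    (hm : ∀ P : Pts W, n • P = 0 → σ • P = m • P) : (n : ℤ) ∣ W.apOfModel ℓ - 2 * m := by
  classical
  haveI : Fact ℓ.Prime := ⟨hℓ⟩
  set WA := W.map (Int.castRingHom A) with hWA
  have hΔ : IsUnit WA.Δ := isUnit_delta_place W hℓ hgood hA
  haveI hell : ((W.map (Int.castRingHom ℚ))⁄Qb).IsElliptic := by
    rw [baseChange_eq_map W A, isElliptic_iff, map_Δ]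
    exact hΔ.map _
  haveI : (WA.map (algebraMap A Qb)).IsElliptic := ⟨by rw [map_Δ]; exact hΔ.map _⟩
  haveI := charP_residue hℓ hA
  haveI : IsAlgClosed (ResidueField A) := isAlgClosed_residue A
  set V := W.reductionMod ℓ with hV
  have hVeq : WA.map (residue A) = V.map (ZMod.castHom (dvd_refl ℓ) (ResidueField A)) := by
    rw [hWA, hV, reductionMod, WeierstrassCurve.map_map, WeierstrassCurve.map_map]
    congr 1
    exact RingHom.ext_int _ _
  haveI : (V.map (ZMod.castHom (dvd_refl ℓ) (ResidueField A))).IsElliptic := by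
    rw [← hVeq]; exact isElliptic_residue A hΔ
  set π := Degree.frobPt ℓ (map_frobenius_eq (K := ResidueField A) V)
  have hn : IsUnit (n : A) := by
    rw [← Int.cast_natCast]
    exact isUnit_intCast hℓ hA fun h => hℓn (Int.natCast_dvd_natCast.1 h)
  let j : (WA.map (residue A)).toAffine.Point →+
      (V.map (ZMod.castHom (dvd_refl ℓ) (ResidueField A))).toAffine.Point :=
    sigmaPoint (RingHom.id (ResidueField A)) (by rw [WeierstrassCurve.map_id]; exact hVeq)
  have hj0 : ∀ R, j R = 0 → R = 0 := by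
    rintro (_ | ⟨x, y, h⟩) e
    · rfl
    · exact absurd e (Affine.Point.some_ne_zero _)
  let T : AddSubgroup (Pts W) := (nsmulAddMonoidHom n).ker
  have htors : ∀ x : T, n • toPlace W A x.1 = 0 := fun x => by
    rw [← map_nsmul, show n • x.1 = 0 from x.2, _root_.map_zero]
  let φ : T →+ (V.map (ZMod.castHom (dvd_refl ℓ) (ResidueField A))).toAffine.Point :=
    AddMonoidHom.mk' (fun x => j (redPt WA (toPlace W A x.1))) fun x y => by
      rw [← map_add, ← redPt_add hn hodd hΔ (htors x) (htors y), ← map_add]; rfl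
  have hφinj : Function.Injective φ := (injective_iff_map_eq_zero φ).2 fun x hx =>
    Subtype.ext (toPlace_injective W A
      ((redPt_eq_zero hn hΔ (htors x) (hj0 _ hx)).trans (_root_.map_zero (toPlace W A)).symm))
  have hσT : ∀ x : T, σ • x.1 ∈ T := fun x => by
    show n • (σ • x.1) = 0
    rw [smul_comm, show n • x.1 = 0 from x.2]; rfl
  have hφσ : ∀ x : T, φ ⟨σ • x.1, hσT x⟩ = π (φ x) := by
    rintro ⟨Q, hQ⟩
    rcases Q with _ | ⟨x, y, h⟩
    · rfl
    · obtain ⟨h', e⟩ := algEquiv_smul_some (K := Qb) (W.map (Int.castRingHom ℚ)).toAffine σ h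
      obtain ⟨a, b, ha, hb⟩ := exists_coords hn (nonsingular_of_map _
        (by rw [WeierstrassCurve.map_id]; exact baseChange_eq_map W A) h) (htors ⟨_, hQ⟩)
      simp only [RingHom.id_apply] at ha hb
      set τ : A.decompositionSubgroup ℚ := ⟨σ, hσ.mem_decompositionSubgroup⟩
      have hra := hσ.smul_residue_eq (residue A a)
      have hrb := hσ.smul_residue_eq (residue A b)
      rw [← ResidueField.residue_smul] at hra hrb
      have hca : algebraMap A Qb (τ • a) = σ x := by rw [← ha]; rfl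
      have hcb : algebraMap A Qb (τ • b) = σ y := by rw [← hb]; rfl
      have h1 : (WA.map (algebraMap A Qb)).toAffine.Nonsingular (algebraMap A Qb a)
          (algebraMap A Qb b) := by
        rw [ha, hb]; exact nonsingular_of_map _ (by rw [WeierstrassCurve.map_id]) h
      have h2 : (WA.map (algebraMap A Qb)).toAffine.Nonsingular (algebraMap A Qb (τ • a))
          (algebraMap A Qb (τ • b)) := by
        rw [hca, hcb]; exact nonsingular_of_map _ (by rw [WeierstrassCurve.map_id]) h'
      have e1 : toPlace W A (Affine.Point.some x y h) = Affine.Point.some _ _ h1 :=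
        (Affine.Point.some.injEq ..).mpr ⟨ha.symm, hb.symm⟩
      have e2 : toPlace W A (σ • (Affine.Point.some x y h : Pts W)) =
          Affine.Point.some _ _ h2 := by
        rw [e]; exact (Affine.Point.some.injEq ..).mpr ⟨hca.symm, hcb.symm⟩
      show j (redPt WA (toPlace W A (σ • (Affine.Point.some x y h : Pts W)))) =
        π (j (redPt WA (toPlace W A (Affine.Point.some x y h))))
      rw [e1, e2, redPt_some WA hΔ, redPt_some WA hΔ]
      exact (Affine.Point.some.injEq ..).mpr ⟨hra, hrb⟩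
  have ha : Degree.frobTrace (map_frobenius_eq (K := ResidueField A) V) = W.apOfModel ℓ := by
    rw [Degree.frobTrace, natCard_frobFixed]; simp [apOfModel, traceOfFrobenius, hV]
  have hn0 : n ≠ 0 := fun h => by rw [h] at hℓn; exact hℓn (dvd_zero ℓ)
  have hcard : Nat.card φ.range = n ^ 2 := by
    rw [← Nat.card_congr (AddMonoidHom.ofInjective hφinj).toEquiv,
      ← natCard_torsionBy ((W.map (Int.castRingHom ℚ))⁄Qb) n (Nat.one_le_iff_ne_zero.2 hn0)]
    exact Nat.card_congr (Equiv.subtypeEquivRight fun P =>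
      (mem_torsionBy_iff_nsmul ((W.map (Int.castRingHom ℚ))⁄Qb)).symm)
  rw [← ha]
  refine dvd_of_scalar_nat _ hn0 φ.range hcard ?_ m ?_
  · rintro _ ⟨x, rfl⟩
    rw [← map_zsmul, natCast_zsmul, show n • x = 0 from Subtype.ext x.2, _root_.map_zero]
  · rintro _ ⟨x, rfl⟩
    show π (φ x) = _
    rw [← hφσ, ← map_zsmul]
    exact congrArg φ (Subtype.ext (hm x.1 x.2))

end Fermat.Agent.R59
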