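import Fermat.Agent.R59.TateW.Bundle
import Fermat.Agent.R59.TateW.Scalar
import Fermat.Agent.GalRep.Semistable.Inertia

/-!
# S59, unit W: Frobenius, determinant, inertia away from `p`, and the residual representation
-/

set_option autoImplicit false
set_option linter.unusedSectionVars false

noncomputable section

namespace Fermat.Agent.R59

open WeierstrassCurve WeierstrassCurve.Affine.Point Polynomial
open Fermat.Agent.Deform Fermat.Agent.ConductorMatch
open scoped WeierstrassCurve.Affine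

local notation "Qb" => AlgebraicClosure ℚ
local notation "GQ" => (AlgebraicClosure ℚ) ≃ₐ[ℚ] (AlgebraicClosure ℚ)

namespace TateData

variable {W : WeierstrassCurve ℤ} {p : ℕ} [Fact p.Prime] (T : TateData W p)

theorem ι_zsmul_congr (n : ℕ) (m : ℤ) (v : Fin 2 → ℤ_[p]) :
    T.ι n ((m : ℤ_[p]) • v) = m • T.ι n v := by
  rw [← map_zsmul]
  congr 1


/-- Trace and determinant of a Frobenius at a good prime. -/
theorem trace_det_frob (hp2 : p ≠ 2) {ℓ : ℕ} (hℓ : ℓ.Prime) (hℓp : ℓ ≠ p)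
    (hgood : W.IsGoodPrimeFor ℓ) {P : ValuationSubring Qb} (hP : P.LiesOverPrime ℓ) {σ : GQ}
    (hσ : P.IsFrobeniusAt σ ℓ) :
    (T.r σ).trace = (W.apOfModel ℓ : ℤ_[p]) ∧ (T.r σ).det = (ℓ : ℤ_[p]) := by
  have hp : p.Prime := Fact.out
  have hodd : ∀ n, Odd (p ^ n) := fun n => (hp.odd_of_ne_two hp2).pow
  have hnd : ∀ n, ¬ ℓ ∣ p ^ n := fun n h =>
    hℓp ((Nat.prime_dvd_prime_iff_eq hℓ hp).1 (hℓ.dvd_of_dvd_pow h))
  set M := T.r σ with hM
  set a : ℤ_[p] := (W.apOfModel ℓ : ℤ_[p]) with ha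
  have hquad : ∀ v : Fin 2 → ℤ_[p],
      M.mulVec (M.mulVec v) - a • M.mulVec v + (ℓ : ℤ_[p]) • v = 0 := by
    intro v
    refine funext fun i => eq_zero_of_forall_pow_dvd fun n => ?_
    refine (T.ι_eq_zero n _).1 ?_ i
    have h := frobenius_quadratic_nsmul W hℓ hgood hP hσ (hodd n) (hnd n) (T.ι n v)
      (T.pow_nsmul_ι n v)
    rw [T.ι_smul, T.ι_smul, ← T.ι_zsmul_congr, ← map_nsmul, ← map_sub, ← map_add] at h
    rw [← h]
    rw [Nat.cast_smul_eq_nsmul]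
  have hent : ∀ i j, (∑ k, M i k * M k j) - a * M i j + (ℓ : ℤ_[p]) * (1 : Mat2 ℤ_[p]) i j = 0 := by
    intro i j
    have h := congrFun (hquad (Pi.single j 1)) i
    rw [Matrix.mulVec_single_one, Pi.add_apply, Pi.sub_apply, Pi.smul_apply, Pi.smul_apply,
      smul_eq_mul, smul_eq_mul, Matrix.col_apply] at h
    rw [Matrix.one_apply, ← Pi.single_apply]
    exact h
  have e00 := hent 0 0
  have e01 := hent 0 1
  have e10 := hent 1 0
  have e11 := hent 1 1
  simp [Fin.sum_univ_two] at e00 e01 e10 e11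
  rw [Matrix.trace_fin_two, Matrix.det_fin_two]
  by_cases hta : M 0 0 + M 1 1 = a
  · exact ⟨hta, by linear_combination -e00 + M 0 0 * hta⟩
  exfalso
  have hne : M 0 0 + M 1 1 - a ≠ 0 := sub_ne_zero.2 hta
  have h01 : M 0 1 = 0 :=
    (mul_eq_zero.1 (by linear_combination e01 : (M 0 0 + M 1 1 - a) * M 0 1 = 0)).resolve_left hne
  have h10 : M 1 0 = 0 :=
    (mul_eq_zero.1 (by linear_combination e10 : (M 0 0 + M 1 1 - a) * M 1 0 = 0)).resolve_left hne
  have h11 : M 1 1 = M 0 0 := by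
    have h2 : (M 0 0 + M 1 1 - a) * (M 0 0 - M 1 1) = 0 := by linear_combination e00 - e11
    exact (sub_eq_zero.1 ((mul_eq_zero.1 h2).resolve_left hne)).symm
  have hscal : ∀ v, M.mulVec v = M 0 0 • v := fun v => by
    funext i
    fin_cases i <;> simp [Matrix.mulVec, dotProduct, Fin.sum_univ_two, h01, h10, h11]
  refine hta (sub_eq_zero.1 ?_)
  rw [h11]
  refine eq_zero_of_forall_pow_dvd fun n => ?_
  set m : ℕ := (PadicInt.toZModPow n (M 0 0)).val with hm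
  have hcm : (p : ℤ_[p]) ^ n ∣ M 0 0 - (m : ℤ_[p]) := by
    rw [← Ideal.mem_span_singleton, ← PadicInt.ker_toZModPow, RingHom.mem_ker, map_sub,
      map_natCast, hm, ZMod.natCast_zmod_val, sub_self]
  have hdvd := frobenius_scalar_nsmul W hℓ hgood hP hσ (hodd n) (hnd n) (m : ℤ) fun Q hQ => by
    obtain ⟨v, rfl⟩ := T.ι_surj n Q hQ
    rw [T.ι_smul, ← hM, hscal, T.ι_congr n hcm, natCast_zsmul]
  have h3 := map_dvd (Int.castRingHom ℤ_[p]) hdvd
  simp only [eq_intCast, Int.cast_natCast, Nat.cast_pow, Int.cast_sub, Int.cast_mul,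
    Int.cast_ofNat] at h3
  rw [show M 0 0 + M 0 0 - a = 2 * (M 0 0 - (m : ℤ_[p])) - (a - 2 * (m : ℤ_[p])) by ring]
  exact dvd_sub (hcm.mul_left 2) (by rw [ha]; exact_mod_cast h3)

theorem charpoly_frob (hp2 : p ≠ 2) {ℓ : ℕ} (hℓ : ℓ.Prime) (hℓp : ℓ ≠ p)
    (hgood : W.IsGoodPrimeFor ℓ) {P : ValuationSubring Qb} (hP : P.LiesOverPrime ℓ) {σ : GQ}
    (hσ : P.IsFrobeniusAt σ ℓ) :
    LinearMap.charpoly (T.rep.ρ σ) =
      X ^ 2 - C ((W.apOfModel ℓ : ℤ_[p])) * X + C ((ℓ : ℤ_[p])) := by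
  obtain ⟨htr, hdet⟩ := T.trace_det_frob hp2 hℓ hℓp hgood hP hσ
  obtain ⟨b, hb⟩ := T.hasMatrix
  rw [← LinearMap.charpoly_toMatrix (T.rep.ρ σ) b, hb, Matrix.charpoly_fin_two, htr, hdet]

/-- The primes where `T` says nothing. -/
def badSet (W : WeierstrassCurve ℤ) (p : ℕ) : Finset ℕ := insert p W.Δ.natAbs.primeFactors

theorem good_of_notMem (hΔ : W.Δ ≠ 0) {ℓ : ℕ} (hℓ : ℓ.Prime) (h : ℓ ∉ badSet W p) :
    W.IsGoodPrimeFor ℓ := fun hd => h (Finset.mem_insert_of_mem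
  (Nat.mem_primeFactors.2 ⟨hℓ, Int.natCast_dvd.1 hd, Int.natAbs_ne_zero.2 hΔ⟩))

theorem mem_maximalIdeal_p : ((p : ℕ) : ℤ_[p]) ∈ IsLocalRing.maximalIdeal ℤ_[p] := by
  rw [PadicInt.maximalIdeal_eq_span_p]; exact Ideal.mem_span_singleton_self _

theorem charpoly_bad (hp2 : p ≠ 2) (hΔ : W.Δ ≠ 0) :
    ∀ ℓ : ℕ, ℓ.Prime → ℓ ∉ badSet W p → ∀ P : ValuationSubring Qb, P.LiesOverPrime ℓ →
      ∀ φ : GQ, P.IsFrobeniusAt φ ℓ → LinearMap.charpoly (T.rep.ρ φ) =
        X ^ 2 - C ((W.apOfModel ℓ : ℤ_[p])) * X + C ((ℓ : ℤ_[p])) :=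
  fun ℓ hℓ hb _ hP _ hφ => T.charpoly_frob hp2 hℓ (fun h => hb (h ▸ Finset.mem_insert_self _ _))
    (good_of_notMem hΔ hℓ hb) hP hφ

/-- The determinant is the cyclotomic character. -/
theorem det_r (hp2 : p ≠ 2) (hΔ : W.Δ ≠ 0) (σ : GQ) :
    (T.r σ).det = (GalRep.cyc p σ).val := by
  refine sub_eq_zero.1 (eq_zero_of_forall_pow_dvd fun n => ?_)
  obtain ⟨F, hF, hc⟩ := exists_cyc_approx p n
  obtain ⟨ℓ, hℓ, hbad, P, hP, φ, hφ, β, hag, -, hdet⟩ :=
    exists_approx T.hasMatrix (T.charpoly_bad hp2 hΔ) σ F n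
  rw [PadicInt.maximalIdeal_eq_span_p, Ideal.span_singleton_pow, Ideal.mem_span_singleton] at hdet
  have h1 := hc σ P φ β hℓ (fun h => hbad (h ▸ Finset.mem_insert_self _ _)) hP hφ hag
  rw [← map_natCast (PadicInt.toZModPow n), ← sub_eq_zero, ← map_sub, ← RingHom.mem_ker,
    PadicInt.ker_toZModPow, Ideal.mem_span_singleton] at h1
  rw [show (T.r σ).det - (GalRep.cyc p σ).val = ((T.r σ).det - ((ℓ ^ β : ℕ) : ℤ_[p])) -
    ((GalRep.cyc p σ).val - ((ℓ ^ β : ℕ) : ℤ_[p])) by ring]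
  exact dvd_sub hdet h1

theorem det_rep (hp2 : p ≠ 2) (hΔ : W.Δ ≠ 0) (σ : GQ) :
    LinearMap.det (T.rep.ρ σ) = (GalRep.cyc p σ).val := by
  rw [← T.det_r hp2 hΔ]
  exact LinearMap.det_toLin' _

theorem detIsCyclotomic (hp2 : p ≠ 2) (hΔ : W.Δ ≠ 0) : T.rep.DetIsCyclotomic p := by
  refine ⟨mem_maximalIdeal_p, fun n σ a ha => ?_⟩
  rw [T.det_rep hp2 hΔ, Ideal.mem_span_singleton, Nat.cast_pow, ← Ideal.mem_span_singleton,
    ← PadicInt.ker_toZModPow, RingHom.mem_ker, map_sub, map_natCast, sub_eq_zero]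
  rcases eq_or_ne n 0 with rfl | hn
  · have : Subsingleton (ZMod (p ^ 0)) := by rw [pow_zero]; infer_instance
    exact Subsingleton.elim _ _
  haveI : NeZero (p ^ n) := ⟨pow_ne_zero n (Fact.out : p.Prime).ne_zero⟩
  obtain ⟨ζ, hζ⟩ := HasEnoughRootsOfUnity.exists_primitiveRoot Qb (p ^ n)
  exact GalRep.toZModPow_cyc_eq p σ hn hζ (ha ζ hζ.pow_eq_one)

theorem unramified (hΔ : W.Δ ≠ 0) {q : ℕ} (hq : q.Prime) (hqp : q ≠ p) (hp2 : p ≠ 2)
    (hgood : ¬ (q : ℤ) ∣ W.Δ) : T.rep.IsUnramifiedAt q := by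
  classical
  haveI := isElliptic_pts W hΔ
  intro A hA σ hσ
  set WA := W.map (Int.castRingHom A) with hWA
  have hu : IsUnit WA.Δ := EC.isUnit_delta_place W hq hgood hA
  haveI : (WA.map (algebraMap A Qb)).IsElliptic := ⟨by rw [map_Δ]; exact hu.map _⟩
  refine LinearMap.ext fun (v : Fin 2 → ℤ_[p]) => ?_
  show (T.r σ).mulVec v = v
  rw [← sub_eq_zero]
  refine funext fun i => eq_zero_of_forall_pow_dvd fun n => ?_
  refine (T.ι_eq_zero n _).1 ?_ i
  rw [map_sub, ← T.ι_smul, sub_eq_zero]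
  have hP := T.pow_nsmul_ι n v
  rcases e : T.ι n v with _ | ⟨x, y, h⟩
  · rfl
  · rw [e] at hP
    obtain ⟨h', e'⟩ := EC.algEquiv_smul_some (K := Qb) (W.map (Int.castRingHom ℚ)).toAffine σ h
    have hn : IsUnit ((p ^ n : ℕ) : A) := by
      rw [← Int.cast_natCast]
      exact EC.isUnit_intCast hq hA fun hd => hqp ((Nat.prime_dvd_prime_iff_eq hq
        (Fact.out : p.Prime)).1 (hq.dvd_of_dvd_pow (Int.natCast_dvd_natCast.1 hd)))
    have h0 : p ^ n • (σ • (Affine.Point.some x y h : Pts W)) = 0 := by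
      rw [smul_comm, hP]; rfl
    obtain ⟨hx, hy⟩ := EC.inertia_fix_good WA hu (EC.baseChange_eq_map W A).symm
      (EC.actsInertially_of_mem hσ) hn ((Fact.out : p.Prime).odd_of_ne_two hp2).pow h h' hP
      (by rwa [e'] at h0)
    rw [e']
    exact (Affine.Point.some.injEq ..).mpr ⟨hx, hy⟩

theorem unipotent (hp2 : p ≠ 2) (hΔ : W.Δ ≠ 0) (hss : W.IsSemistableModel) {q : ℕ}
    (hq : q.Prime) (hqp : q ≠ p) : T.rep.IsUnipotentOnInertiaAt q :=
  unipotent_inertia W mem_maximalIdeal_p T.hasMatrix (Finset.mem_insert_self p _) hp2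
    (fun ℓ hℓ hb => good_of_notMem hΔ hℓ hb) (T.charpoly_bad hp2 hΔ) hΔ hq (Ne.symm hqp) (hss q hq)

theorem ringHom_padic_ext {k : Type} [Field k] (f g : ℤ_[p] →+* k) (hk : (p : k) = 0)
    (x : ℤ_[p]) : f x = g x := by
  have h : (p : ℤ_[p]) ^ 1 ∣ x - ((PadicInt.toZModPow 1 x).val : ℤ_[p]) := by
    rw [← Ideal.mem_span_singleton, ← PadicInt.ker_toZModPow, RingHom.mem_ker, map_sub,
      map_natCast, ZMod.natCast_zmod_val, sub_self]
  obtain ⟨c, hc⟩ := h
  have hx : x = ((PadicInt.toZModPow 1 x).val : ℤ_[p]) + (p : ℤ_[p]) * c := by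
    linear_combination hc
  rw [hx, map_add, map_add, map_mul, map_mul, map_natCast, map_natCast, map_natCast, map_natCast, hk,
    zero_mul, zero_mul]

/-- The mod `p` matrices of `T` are those of `E[p]`. -/
theorem rhasMatrix_tors (hΔ : W.Δ ≠ 0) :
    RHasMatrix (torsResidual W p hΔ) ((mapHom PadicInt.toZMod).comp T.r) := by
  classical
  haveI := isElliptic_pts W hΔ
  have hp : p.Prime := Fact.out
  let f : (Fin 2 → ℤ_[p]) →+ (torsResidual W p hΔ).V :=
    (T.ι 1).codRestrict (Submodule.torsionBy ℤ (Pts W) (p : ℤ)).toAddSubgroup fun v => by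
      refine (mem_tors_iff W).2 ?_
      simpa using T.pow_nsmul_ι 1 v
  have hfker : ∀ v, f v = 0 ↔ ∀ i, PadicInt.toZMod (v i) = 0 := fun v => by
    refine (Subtype.ext_iff.trans (T.ι_eq_zero 1 v)).trans (forall_congr' fun i => ?_)
    rw [← RingHom.mem_ker, PadicInt.ker_toZMod, PadicInt.maximalIdeal_eq_span_p,
      Ideal.mem_span_singleton, pow_one]
  have hsm : ∀ (c : ℤ_[p]) (v : Fin 2 → ℤ_[p]), f (c • v) = PadicInt.toZMod c • f v := by
    intro c v
    have e : ((PadicInt.toZMod c).val : ZMod p) = PadicInt.toZMod c := ZMod.natCast_zmod_val _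
    rw [← e, Nat.cast_smul_eq_nsmul, ← map_nsmul, ← sub_eq_zero, ← map_sub, hfker]
    intro i
    rw [Pi.sub_apply, Pi.smul_apply, Pi.smul_apply, smul_eq_mul, nsmul_eq_mul, map_sub, map_mul,
      map_mul, map_natCast, e, sub_self]
  have hcast : ∀ z : ZMod p, PadicInt.toZMod ((z.val : ℤ_[p])) = z := fun z => by
    rw [map_natCast, ZMod.natCast_zmod_val]
  have hexp : ∀ u : Fin 2 → ℤ_[p], f u = ∑ j, PadicInt.toZMod (u j) • f (Pi.single j 1) := by
    intro u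
    conv_lhs => rw [pi_eq_sum_univ' u]
    rw [map_sum]
    exact Finset.sum_congr rfl fun j _ => hsm _ _
  let g : Fin 2 → (torsResidual W p hΔ).V := fun j => f (Pi.single j 1)
  have hli : LinearIndependent (ZMod p) g := by
    rw [Fintype.linearIndependent_iff]
    intro c hc i
    have h0 : f (fun j => ((c j).val : ℤ_[p])) = 0 := by
      rw [hexp, ← hc]
      exact Finset.sum_congr rfl fun j _ => by rw [hcast]
    rw [← hcast (c i)]
    exact (hfker _).1 h0 i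
  have hspan : ⊤ ≤ Submodule.span (ZMod p) (Set.range g) := by
    intro x _
    obtain ⟨v, hv⟩ := T.ι_surj 1 x.1 (by rw [pow_one]; exact (mem_tors_iff W).1 x.2)
    have hfx : f v = x := Subtype.ext hv
    rw [← hfx, hexp]
    exact Submodule.sum_mem _ fun j _ => Submodule.smul_mem _ _ (Submodule.subset_span ⟨j, rfl⟩)
  refine ⟨Module.Basis.mk hli hspan, fun σ => Matrix.ext fun i j => ?_⟩
  set bs := Module.Basis.mk hli hspan with hbs
  have hact : (torsResidual W p hΔ).ρ σ (bs j) = f ((T.r σ).mulVec (Pi.single j 1)) := by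
    rw [hbs, Module.Basis.mk_apply]
    exact Subtype.ext (T.ι_smul 1 σ (Pi.single j 1))
  rw [LinearMap.toMatrix_apply, hact, hexp, show (fun l => PadicInt.toZMod
    ((T.r σ).mulVec (Pi.single j 1) l) • f (Pi.single l 1)) = fun l => PadicInt.toZMod
    ((T.r σ).mulVec (Pi.single j 1) l) • bs l from funext fun l => by
      rw [hbs, Module.Basis.mk_apply],
    Module.Basis.repr_sum_self, Matrix.mulVec_single_one]
  rfl

theorem residual_equiv (hΔ : W.Δ ≠ 0) (ψ : ZMod p →+* IsLocalRing.ResidueField ℤ_[p]) :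
    T.rep.residual.IsEquiv ((torsResidual W p hΔ).baseChangeAlong ψ) := by
  have h1 := HasMatrix.residual T.hasMatrix
  have h2 := (T.rhasMatrix_tors hΔ).baseChangeAlong ψ
  have e : (mapHom (IsLocalRing.residue ℤ_[p])).comp T.r =
      (mapHom ψ).comp ((mapHom PadicInt.toZMod).comp T.r) := by
    refine MonoidHom.ext fun σ => Matrix.ext fun i j => ?_
    exact ringHom_padic_ext (IsLocalRing.residue ℤ_[p]) (ψ.comp PadicInt.toZMod) (by
      rw [← map_natCast (IsLocalRing.residue ℤ_[p]), IsLocalRing.residue_eq_zero_iff]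
      exact mem_maximalIdeal_p) _
  rw [e] at h1
  exact h1.isEquiv h2

end TateData

end Fermat.Agent.R59
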