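import Fermat.Agent.R59.TateW.Frob
import Fermat.Agent.R59.TateW.Sign
import Fermat.Agent.GalRep.Ordinary.ResidualData

/-!
# S59, unit W: the Tate module is strictly ordinary at a multiplicative `p`
-/

set_option autoImplicit false
set_option linter.unusedSectionVars false

noncomputable section

namespace Fermat.Agent.R59

open WeierstrassCurve WeierstrassCurve.Affine.Point IsLocalRing
open Fermat.Agent.Deform Fermat.Agent.ConductorMatch
open scoped WeierstrassCurve.Affine

local notation "Qb" => AlgebraicClosure ℚ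
local notation "GQ" => (AlgebraicClosure ℚ) ≃ₐ[ℚ] (AlgebraicClosure ℚ)

variable {W : WeierstrassCurve ℤ} {p : ℕ} [Fact p.Prime]

/-- A saturated proper nonzero submodule of `ℤ_p²` is a line spanned by part of a basis. -/
theorem exists_basis_of_saturated (L : Submodule ℤ_[p] (Fin 2 → ℤ_[p]))
    (hsat : ∀ u, (p : ℤ_[p]) • u ∈ L → u ∈ L) (hbot : ∃ w ∈ L, w ≠ 0) (htop : ∃ u, u ∉ L) :
    ∃ b : Module.Basis (Fin 2) ℤ_[p] (Fin 2 → ℤ_[p]), L = ℤ_[p] ∙ b 0 := by
  classical
  have hsatk : ∀ (k : ℕ) u, (p : ℤ_[p]) ^ k • u ∈ L → u ∈ L := by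
    intro k
    induction k with
    | zero => simp
    | succ k ih =>
      intro u hu
      rw [pow_succ', mul_smul] at hu
      exact ih u (hsat _ hu)
  have hdiv : ∀ (c : ℤ_[p]) u, c ≠ 0 → c • u ∈ L → u ∈ L := fun c u hc hu => by
    refine hsatk c.valuation u ?_
    have h1 : ((PadicInt.unitCoeff hc)⁻¹ : ℤ_[p]ˣ).val * c = (p : ℤ_[p]) ^ c.valuation := by
      rw [Units.inv_mul_eq_iff_eq_mul]
      exact PadicInt.unitCoeff_spec hc
    have : (p : ℤ_[p]) ^ c.valuation • u = ((PadicInt.unitCoeff hc)⁻¹ : ℤ_[p]ˣ).val • (c • u) := by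
      rw [smul_smul, h1]
    rw [this]
    exact L.smul_mem _ hu
  obtain ⟨w₀, hw₀, hw0⟩ := hbot
  -- make a coordinate a unit
  have key : ∀ (i j : Fin 2), i ≠ j → w₀ i ≠ 0 →
      (w₀ j = 0 ∨ (w₀ i).valuation ≤ (w₀ j).valuation) →
      ∃ b : Module.Basis (Fin 2) ℤ_[p] (Fin 2 → ℤ_[p]), L = ℤ_[p] ∙ b 0 := by
    intro i j hij hi hle
    obtain ⟨q, hq⟩ : (p : ℤ_[p]) ^ (w₀ i).valuation ∣ w₀ j := by
      rcases eq_or_ne (w₀ j) 0 with h | h
      · rw [h]; exact dvd_zero _
      · refine (pow_dvd_pow _ (hle.resolve_left h)).trans ⟨(PadicInt.unitCoeff h : ℤ_[p]), ?_⟩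
        rw [mul_comm]
        exact PadicInt.unitCoeff_spec h
    set e : Fin 2 → (Fin 2 → ℤ_[p]) := fun l => Pi.single l 1 with he
    set w : Fin 2 → ℤ_[p] := (PadicInt.unitCoeff hi : ℤ_[p]) • e i + q • e j with hw
    have hwi : w i = (PadicInt.unitCoeff hi : ℤ_[p]) := by simp [hw, he, hij]
    have hwj : w j = q := by simp [hw, he, hij.symm]
    have hext : ∀ u u' : Fin 2 → ℤ_[p], u i = u' i → u j = u' j → u = u' := fun u u' h h' => by
      funext l
      have : l = i ∨ l = j := by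
        omega
      rcases this with rfl | rfl <;> assumption
    have hww : (p : ℤ_[p]) ^ (w₀ i).valuation • w = w₀ := by
      refine hext _ _ ?_ ?_
      · rw [Pi.smul_apply, hwi, smul_eq_mul, mul_comm]
        exact (PadicInt.unitCoeff_spec hi).symm
      · rw [Pi.smul_apply, hwj, smul_eq_mul, ← hq]
    have hwL : w ∈ L := hsatk _ w (hww.symm ▸ hw₀)
    have hdec : ∀ u : Fin 2 → ℤ_[p], u = (u i * ((PadicInt.unitCoeff hi)⁻¹ : ℤ_[p]ˣ).val) • w +
        (u j - u i * ((PadicInt.unitCoeff hi)⁻¹ : ℤ_[p]ˣ).val * q) • e j := by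
      intro u
      refine hext _ _ ?_ ?_
      · simp [hwi, he, hij, mul_assoc]
      · simp [hwj, he]
    have hejL : e j ∉ L := fun h => by
      obtain ⟨u, hu⟩ := htop
      exact hu (hdec u ▸ L.add_mem (L.smul_mem _ hwL) (L.smul_mem _ h))
    have hli : LinearIndependent ℤ_[p] ![w, e j] := by
      rw [LinearIndependent.pair_iff]
      intro a a' h
      have h1 := congrFun h i
      simp [hwi, he, hij] at h1
      subst h1
      have h2 := congrFun h j
      simp [he] at h2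
      exact ⟨rfl, h2⟩
    have hsp : ⊤ ≤ Submodule.span ℤ_[p] (Set.range ![w, e j]) := fun u _ => by
      rw [hdec u]
      exact add_mem (Submodule.smul_mem _ _ (Submodule.subset_span ⟨0, rfl⟩))
        (Submodule.smul_mem _ _ (Submodule.subset_span ⟨1, rfl⟩))
    refine ⟨Module.Basis.mk hli hsp, le_antisymm (fun u hu => ?_) ?_⟩
    · rw [Module.Basis.mk_apply, Matrix.cons_val_zero, Submodule.mem_span_singleton]
      refine ⟨u i * ((PadicInt.unitCoeff hi)⁻¹ : ℤ_[p]ˣ).val, ?_⟩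
      set c := u j - u i * ((PadicInt.unitCoeff hi)⁻¹ : ℤ_[p]ˣ).val * q with hc
      have hcu : c • e j ∈ L := by
        have := L.sub_mem hu (L.smul_mem (u i * ((PadicInt.unitCoeff hi)⁻¹ : ℤ_[p]ˣ).val) hwL)
        rwa [sub_eq_iff_eq_add'.2 (hdec u)] at this
      have hc0 : c = 0 := by
        by_contra h
        exact hejL (hdiv c _ h hcu)
      conv_rhs => rw [hdec u, ← hc, hc0, zero_smul, add_zero]
    · rw [Submodule.span_singleton_le_iff_mem, Module.Basis.mk_apply]
      exact hwL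
  by_cases h0 : w₀ 0 = 0
  · refine key 1 0 (by decide) (fun h1 => hw0 (funext fun l => ?_)) (Or.inl h0)
    fin_cases l
    · exact h0
    · exact h1
  · by_cases h1 : w₀ 1 = 0
    · exact key 0 1 (by decide) h0 (Or.inl h1)
    · rcases le_total (w₀ 0).valuation (w₀ 1).valuation with h | h
      · exact key 0 1 (by decide) h0 (Or.inr h)
      · exact key 1 0 (by decide) h1 (Or.inr h)

namespace TateData

variable (T : TateData W p)

/-- The Tate module is strictly ordinary at a multiplicative `p`. -/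
theorem isStrictOrdinaryAt (hp2 : p ≠ 2) (hΔ : W.Δ ≠ 0) (hmul : (p : ℤ) ∣ W.Δ)
    (hc : ¬ (p : ℤ) ∣ W.c₄) : T.rep.IsStrictOrdinaryAt p := by
  classical
  have hp : p.Prime := Fact.out
  refine ⟨mem_maximalIdeal_p, fun A hA => ?_⟩
  haveI := isElliptic_pts W hΔ
  haveI := EC.charP_residue hp hA
  set WA := W.map (Int.castRingHom A) with hWA
  haveI : (WA.map (algebraMap A Qb)).IsElliptic := by
    rw [← EC.baseChange_eq_map W A]; infer_instance
  have hdlt : A.valuation (algebraMap A Qb WA.Δ) < 1 := by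
    rw [hWA, map_Δ, eq_intCast]
    exact (A.valuation_lt_one_iff _).1
      ((residue_eq_zero_iff _).1 ((EC.intCast_residue_eq_zero_iff hp hA _).2 hmul))
  have hd0 : WA.Δ ≠ 0 := by
    rw [hWA, map_Δ, eq_intCast]
    exact_mod_cast hΔ
  have hc4 : A.valuation (algebraMap A Qb WA.c₄) = 1 := by
    rw [hWA, map_c₄, eq_intCast]
    exact (A.valuation_eq_one_iff _).1 (EC.isUnit_intCast hp hA hc)
  obtain ⟨hsign, hex⟩ := exists_sign (F := ℚ) (p := p) WA hdlt hd0 hc4 hp2
  have hfix : ∀ (σ : GQ) (z : ℤ), σ (algebraMap A Qb (Int.castRingHom A z)) =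
      algebraMap A Qb (Int.castRingHom A z) := fun σ z => by simp
  -- the sign of a decomposition element
  have hdec : ∀ σ : GQ, σ ∈ A.decompositionSubgroup ℚ → ∃ ε : ℤ, ε ^ 2 = 1 ∧
      (σ ∈ A.inertiaSubgroupIn ℚ → ε = 1) ∧ ∀ (n : ℕ) (u : Fin 2 → ℤ_[p]),
        EC.IsBigPoint A (toPlace W A (T.ι n ((T.r σ).mulVec u - (ε : ℤ_[p]) • u))) := by
    intro σ hσ
    obtain ⟨ε, hε, hε1, hbig⟩ := hsign σ (valuation_eq_of_mem_decomp hσ)
      (hfix σ _) (hfix σ _) (hfix σ _) (hfix σ _) (hfix σ _)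
    refine ⟨ε, hε, fun h => hε1 (EC.actsInertially_of_mem h), fun n u => ?_⟩
    rw [map_sub, ← T.ι_smul, T.ι_zsmul_congr, map_sub, map_zsmul]
    have ht := T.pow_nsmul_ι n u
    rcases e : T.ι n u with _ | ⟨x, y, h⟩
    · show EC.IsBigPoint A (toPlace W A (σ • (0 : Pts W)) - ε • toPlace W A (0 : Pts W))
      rw [show σ • (0 : Pts W) = 0 from rfl, _root_.map_zero, zsmul_zero, sub_zero]
      exact EC.isBigPoint_zero
    · rw [e] at ht
      obtain ⟨h', e'⟩ := EC.algEquiv_smul_some (K := Qb) (W.map (Int.castRingHom ℚ)).toAffine σ h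
      have ht' : p ^ n • (σ • (Affine.Point.some x y h : Pts W)) = 0 := by
        rw [smul_comm, ht]; rfl
      rw [e'] at ht' ⊢
      have g : (WA.map (algebraMap A Qb)).toAffine.Nonsingular x y :=
        cast (by rw [EC.baseChange_eq_map W A]) h
      have g' : (WA.map (algebraMap A Qb)).toAffine.Nonsingular (σ x) (σ y) :=
        cast (by rw [EC.baseChange_eq_map W A]) h'
      have a₁ : toPlace W A (Affine.Point.some x y h) = Affine.Point.some x y g := rfl
      have a₂ : toPlace W A (Affine.Point.some (σ x) (σ y) h') =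
          Affine.Point.some (σ x) (σ y) g' := rfl
      have t₁ := congrArg (toPlace W A) ht
      have t₂ := congrArg (toPlace W A) ht'
      rw [map_nsmul, _root_.map_zero, a₁] at t₁
      rw [map_nsmul, _root_.map_zero] at t₂
      have h3 := hbig n x y g g' t₁ t₂
      exact h3
  -- the line
  let L : Submodule ℤ_[p] (Fin 2 → ℤ_[p]) :=
    { carrier := {u | ∀ n, EC.IsBigPoint A (toPlace W A (T.ι n u))}
      add_mem' := fun {a b} ha hb n => by
        rw [map_add, map_add]; exact EC.isBigPoint_add (ha n) (hb n)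
      zero_mem' := fun n => by
        rw [_root_.map_zero, _root_.map_zero]; exact EC.isBigPoint_zero
      smul_mem' := fun c u hu n => by
        have hc : (p : ℤ_[p]) ^ n ∣ c - ((PadicInt.toZModPow n c).val : ℤ_[p]) := by
          rw [← Ideal.mem_span_singleton, ← PadicInt.ker_toZModPow, RingHom.mem_ker, map_sub,
            map_natCast, ZMod.natCast_zmod_val, sub_self]
        rw [T.ι_congr n hc, map_nsmul]
        exact (EC.redKernel A WA).nsmul_mem (hu n) _ }
  have hLmem : ∀ u, u ∈ L ↔ ∀ n, EC.IsBigPoint A (toPlace W A (T.ι n u)) := fun u => Iff.rfl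
  have hsat : ∀ u, (p : ℤ_[p]) • u ∈ L → u ∈ L := fun u hu n => by
    have h := hu (n + 1)
    rwa [Nat.cast_smul_eq_nsmul, map_nsmul, T.ι_succ] at h
  have htop : ∃ u, u ∉ L := by
    obtain ⟨x, y, h, ht, hx⟩ := hex
    have g : ((W.map (Int.castRingHom ℚ)).toAffine⁄Qb).Nonsingular x y :=
      cast (by rw [EC.baseChange_eq_map W A]) h
    have hP : p ^ 1 • (Affine.Point.some x y g : Pts W) = 0 := by
      refine toPlace_injective W A ?_
      rw [map_nsmul, _root_.map_zero, pow_one]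
      exact ht
    obtain ⟨u, hu⟩ := T.ι_surj 1 _ hP
    refine ⟨u, fun hL => not_lt.2 hx ?_⟩
    have := hL 1
    rw [hu] at this
    exact (EC.isBigPoint_some h).1 this
  have hbot : ∃ w ∈ L, w ≠ 0 := by
    obtain ⟨σ, hσ, hne⟩ := GalRep.Ordinary.exists_inertia_cyc_ne_one hp2 hA
    have hσD : σ ∈ A.decompositionSubgroup ℚ := by
      obtain ⟨τ, -, rfl⟩ := hσ
      exact τ.2
    obtain ⟨ε, -, hε1, hbig⟩ := hdec σ hσD
    by_contra hcon
    push Not at hcon
    refine hne ?_
    have hr : T.r σ = 1 := by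
      refine Matrix.toLin'.injective (LinearMap.ext fun u => ?_)
      have := hcon _ ((hLmem _).2 fun n => hbig n u)
      rw [hε1 hσ, Int.cast_one, one_smul, sub_eq_zero] at this
      simpa using this
    rw [← T.det_r hp2 hΔ, hr, Matrix.det_one, map_one]
  obtain ⟨b, hb⟩ := exists_basis_of_saturated L hsat hbot htop
  have hact : ∀ (σ : GQ) (u : Fin 2 → ℤ_[p]), T.rep.ρ σ u = (T.r σ).mulVec u := fun σ u => rfl
  have hline : ∀ σ : GQ, σ ∈ A.decompositionSubgroup ℚ → ∃ x : ℤ_[p], (T.r σ).mulVec (b 0) = x • b 0 := by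
    intro σ hσ
    obtain ⟨ε, -, -, hbig⟩ := hdec σ hσ
    have h1 : (T.r σ).mulVec (b 0) ∈ L := by
      have h0 : b 0 ∈ L := hb ▸ Submodule.mem_span_singleton_self _
      have h2 := L.add_mem ((hLmem _).2 fun n => hbig n (b 0)) (L.smul_mem (ε : ℤ_[p]) h0)
      rwa [sub_add_cancel] at h2
    rw [hb, Submodule.mem_span_singleton] at h1
    obtain ⟨x, hx⟩ := h1
    exact ⟨x, hx.symm⟩
  refine ⟨L, ⟨b, hb⟩, fun σ hσ u hu => ?_, fun σ hσ u => ?_, fun σ hσ => ?_⟩
  · obtain ⟨x, hx⟩ := hline σ hσ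
    have hu' : (show Fin 2 → ℤ_[p] from u) ∈ L := hu
    rw [hb, Submodule.mem_span_singleton] at hu'
    obtain ⟨c, hc⟩ := hu'
    show (T.r σ).mulVec (show Fin 2 → ℤ_[p] from u) ∈ L
    rw [← hc, Matrix.mulVec_smul, hx]
    exact L.smul_mem _ (L.smul_mem _ (hb ▸ Submodule.mem_span_singleton_self _))
  · have hσD : σ ∈ A.decompositionSubgroup ℚ := by
      obtain ⟨τ, -, rfl⟩ := hσ
      exact τ.2
    obtain ⟨ε, -, hε1, hbig⟩ := hdec σ hσD
    have := (hLmem _).2 fun n => hbig n u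
    rw [hε1 hσ, Int.cast_one, one_smul] at this
    exact this
  · obtain ⟨ε, hε, -, hbig⟩ := hdec σ hσ
    obtain ⟨x, hx⟩ := hline σ hσ
    have hz : ∀ u : Fin 2 → ℤ_[p], (T.r σ).mulVec u - (ε : ℤ_[p]) • u ∈ L := fun u =>
      (hLmem _).2 fun n => hbig n u
    refine ⟨x, (ε : ℤ_[p]), fun u hu => ?_, hz, fun n a ha => ?_⟩
    · have hu' : (show Fin 2 → ℤ_[p] from u) ∈ L := hu
      rw [hb, Submodule.mem_span_singleton] at hu'
      obtain ⟨c, hc⟩ := hu'
      show (T.r σ).mulVec (show Fin 2 → ℤ_[p] from u) = x • (show Fin 2 → ℤ_[p] from u)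
      rw [← hc, Matrix.mulVec_smul, hx, smul_comm]
    · have hdet : LinearMap.det (T.rep.ρ σ) = x * (ε : ℤ_[p]) := by
        have h1 := hz (b 1)
        rw [hb, Submodule.mem_span_singleton] at h1
        obtain ⟨c, hc⟩ := h1
        have hb1 : (T.r σ).mulVec (b 1) = c • b 0 + (ε : ℤ_[p]) • b 1 := by
          rw [hc]; exact (sub_add_cancel _ _).symm
        rw [show LinearMap.det (T.rep.ρ σ) = LinearMap.det (Matrix.toLin' (T.r σ)) from rfl,
          ← LinearMap.det_toMatrix b, Matrix.det_fin_two]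
        simp only [LinearMap.toMatrix_apply, Matrix.toLin'_apply, hx, hb1]
        simp [Module.Basis.repr_self]
      have hd := (T.detIsCyclotomic hp2 hΔ).2 n σ a ha
      have e2 : (ε : ℤ_[p]) * (ε : ℤ_[p]) = 1 := by rw [← Int.cast_mul, ← pow_two, hε, Int.cast_one]
      have hkey : x - (a : ℤ_[p]) * (ε : ℤ_[p]) =
          (ε : ℤ_[p]) * (LinearMap.det (T.rep.ρ σ) - (a : ℤ_[p])) := by
        rw [hdet]
        linear_combination -x * e2
      rw [hkey]
      exact Ideal.mul_mem_left _ _ hd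

end TateData

end Fermat.Agent.R59
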