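import Fermat.Agent.R59.TateW.Bundle
import Fermat.Agent.R59.TateW.Frob
import Fermat.Agent.R59.TateW.FlatRep
import Fermat.Agent.R59.TateW.Line
import Fermat.Agent.GD.TW56.BaseChange

/-!
# S59, unit W: the Tate module of a semistable model as a Galois representation
-/

set_option autoImplicit false

noncomputable section

namespace Fermat.Agent.R59

open Fermat.Agent.Deform
open Fermat.Agent

variable (W : WeierstrassCurve ℤ) (p : ℕ) [Fact p.Prime]

/-- The Tate module of a semistable model has all the properties of the bundle. -/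
theorem TateData.isTateRep {W : WeierstrassCurve ℤ} {p : ℕ} [Fact p.Prime] (T : TateData W p)
    (hΔ : W.Δ ≠ 0) (hss : W.IsSemistableModel) (hp2 : p ≠ 2) : IsTateRep W p T.rep where
  det_cyc := T.detIsCyclotomic hp2 hΔ
  unram := fun _ hq hqp hgood => T.unramified hΔ hq hqp hp2 hgood
  charpoly_frob := fun _ hℓ hℓp hg _ hP _ hσ => T.charpoly_frob hp2 hℓ hℓp hg hP hσ
  unipotent := fun _ hq hqp => T.unipotent hp2 hΔ hss hq hqp
  flat := fun hgood => T.isFlatAt hp2 hgood TateData.mem_maximalIdeal_p T.rep (by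
    have e : (mapHom (algebraMap ℤ_[p] ℤ_[p])).comp T.r = T.r :=
      MonoidHom.ext fun σ => Matrix.ext fun _ _ => rfl
    rw [e]
    exact T.hasMatrix)
  ordinary := fun hmul => T.isStrictOrdinaryAt hp2 hΔ hmul (hss p Fact.out hmul)
  residual := fun hΔ' ψ => T.residual_equiv hΔ' ψ

/-- The Tate module with coefficients in a finite extension has all the properties. -/
theorem TateData.isTateRep_baseChange {W : WeierstrassCurve ℤ} {p : ℕ} [Fact p.Prime]
    (T : TateData W p) (hΔ : W.Δ ≠ 0) (hss : W.IsSemistableModel) (hp2 : p ≠ 2) {O : Type}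
    [CommRing O] [IsLocalRing O] [Algebra ℤ_[p] O] [Module.Finite ℤ_[p] O]
    (hφ : IsLocalHom (algebraMap ℤ_[p] O)) :
    IsTateRep W p (T.rep.baseChangeAlong (algebraMap ℤ_[p] O) hφ) where
  det_cyc := TW56.detIsCyclotomic_baseChange hφ (T.detIsCyclotomic hp2 hΔ)
  unram := fun _ hq hqp hgood =>
    TW56.isUnramifiedAt_baseChange hφ (T.unramified hΔ hq hqp hp2 hgood)
  charpoly_frob := fun _ hℓ hℓp hg _ hP σ hσ => by
    letI : Algebra ℤ_[p] O := (algebraMap ℤ_[p] O).toAlgebra
    show ((T.rep.ρ σ).baseChange O).charpoly = _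
    rw [LinearMap.charpoly_baseChange, T.charpoly_frob hp2 hℓ hℓp hg hP hσ]
    simp
  unipotent := fun _ hq hqp =>
    TW56.isUnipotentOnInertiaAt_baseChange hφ (T.unipotent hp2 hΔ hss hq hqp)
  flat := fun hgood => T.isFlatAt hp2 hgood (by
    rw [← map_natCast (algebraMap ℤ_[p] O)]
    haveI := hφ
    exact map_nonunit (algebraMap ℤ_[p] O) _ TateData.mem_maximalIdeal_p) _
    (T.hasMatrix.baseChangeAlong (algebraMap ℤ_[p] O) hφ)
  ordinary := fun hmul => TW56.isStrictOrdinaryAt_baseChange hφ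
    (T.isStrictOrdinaryAt hp2 hΔ hmul (hss p Fact.out hmul))
  residual := fun hΔ' ψ => by
    have h1 := HasMatrix.residual (T.hasMatrix.baseChangeAlong (algebraMap ℤ_[p] O) hφ)
    have h2 := (T.rhasMatrix_tors hΔ').baseChangeAlong ψ
    have e : (mapHom (IsLocalRing.residue O)).comp ((mapHom (algebraMap ℤ_[p] O)).comp T.r) =
        (mapHom ψ).comp ((mapHom PadicInt.toZMod).comp T.r) := by
      refine MonoidHom.ext fun σ => Matrix.ext fun i j => ?_
      exact TateData.ringHom_padic_ext ((IsLocalRing.residue O).comp (algebraMap ℤ_[p] O))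
        (ψ.comp PadicInt.toZMod) (by
          rw [← map_natCast ψ p, ZMod.natCast_self, map_zero]) _
    rw [e] at h1
    exact h1.isEquiv h2

/-- **Unit W.** The `p`-adic Tate module of a semistable model with all its properties. -/
theorem exists_isTateRep (hΔ : W.Δ ≠ 0) (hss : W.IsSemistableModel) (hp2 : p ≠ 2) :
    ∃ ρ : GaloisRepAdic ℤ_[p], IsTateRep W p ρ := by
  obtain ⟨T⟩ := exists_tateData W p hΔ
  exact ⟨T.rep, T.isTateRep hΔ hss hp2⟩

/-- **Unit W, with coefficients.** -/
theorem exists_isTateRep_coeff (hΔ : W.Δ ≠ 0) (hss : W.IsSemistableModel) (hp2 : p ≠ 2)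
    {O : Type} [CommRing O] [IsLocalRing O] [Algebra ℤ_[p] O]
    [IsLocalHom (algebraMap ℤ_[p] O)] [Module.Finite ℤ_[p] O] [Module.Free ℤ_[p] O] :
    ∃ ρ : GaloisRepAdic O, IsTateRep W p ρ := by
  obtain ⟨T⟩ := exists_tateData W p hΔ
  exact ⟨_, T.isTateRep_baseChange hΔ hss hp2 (O := O) inferInstance⟩

end Fermat.Agent.R59
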