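import Fermat.Agent.EC.Local.AtP
import Fermat.Agent.EC.Local.Line
import Fermat.Agent.ConductorMatch.NodalTorsion

/-!
# S59, unit W: multiplicative reduction at a place above an odd `p`

Only division by `2` is used to reach `y² + xy = x³ + c`. A valuation-preserving automorphism
fixing the equation acts, modulo the kernel of reduction, on the `p`-power torsion by a sign.
-/

set_option autoImplicit false
set_option linter.unusedSectionVars false

namespace Fermat.Agent.R59

open WeierstrassCurve Fermat.Agent.EC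
open scoped Pointwise

variable {L : Type*} [Field L] [IsAlgClosed L] [CharZero L] [DecidableEq L]
variable {F : Type*} [Field F] [Algebra F L]
variable {A : ValuationSubring L}

local notation "v" => A.valuation

omit [IsAlgClosed L] [CharZero L] [DecidableEq L] in
/-- Elements of the decomposition group preserve the valuation. -/
theorem valuation_eq_of_mem_decomp [Algebra.IsIntegral F L] {σ : L ≃ₐ[F] L}
    (hσ : σ ∈ A.decompositionSubgroup F) (x : L) : v (σ x) = v x := by
  have hA : σ • A = A := hσ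
  have hmem : ∀ x, x ∈ A ↔ σ x ∈ A := by
    intro x
    constructor
    · intro hx
      have : σ • x ∈ σ • A := ValuationSubring.smul_mem_pointwise_smul _ _ _ hx
      rwa [hA] at this
    · intro hx
      rw [← hA, ValuationSubring.mem_smul_pointwise_iff_exists] at hx
      obtain ⟨y, hy, he⟩ := hx
      rwa [σ.injective (show σ y = σ x from he)] at hy
  have hle : ∀ x y : L, v x ≤ v y → v (σ x) ≤ v (σ y) := by
    intro x y hxy
    obtain ⟨a, ha⟩ := (A.valuation_le_iff x y).1 hxy
    exact (A.valuation_le_iff _ _).2 ⟨⟨σ a, (hmem a).1 a.2⟩, by rw [← ha, map_mul]⟩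
  obtain ⟨k, hk, hkx⟩ := exists_pow_apply_eq σ x
  rcases le_total (v x) (v (σ x)) with h | h
  · refine le_antisymm ?_ h
    have hm : ∀ i, v (σ x) ≤ v ((σ : L → L)^[i + 1] x) := by
      intro i
      induction i with
      | zero => simp
      | succ i ih =>
        refine le_trans (hle _ _ (le_trans h ih)) (le_of_eq ?_)
        rw [Function.iterate_succ_apply' _ (i + 1)]
    have := hm (k - 1)
    rwa [Nat.sub_add_cancel hk, hkx] at this
  · refine le_antisymm h ?_
    have hm : ∀ i, v ((σ : L → L)^[i + 1] x) ≤ v (σ x) := by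
      intro i
      induction i with
      | zero => simp
      | succ i ih =>
        refine le_trans (le_of_eq ?_) (hle _ _ (le_trans ih h))
        rw [Function.iterate_succ_apply' _ (i + 1)]
    have := hm (k - 1)
    rwa [Nat.sub_add_cancel hk, hkx] at this

/-- A root near an approximate simple root of a quadratic. -/
theorem exists_root_near {a b c : L} (ha : a ≠ 0) (hb : v b = 1) (hc : v c < 1) :
    ∃ d : L, a * d ^ 2 + b * d + c = 0 ∧ v d < 1 := by
  obtain ⟨d, hd⟩ := IsAlgClosed.exists_root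
    (Polynomial.C a * Polynomial.X ^ 2 + Polynomial.C b * Polynomial.X + Polynomial.C c)
    (by rw [Polynomial.degree_quadratic ha]; decide)
  simp only [Polynomial.IsRoot.def, Polynomial.eval_add, Polynomial.eval_mul, Polynomial.eval_C,
    Polynomial.eval_pow, Polynomial.eval_X] at hd
  by_contra hcon
  push Not at hcon
  obtain ⟨d', hd'⟩ : ∃ d', d' = -b / a - d := ⟨_, rfl⟩
  have hab : a * d' = -b - a * d := by rw [hd', mul_sub, mul_div_cancel₀ _ ha]
  have h2 : a * d' ^ 2 + b * d' + c = 0 := by linear_combination (d' - d) * hab + hd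
  have hprod : a * d * d' = c := by linear_combination d * hab - hd
  have i₁ := hcon d hd
  have i₂ := hcon d' h2
  have hsum : b = -(a * d + a * d') := by linear_combination hab
  have hle : v b ≤ v (a * d * d') := by
    rw [hsum, Valuation.map_neg]
    refine (A.valuation.map_add _ _).trans (max_le ?_ ?_)
    · rw [map_mul _ (a * d)]; exact le_mul_of_one_le_right zero_le i₂
    · rw [map_mul, map_mul, map_mul, mul_right_comm]
      exact le_mul_of_one_le_right zero_le i₁
  rw [hb, hprod] at hle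
  exact not_lt.2 hle hc

omit [IsAlgClosed L] [CharZero L] [DecidableEq L] in
/-- The node is unique: no second critical abscissa with small `b₆`. -/
theorem critical_eq {b₂ b₄ b₆ r r' : L} (h2 : v (2 : L) = 1) (hr : 6 * r ^ 2 + b₂ * r + b₄ = 0)
    (hr' : 6 * r' ^ 2 + b₂ * r' + b₄ = 0) (h3 : v (3 : L) ≤ 1) (hB : v (b₂ + 12 * r) = 1)
    (h6 : v (b₆ + 2 * r * b₄ + r ^ 2 * b₂ + 4 * r ^ 3) < 1)
    (h6' : v (b₆ + 2 * r' * b₄ + r' ^ 2 * b₂ + 4 * r' ^ 3) < 1) : r' = r := by
  by_contra hne
  set δ := r' - r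
  have hδ : 6 * δ + (b₂ + 12 * r) = 0 := by
    have h : δ * (6 * δ + (b₂ + 12 * r)) = 0 := by simp only [δ]; linear_combination hr' - hr
    exact (mul_eq_zero.1 h).resolve_left (sub_ne_zero.2 hne)
  have hsmall : v (δ ^ 3 * 2) < 1 := by
    rw [show δ ^ 3 * 2 = (b₆ + 2 * r * b₄ + r ^ 2 * b₂ + 4 * r ^ 3) -
      (b₆ + 2 * r' * b₄ + r' ^ 2 * b₂ + 4 * r' ^ 3) by
      simp only [δ] at hδ ⊢
      linear_combination (2 * (r' - r)) * hr + ((r' - r) ^ 2) * hδ]
    exact val_sub_lt _ h6 h6'
  rw [map_mul, h2, mul_one, map_pow] at hsmall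
  have hδ1 : v δ < 1 := lt_of_not_ge fun h => not_le.2 hsmall (one_le_pow₀ h)
  have : v (b₂ + 12 * r) < 1 := by
    rw [show b₂ + 12 * r = -(2 * 3 * δ) by linear_combination hδ, Valuation.map_neg]
    exact val_mul_lt_one' _ (val_mul_le_one _ h2.le h3) hδ1
  exact this.ne hB

omit [IsAlgClosed L] [DecidableEq L] in
/-- The change of variables to `y² + xy = x³ + c` at a critical abscissa. -/
theorem normal_form (V : WeierstrassCurve L) (u : Lˣ) {r : L} (hu : (u : L) ^ 2 = V.b₂ + 12 * r)
    (hr : 6 * r ^ 2 + V.b₂ * r + V.b₄ = 0) :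
    let C : VariableChange L := ⟨u, r, ((u : L) - V.a₁) / 2, -(V.a₃ + r * V.a₁) / 2⟩
    C • V = ⟨1, 0, 0, 0, (C • V).a₆⟩ ∧
      4 * (C • V).a₆ = (u⁻¹ : Lˣ) ^ 6 * (V.b₆ + 2 * r * V.b₄ + r ^ 2 * V.b₂ + 4 * r ^ 3) := by
  intro C
  have hu0 : (u : L) ≠ 0 := u.ne_zero
  simp only [WeierstrassCurve.b₂] at hu
  simp only [WeierstrassCurve.b₂, WeierstrassCurve.b₄] at hr
  refine ⟨?_, ?_⟩
  · ext
    · rw [variableChange_a₁]; simp only [C, Units.val_inv_eq_inv_val]; field_simp; ring
    · rw [variableChange_a₂]; simp only [C]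
      rw [mul_eq_zero]; right
      linear_combination (-1 / 4 : L) * hu
    · rw [variableChange_a₃]; simp only [C]
      rw [mul_eq_zero]; right
      ring
    · rw [variableChange_a₄]; simp only [C]
      rw [mul_eq_zero]; right
      linear_combination (1 / 2 : L) * hr
    · rfl
  · rw [variableChange_a₆]
    simp only [C, WeierstrassCurve.b₂, WeierstrassCurve.b₄, WeierstrassCurve.b₆]
    ring

/-- The normal form at the node, and how valuation-preserving automorphisms move it. -/
theorem exists_normal_node (W : WeierstrassCurve A) (hΔ : v (algebraMap A L W.Δ) < 1)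
    (hΔ0 : W.Δ ≠ 0) (hc₄ : v (algebraMap A L W.c₄) = 1) (h2 : v (2 : L) = 1) :
    ∃ (C : VariableChange L) (c : A), c ≠ 0 ∧ v (algebraMap A L c) < 1 ∧
      C • W.map (algebraMap A L) = (tateNF c).map (algebraMap A L) ∧
      v (C.u : L) = 1 ∧ v C.r ≤ 1 ∧
      ∀ σ : L ≃ₐ[F] L, (∀ z, v (σ z) = v z) →
        σ (W.map (algebraMap A L)).a₁ = (W.map (algebraMap A L)).a₁ →
        σ (W.map (algebraMap A L)).a₂ = (W.map (algebraMap A L)).a₂ →
        σ (W.map (algebraMap A L)).a₃ = (W.map (algebraMap A L)).a₃ →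
        σ (W.map (algebraMap A L)).a₄ = (W.map (algebraMap A L)).a₄ →
        σ (W.map (algebraMap A L)).a₆ = (W.map (algebraMap A L)).a₆ →
        σ C.r = C.r ∧ σ C.t = C.t ∧ σ (algebraMap A L c) = algebraMap A L c ∧
          ((σ (C.u : L) = C.u ∧ σ C.s = C.s) ∨
            (σ (C.u : L) = -(C.u : L) ∧ σ C.s = C.s - C.u ∧ ¬ ActsInertially A σ)) := by
  haveI := isAlgClosed_residue A
  set res := IsLocalRing.residue A
  set V := W.map (algebraMap A L) with hV
  have hdz : (W.map res).Δ = 0 := by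
    rw [map_Δ, IsLocalRing.residue_eq_zero_iff]
    exact (A.valuation_lt_one_iff _).2 hΔ
  have hcz : (W.map res).c₄ ≠ 0 := by
    rw [map_c₄]
    exact (IsLocalRing.residue_ne_zero_iff_isUnit _).2 ((A.valuation_eq_one_iff _).2 hc₄)
  obtain ⟨C₀, hC₀⟩ := ConductorMatch.exists_vc_nodal (W.map res) hdz hcz
  obtain ⟨z, hz⟩ := IsLocalRing.residue_surjective C₀.r
  have hu0 : (↑(C₀.u⁻¹) : IsLocalRing.ResidueField A) ≠ 0 := Units.ne_zero _
  have k₄ : res (W.b₄ + z * W.b₂ + 6 * z ^ 2) = 0 := by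
    have e := variableChange_b₄ (W.map res) C₀
    rw [hC₀, map_b₂, map_b₄, show (ConductorMatch.nodalCubic (IsLocalRing.ResidueField A)).b₄ = 0 by
      simp [ConductorMatch.nodalCubic, WeierstrassCurve.b₄]] at e
    have e' := (mul_eq_zero.1 e.symm).resolve_left (pow_ne_zero _ hu0)
    rw [← e', ← hz]; simp [res, map_ofNat]
  have k₆ : res (W.b₆ + 2 * z * W.b₄ + z ^ 2 * W.b₂ + 4 * z ^ 3) = 0 := by
    have e := variableChange_b₆ (W.map res) C₀
    rw [hC₀, map_b₂, map_b₄, map_b₆, show (ConductorMatch.nodalCubic (IsLocalRing.ResidueField A)).b₆ = 0 by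
      simp [ConductorMatch.nodalCubic, WeierstrassCurve.b₆]] at e
    have e' := (mul_eq_zero.1 e.symm).resolve_left (pow_ne_zero _ hu0)
    rw [← e', ← hz]; simp [res, map_ofNat]
  have k₂ : res (W.b₂ + 12 * z) ≠ 0 := by
    have e := variableChange_b₂ (W.map res) C₀
    rw [hC₀, map_b₂, show (ConductorMatch.nodalCubic (IsLocalRing.ResidueField A)).b₂ = 1 by
      simp [ConductorMatch.nodalCubic, WeierstrassCurve.b₂]] at e
    intro h0
    refine one_ne_zero (e.trans (mul_eq_zero_of_right _ ?_))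
    rw [← h0, ← hz]; simp [res, map_ofNat]
  -- the critical abscissa
  obtain ⟨d, hd, hvd⟩ := exists_root_near (A := A) (a := (6 : L))
    (b := algebraMap A L (W.b₂ + 12 * z)) (c := algebraMap A L (W.b₄ + z * W.b₂ + 6 * z ^ 2))
    (by norm_num) ((A.valuation_eq_one_iff _).1 ((IsLocalRing.residue_ne_zero_iff_isUnit _).1 k₂))
    ((A.valuation_lt_one_iff _).1 ((IsLocalRing.residue_eq_zero_iff _).1 k₄))
  set r : A := z + ⟨d, A.mem_of_valuation_le_one d hvd.le⟩ with hrdef
  have hrz : res r = res z := by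
    rw [hrdef, map_add, add_eq_left, IsLocalRing.residue_eq_zero_iff]
    exact (A.valuation_lt_one_iff _).2 hvd
  have hroot : 6 * (r : L) ^ 2 + V.b₂ * r + V.b₄ = 0 := by
    simp only [map_add, map_mul, map_pow, map_ofNat] at hd
    rw [hV, map_b₂, map_b₄, hrdef]
    push_cast
    simp only [show ∀ a : A, (algebraMap A L a) = (a : L) from fun _ => rfl] at hd ⊢
    linear_combination hd
  have hB : v (V.b₂ + 12 * (r : L)) = 1 := by
    have h : IsUnit (W.b₂ + 12 * r) := (IsLocalRing.residue_ne_zero_iff_isUnit _).1 (by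
      rw [map_add, map_mul] at k₂ ⊢
      rwa [hrz])
    have h' := (A.valuation_eq_one_iff _).1 h
    rw [hV, map_b₂]
    exact h'
  have h6 : v (V.b₆ + 2 * (r : L) * V.b₄ + (r : L) ^ 2 * V.b₂ + 4 * (r : L) ^ 3) < 1 := by
    have h : res (W.b₆ + 2 * r * W.b₄ + r ^ 2 * W.b₂ + 4 * r ^ 3) = 0 := by
      simp only [map_add, map_mul, map_pow] at k₆ ⊢
      rwa [hrz]
    have h' := (A.valuation_lt_one_iff _).1 ((IsLocalRing.residue_eq_zero_iff _).1 h)
    rw [hV, map_b₂, map_b₄, map_b₆]
    exact h'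
  obtain ⟨u₀, hu₀⟩ := IsAlgClosed.exists_pow_nat_eq (V.b₂ + 12 * (r : L)) (by norm_num : 0 < 2)
  have hvu : v u₀ = 1 := by
    have := congrArg v hu₀
    rw [map_pow, hB] at this
    exact (pow_eq_one_iff_of_nonneg zero_le (by norm_num)).1 this
  have hu00 : u₀ ≠ 0 := fun h => by rw [h, map_zero] at hvu; exact zero_ne_one hvu
  set u : Lˣ := Units.mk0 u₀ hu00
  set C : VariableChange L := ⟨u, r, (u₀ - V.a₁) / 2, -(V.a₃ + (r : L) * V.a₁) / 2⟩ with hC
  obtain ⟨hN₀, h4c₀⟩ := normal_form V u (r := (r : L)) hu₀ hroot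
  set c₀ := (C • V).a₆ with hc₀
  have hN : C • V = ⟨1, 0, 0, 0, c₀⟩ := hN₀
  have h4c : 4 * c₀ = ((u⁻¹ : Lˣ) : L) ^ 6 *
      (V.b₆ + 2 * (r : L) * V.b₄ + (r : L) ^ 2 * V.b₂ + 4 * (r : L) ^ 3) := h4c₀
  have hv4 : v (4 : L) = 1 := by rw [show (4 : L) = 2 * 2 by norm_num, map_mul, h2, mul_one]
  have hcv : v c₀ < 1 := by
    have e := congrArg v h4c
    rw [map_mul v (4 : L), hv4, one_mul, map_mul, map_pow, Units.val_inv_eq_inv_val, map_inv₀,
      show v (u : L) = 1 from hvu, inv_one, one_pow, one_mul] at e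
    rw [e]
    exact h6
  have hcne : c₀ ≠ 0 := fun h0 => by
    have hne : (C • V).Δ ≠ 0 := by
      rw [variableChange_Δ, hV, map_Δ]
      exact mul_ne_zero (pow_ne_zero _ (Units.ne_zero _))
        (by simpa using (FaithfulSMul.algebraMap_injective A L).ne hΔ0)
    refine hne ?_
    rw [hN, h0]
    simp [WeierstrassCurve.Δ, WeierstrassCurve.b₂, WeierstrassCurve.b₄, WeierstrassCurve.b₆,
      WeierstrassCurve.b₈]
  refine ⟨C, ⟨c₀, A.mem_of_valuation_le_one _ hcv.le⟩, fun h => hcne (congrArg Subtype.val h), hcv,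
    ?_, hvu, A.valuation_le_one r, fun σ hσ f₁ f₂ f₃ f₄ f₆ => ?_⟩
  · rw [hN]
    ext <;> simp [tateNF, WeierstrassCurve.map]
  have hfb₂ : σ V.b₂ = V.b₂ := by simp [WeierstrassCurve.b₂, f₁, f₂, map_ofNat]
  have hfb₄ : σ V.b₄ = V.b₄ := by simp [WeierstrassCurve.b₄, f₁, f₃, f₄, map_ofNat]
  have hfb₆ : σ V.b₆ = V.b₆ := by simp [WeierstrassCurve.b₆, f₃, f₆, map_ofNat]
  have gr : σ (r : L) = r := by
    refine critical_eq h2 hroot ?_ (by exact_mod_cast val_natCast_le_one (A := A) 3) hB h6 ?_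
    · have := congrArg σ hroot
      simpa [hfb₂, hfb₄, map_ofNat] using this
    · rw [← hσ] at h6
      simpa [hfb₂, hfb₄, hfb₆, map_ofNat] using h6
  have gt : σ C.t = C.t := by simp [hC, gr, f₁, f₃, map_ofNat]
  have hsq : σ u₀ ^ 2 = u₀ ^ 2 := by
    have := congrArg σ hu₀
    simp only [map_pow, map_add, map_mul, map_ofNat, hfb₂, gr] at this
    rw [this, hu₀]
  have gc : σ c₀ = c₀ := by
    have e := congrArg σ h4c
    simp only [map_mul, map_pow, map_add, map_ofNat, Units.val_inv_eq_inv_val, map_inv₀, hfb₂,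
      hfb₄, hfb₆, gr] at e
    rw [show σ (u : L) = σ u₀ from rfl, inv_pow, show (σ u₀) ^ 6 = ((σ u₀) ^ 2) ^ 3 by ring, hsq,
      ← pow_mul, ← inv_pow] at e
    have e2 : 4 * σ c₀ = 4 * c₀ := by
      rw [e, h4c, Units.val_inv_eq_inv_val]
      rfl
    exact mul_left_cancel₀ (by norm_num) e2
  refine ⟨gr, gt, gc, ?_⟩
  rcases sq_eq_sq_iff_eq_or_eq_neg.1 hsq with h | h
  · exact Or.inl ⟨h, by simp [hC, h, f₁, map_ofNat]⟩
  · refine Or.inr ⟨h, ?_, fun hI => ?_⟩
    · show σ ((u₀ - V.a₁) / 2) = (u₀ - V.a₁) / 2 - u₀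
      rw [map_div₀ σ, map_sub, h, f₁, map_ofNat]
      ring
    · have h3 := hI.sub_lt u₀ hvu.le
      rw [h, show -u₀ - u₀ = -(2 * u₀) by ring, Valuation.map_neg, map_mul, h2, hvu, one_mul] at h3
      exact lt_irrefl _ h3

section Torsion

variable {c : A} (hc0 : c ≠ 0) (hc : A.valuation (algebraMap A L c) < 1)
  [((tateNF c).map (algebraMap A L)).IsElliptic] {p : ℕ} [hp : Fact p.Prime]
  [hchar : CharP (IsLocalRing.ResidueField A) p]


include hc in
/-- A `pᵏ`-torsion point is either big or on the singular part. -/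
theorem val_lt_one_of_torsion {k : ℕ} {x y : L}
    (h : ((tateNF c).map (algebraMap A L)).toAffine.Nonsingular x y)
    (t : p ^ k • Affine.Point.some x y h = 0) (hx : v x ≤ 1) : v x < 1 := by
  have hk : k ≠ 0 := fun h0 => by
    rw [h0, pow_zero, one_nsmul] at t
    exact Affine.Point.some_ne_zero h t
  have hφ : Function.Injective (algebraMap A L) := Subtype.val_injective
  have hn : 1 ≤ p ^ k := Nat.one_le_pow _ _ hp.out.pos
  obtain ⟨a, b, hab⟩ := exists_mulPair (W := tateNF c) hφ (p ^ k) hn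
  set r := IsLocalRing.residue A with hr
  have hc' : r c = 0 := (IsLocalRing.residue_eq_zero_iff _).2 ((A.valuation_lt_one_iff c).2 hc)
  have hW : (tateNF c).map r = ConductorMatch.nodalCubic _ := by
    ext <;> simp [tateNF, ConductorMatch.nodalCubic, WeierstrassCurve.map, hc']
  obtain ⟨-, hnod⟩ := ConductorMatch.mulPair_nodal r hφ hW (p ^ k) hn hab
  set a' : A := ⟨x, A.mem_of_valuation_le_one x hx⟩
  have hb : b.eval a' = 0 := hφ (by
    rw [map_zero, ← Polynomial.eval₂_at_apply, ← Polynomial.eval_map]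
    exact hab.spec_zero x y h t)
  haveI := isAlgClosed_residue A
  obtain ⟨z, hz⟩ := IsAlgClosed.exists_root (Polynomial.C (1 : IsLocalRing.ResidueField A) *
      Polynomial.X ^ 2 + Polynomial.C 1 * Polynomial.X + Polynomial.C (-r a'))
    (by rw [Polynomial.degree_quadratic one_ne_zero]; decide)
  simp only [Polynomial.IsRoot.def, Polynomial.eval_add, Polynomial.eval_mul, Polynomial.eval_C,
    Polynomial.eval_pow, Polynomial.eval_X, one_mul] at hz
  have hzx : z ^ 2 + z = r a' := by linear_combination hz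
  have e := congrArg (Polynomial.eval z) hnod
  rw [Polynomial.eval_comp] at e
  simp only [Polynomial.eval_add, Polynomial.eval_pow, Polynomial.eval_X, Polynomial.eval_mul,
    ConductorMatch.nodalD, Polynomial.eval_sub, Polynomial.eval_one] at e
  rw [hzx, Polynomial.eval_map, Polynomial.eval₂_at_apply, hb, map_zero, add_pow_char_pow, one_pow,
    add_sub_cancel_right, one_pow, mul_one] at e
  have hne : p ^ k * (p ^ k - 1) ≠ 0 := by
    have h2 : 1 < p ^ k := Nat.one_lt_pow hk hp.out.one_lt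
    exact Nat.mul_ne_zero (by omega) (by omega)
  have := (pow_eq_zero_iff hne).1 e.symm
  exact (A.valuation_lt_one_iff a').1 ((IsLocalRing.residue_eq_zero_iff _).1 this)

include hc0 hc in
/-- Singular torsion points have position below a half, and lie on exactly one branch. -/
theorem half_and_branch (hodd : Odd p) (h2 : v (2 : L) = 1) {k : ℕ} {x y : L}
    (h : ((tateNF c).map (algebraMap A L)).toAffine.Nonsingular x y)
    (t : p ^ k • Affine.Point.some x y h = 0) (hx : v x < 1) :
    v (algebraMap A L c) < v x ^ 2 ∧ (v y < v x ∨ v (-y - x) < v x) := by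
  set cc := algebraMap A L c
  have hcpos : 0 < v cc := zero_lt_iff.2 ((map_ne_zero _).2 (by
    simpa [cc] using (FaithfulSMul.algebraMap_injective A L).ne hc0))
  have h4 : v (4 : L) ≤ 1 := by exact_mod_cast val_natCast_le_one (A := A) 4
  have hhalf : v cc < v x ^ 2 := by
    by_contra hle
    push Not at hle
    obtain ⟨j, hj⟩ := hodd.pow (n := k)
    have hnb : ¬ IsBigPoint A (Affine.Point.some x y h + Affine.Point.some x y h) := by
      intro hbig
      have : IsBigPoint A (Affine.Point.some x y h) := by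
        have hb := (redKernel A (tateNF c)).nsmul_mem hbig (j + 1)
        rw [← two_nsmul, ← mul_nsmul, show 2 * (j + 1) = p ^ k + 1 by omega, succ_nsmul, t,
          zero_add] at hb
        exact hb
      rw [isBigPoint_some] at this
      exact not_lt.2 hx.le this
    have hy0 : 2 * y + ((tateNF c).map (algebraMap A L)).a₁ * x +
        ((tateNF c).map (algebraMap A L)).a₃ ≠ 0 := fun h0 => hnb (by
      rw [(add_self_eq_zero_iff h).2 h0]; exact isBigPoint_zero)
    obtain ⟨xb, yb, hb, eb, hxb⟩ := double_of_ne h hy0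
    rw [eb, isBigPoint_some, not_lt] at hnb
    have hxb1 : v xb < 1 := val_lt_one_of_torsion hc (k := k) hb
      (by rw [← eb, nsmul_add, t, add_zero]) hnb
    have hxx : v (x + x) < 1 := val_add_lt _ hx hx
    have hs : v (sP ((tateNF c).map (algebraMap A L)) (x * x) (x + x) 1) = v cc := by
      rw [tateNF_sP, Valuation.map_sub_eq_of_lt_right, Valuation.map_add_eq_of_lt_right]
      · exact val_four_mul_lt hc0 hxx
      · rw [Valuation.map_add_eq_of_lt_right _ (val_four_mul_lt hc0 hxx)]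
        rw [map_pow, map_mul, ← pow_two, ← pow_mul]
        calc v x ^ (2 * 2) = v x ^ 2 * v x ^ 2 := by rw [← pow_add]
          _ ≤ v cc * v cc := by gcongr
          _ < v cc := mul_lt_of_lt_one_right hcpos hc
    have ht : v (tP ((tateNF c).map (algebraMap A L)) (x * x) (x + x) 1) ≤ v cc := by
      rw [tateNF_tP]
      have hxx2 : v (x * x) ≤ v cc := by rwa [map_mul, ← pow_two]
      refine (A.valuation.map_add _ _).trans (max_le hxx2
        ((A.valuation.map_add _ _).trans (max_le ?_ ?_)))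
      · rw [map_mul]
        calc v (2 * (x + x)) * v (x * x) ≤ 1 * v cc := by
              gcongr
              exact val_mul_le_one _ h2.le hxx.le
          _ = v cc := one_mul _
      · rw [map_mul]
        calc v (4 : L) * v cc ≤ 1 * v cc := by gcongr
          _ = v cc := one_mul _
    have := congrArg v hxb
    rw [hs, map_mul] at this
    refine lt_irrefl (v cc) ?_
    calc v cc = v xb * _ := this.symm
      _ ≤ v xb * v cc := by gcongr
      _ < v cc := mul_lt_of_lt_one_left hcpos hxb1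
  refine ⟨hhalf, ?_⟩
  have he := (Affine.equation_iff ..).1 h.1
  simp only [tateNF, WeierstrassCurve.map, map_one, map_zero, one_mul, zero_mul, add_zero] at he
  have hrhs : v (y * (-y - x)) < v x ^ 2 := by
    rw [show y * (-y - x) = -(x ^ 3 + cc) by linear_combination -he, Valuation.map_neg]
    refine val_add_lt _ ?_ hhalf
    rw [map_pow]
    exact pow_lt_pow_right_of_lt_one₀ (lt_of_le_of_ne zero_le fun h0 => by
      rw [← h0, zero_pow two_ne_zero] at hhalf; exact not_lt_zero hhalf) hx (by norm_num)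
  by_contra hcon
  push Not at hcon
  rw [map_mul, pow_two] at hrhs
  exact not_lt.2 (mul_le_mul' hcon.1 hcon.2) hrhs

include hc in
/-- Two points on one branch over one position differ by a point in the kernel of reduction. -/
theorem same_branch_sub_big {k : ℕ} {x₁ y₁ x₂ y₂ : L} (h2 : v (2 : L) = 1)
    (h₁ : ((tateNF c).map (algebraMap A L)).toAffine.Nonsingular x₁ y₁)
    (h₂ : ((tateNF c).map (algebraMap A L)).toAffine.Nonsingular x₂ y₂)
    (t₁ : p ^ k • Affine.Point.some x₁ y₁ h₁ = 0) (t₂ : p ^ k • Affine.Point.some x₂ y₂ h₂ = 0)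
    (hx : v x₂ = v x₁) (hx1 : v x₁ < 1) (hy₁ : v y₁ < v x₁) (hy₂ : v y₂ < v x₁) :
    IsBigPoint A (Affine.Point.some x₂ y₂ h₂ - Affine.Point.some x₁ y₁ h₁) := by
  have hnum : ∀ w : L, v w = v x₁ → v (y₂ + y₁ + w) = v x₁ := fun w hw => by
    rw [Valuation.map_add_eq_of_lt_right _ (by rw [hw]; exact val_add_lt _ hy₂ hy₁), hw]
  rcases eq_or_ne x₂ x₁ with e | e
  · subst e
    rcases (Affine.Point.X_eq_iff (h₁ := h₂) (h₂ := h₁)).1 rfl with e | e
    · rw [e, sub_self]; exact isBigPoint_zero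
    · exfalso
      rw [Affine.Point.neg_some, Affine.Point.some.injEq] at e
      have h0 : y₂ + y₁ + x₂ = 0 := by
        rw [e.2]
        simp [Affine.negY, tateNF]
        ring
      have := hnum x₂ rfl
      rw [h0, map_zero] at this
      exact (lt_of_le_of_lt zero_le hy₁).ne this
  · have ht : p ^ k • (Affine.Point.some x₂ y₂ h₂ - Affine.Point.some x₁ y₁ h₁) = 0 := by
      rw [nsmul_sub, t₁, t₂, sub_zero]
    rw [sub_eq_add_neg, Affine.Point.neg_some, Affine.Point.add_of_X_ne e] at ht ⊢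
    rw [isBigPoint_some]
    by_contra hle
    push Not at hle
    have hlt := val_lt_one_of_torsion hc _ ht hle
    have hd0 : x₂ - x₁ ≠ 0 := sub_ne_zero.2 e
    have hd : v (x₂ - x₁) ≤ v x₁ := (A.valuation.map_sub _ _).trans (max_le hx.le le_rfl)
    have hdp : 0 < v (x₂ - x₁) := zero_lt_iff.2 ((map_ne_zero _).2 hd0)
    rw [Affine.slope_of_X_ne e, Affine.addX] at hlt
    simp only [Affine.negY, tateNF, WeierstrassCurve.map, map_one, map_zero, one_mul, sub_zero]
      at hlt
    set l := (y₂ - (-y₁ - x₁)) / (x₂ - x₁) with hl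
    have hl1 : 1 ≤ v l := by
      rw [hl, map_div₀, show y₂ - (-y₁ - x₁) = y₂ + y₁ + x₁ by ring, hnum x₁ rfl,
        one_le_div₀ hdp]
      exact hd
    have hl2 : 1 ≤ v (l + 1) := by
      rw [hl, div_add_one hd0, map_div₀,
        show y₂ - (-y₁ - x₁) + (x₂ - x₁) = y₂ + y₁ + x₂ by ring, hnum x₂ hx, one_le_div₀ hdp]
      exact hd
    have hbig : 1 ≤ v (l * (l + 1)) := by rw [map_mul]; exact one_le_mul hl1 hl2
    have hsmall : v (x₂ + x₁) < 1 := val_add_lt _ (hx ▸ hx1) hx1
    rw [show l ^ 2 + l - x₂ - x₁ = l * (l + 1) - (x₂ + x₁) by ring,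
      Valuation.map_sub_eq_of_lt_left _ (lt_of_lt_of_le hsmall hbig)] at hlt
    exact not_lt.2 hbig hlt

end Torsion

end Fermat.Agent.R59
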